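import Fermat.Agent.Cardy.RSW
import Mathlib.Analysis.SpecialFunctions.Pow.Real
import Mathlib.Analysis.SpecialFunctions.Log.Basic

/-!
# One arm

Closed rings in dyadic annuli make a long open arm unlikely: its chance decays as a power of
the ratio of the radii.
-/

set_option autoImplicit false

noncomputable section

open Finset
open scoped Classical

namespace FA.Cardy

/-- The sites within `R` of `z` in both coordinates. -/
def box (z : Site) (R : ℕ) : Finset Site := par (z.1 - R) (z.1 + R) (z.2 - R) (z.2 + R)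

/-- On the boundary of the box, or beyond it. -/
def Beyond (z : Site) (R : ℕ) (v : Site) : Prop :=
  v.1 ≤ z.1 - R ∨ z.1 + R ≤ v.1 ∨ v.2 ≤ z.2 - R ∨ z.2 + R ≤ v.2

/-- An open arm from the box of radius `r` to the boundary of the box of radius `R`. -/
def arm (z : Site) (r R : ℕ) : Set (Set Site) :=
  {η | ∃ u v, Conn (η ∩ ↑(box z R)) u v ∧ u ∈ box z r ∧ Beyond z R v}

theorem isUpperSet_arm {z : Site} {r R : ℕ} : IsUpperSet (arm z r R) :=
  fun _ _ hle ⟨u, v, h, hu, hv⟩ => ⟨u, v, h.mono (Set.inter_subset_inter_left _ hle), hu, hv⟩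

theorem depOn_arm {z : Site} {r R : ℕ} : DepOn ↑(box z R) (arm z r R) :=
  fun _ _ he ⟨u, v, h, hu, hv⟩ =>
    ⟨u, v, h.mono fun x hx => ⟨(he x hx.2).1 hx.1, hx.2⟩, hu, hv⟩

/-- The closed sites go round the annulus outside the box of radius `ρ`. -/
def ring (z : Site) (ρ : ℕ) : Set (Set Site) :=
  {η | ηᶜ ∈ btCross (z.1 + ρ + 1) (z.1 + (2 * ρ + 1)) (z.2 - (2 * ρ + 1)) (z.2 + (2 * ρ + 1))} ∩
  {η | ηᶜ ∈ btCross (z.1 - (2 * ρ + 1)) (z.1 - ρ - 1) (z.2 - (2 * ρ + 1)) (z.2 + (2 * ρ + 1))} ∩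
  {η | ηᶜ ∈ lrCross (z.1 - (2 * ρ + 1)) (z.1 + (2 * ρ + 1)) (z.2 + ρ + 1) (z.2 + (2 * ρ + 1))} ∩
  {η | ηᶜ ∈ lrCross (z.1 - (2 * ρ + 1)) (z.1 + (2 * ρ + 1)) (z.2 - (2 * ρ + 1)) (z.2 - ρ - 1)}

theorem not_ring_of_arm {z : Site} {r ρ R : ℕ} (hr : r ≤ ρ) (hR : 2 * ρ + 1 ≤ R) {η : Set Site}
    (h : η ∈ arm z r R) : η ∉ ring z ρ := by
  rintro ⟨⟨⟨hE, hW⟩, hN⟩, hS⟩
  obtain ⟨u, v, h, hu, hv⟩ := h
  have hu' := mem_par.1 hu
  obtain ⟨x, hux, hx, rfl | ⟨y, hyx, huy⟩⟩ :=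
    h.first_visit (P := Beyond z (2 * ρ + 1)) (by simp only [Beyond] at hv ⊢; push_cast; omega)
  · simp only [Beyond] at hx
    push_cast at hx
    omega
  have hins : ∀ a ∈ {a ∈ η ∩ ↑(box z R) | ¬Beyond z (2 * ρ + 1) a}, a ∈ η ∧
      z.1 - (2 * ρ + 1) ≤ a.1 ∧ a.1 ≤ z.1 + (2 * ρ + 1) ∧
      z.2 - (2 * ρ + 1) ≤ a.2 ∧ a.2 ≤ z.2 + (2 * ρ + 1) := fun a ha => by
    have := ha.2
    simp only [Beyond] at this
    push_cast at this
    exact ⟨ha.1.1, by omega, by omega, by omega, by omega⟩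
  set S : Set Site := η ∩ {a | z.1 - (2 * ρ + 1) ≤ a.1 ∧ a.1 ≤ z.1 + (2 * ρ + 1) ∧
    z.2 - (2 * ρ + 1) ≤ a.2 ∧ a.2 ≤ z.2 + (2 * ρ + 1)} with hSdef
  have hpath : Conn S u x := by
    refine (huy.mono fun a ha => hins a ha).step hyx ⟨hux.right_mem.1, ?_⟩
    have hy := huy.right_mem.2
    simp only [Adj] at hyx
    simp only [Beyond] at hy
    push_cast at hy
    exact ⟨by omega, by omega, by omega, by omega⟩
  have hend : ∀ a, Conn S u a →
      (z.1 - (2 * ρ + 1) ≤ a.1 ∧ a.1 ≤ z.1 + (2 * ρ + 1)) ∧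
      z.2 - (2 * ρ + 1) ≤ a.2 ∧ a.2 ≤ z.2 + (2 * ρ + 1) := fun a ha => by
    have := ha.right_mem.2
    simp only [Set.mem_ofPred_eq] at this
    omega
  have hbd := hend x hpath
  simp only [Beyond] at hx
  push_cast at hx
  rcases hx with hx | hx | hx | hx
  · obtain ⟨w, -, hw, rfl | ⟨p, hwp, hpx⟩⟩ :=
      hpath.last_visit (P := fun a => z.1 - ρ ≤ a.1) (by omega)
    · omega
    refine not_lrCross_and_btCross η ⟨⟨x, p, hpx.symm.mono fun a ha => ⟨ha.1.1, ?_⟩, ?_, ?_⟩, hW⟩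
    · have h1 := ha.1.2
      have h2 := ha.2
      simp only [Set.mem_ofPred_eq] at h1
      exact mem_par.2 (by omega)
    · omega
    · have := hpx.left_mem.2
      simp only [Adj] at hwp
      omega
  · obtain ⟨w, -, hw, rfl | ⟨p, hwp, hpx⟩⟩ :=
      hpath.last_visit (P := fun a => a.1 ≤ z.1 + ρ) (by omega)
    · omega
    refine not_lrCross_and_btCross η ⟨⟨p, x, hpx.mono fun a ha => ⟨ha.1.1, ?_⟩, ?_, ?_⟩, hE⟩
    · have h1 := ha.1.2
      have h2 := ha.2
      simp only [Set.mem_ofPred_eq] at h1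
      exact mem_par.2 (by omega)
    · have := hpx.left_mem.2
      simp only [Adj] at hwp
      omega
    · omega
  · obtain ⟨w, -, hw, rfl | ⟨p, hwp, hpx⟩⟩ :=
      hpath.last_visit (P := fun a => z.2 - ρ ≤ a.2) (by omega)
    · omega
    refine not_lrCross_and_btCross (ηᶜ)
      ⟨hS, ⟨x, p, hpx.symm.mono fun a ha => ⟨by simpa using ha.1.1, ?_⟩, ?_, ?_⟩⟩
    · have h1 := ha.1.2
      have h2 := ha.2
      simp only [Set.mem_ofPred_eq] at h1
      exact mem_par.2 (by omega)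
    · omega
    · have := hpx.left_mem.2
      simp only [Adj] at hwp
      omega
  · obtain ⟨w, -, hw, rfl | ⟨p, hwp, hpx⟩⟩ :=
      hpath.last_visit (P := fun a => a.2 ≤ z.2 + ρ) (by omega)
    · omega
    refine not_lrCross_and_btCross (ηᶜ)
      ⟨hN, ⟨p, x, hpx.mono fun a ha => ⟨by simpa using ha.1.1, ?_⟩, ?_, ?_⟩⟩
    · have h1 := ha.1.2
      have h2 := ha.2
      simp only [Set.mem_ofPred_eq] at h1
      exact mem_par.2 (by omega)
    · have := hpx.left_mem.2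
      simp only [Adj] at hwp
      omega
    · omega

theorem depOn_ring (z : Site) (ρ : ℕ) :
    DepOn ↑(box z (2 * ρ + 1) \ box z ρ) (ring z ρ) := by
  have hd : ∀ {F : Finset Site} {A : Set (Set Site)}, F ⊆ box z (2 * ρ + 1) \ box z ρ →
      DepOn ↑F A → DepOn ↑(box z (2 * ρ + 1) \ box z ρ) {η | ηᶜ ∈ A} := fun hF hA η η' he h =>
    (hA.iff fun e hx => by simp only [Set.mem_compl_iff, he e (hF hx)]).1 h
  refine (((hd (fun x hx => ?_) depOn_btCross).inter (hd (fun x hx => ?_) depOn_btCross)).inter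
    (hd (fun x hx => ?_) depOn_lrCross)).inter (hd (fun x hx => ?_) depOn_lrCross) <;>
  · simp only [Finset.mem_sdiff, box, mem_par] at hx ⊢
    push_cast
    omega

theorem pr_closed {F G : Finset Site} (hFG : F ⊆ G) {A : Set (Set Site)} (hA : DepOn ↑F A) :
    pr G {η | ηᶜ ∈ A} = pr F A := by
  have hdep : DepOn ↑F {η : Set Site | ηᶜ ∈ A} := fun η η' he (h : ηᶜ ∈ A) =>
    hA (fun e hx => not_congr (he e hx)) h
  rw [pr_mono_sites hFG hdep, ← pr_flip F A]
  exact pr_congr fun s _ => hA.iff fun x hx => by simp [Finset.mem_coe.1 hx]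

theorem exists_ring_lower : ∃ c : ℝ, 0 < c ∧ ∀ (z : Site) (ρ : ℕ), 1 ≤ ρ →
    c ≤ pr (box z (2 * ρ + 1)) (ring z ρ) := by
  obtain ⟨c, hc, hrsw⟩ := exists_lrCross_lower 6
  refine ⟨c * c * c * c, by positivity, fun z ρ hρ => ?_⟩
  set B := box z (2 * ρ + 1) with hB
  have key : ∀ x₀ y₀ : ℤ, c ≤ pr (par x₀ (x₀ + (4 * ρ + 2)) y₀ (y₀ + ρ))
      (lrCross x₀ (x₀ + (4 * ρ + 2)) y₀ (y₀ + ρ)) := by
    intro x₀ y₀
    refine (hrsw x₀ y₀ ρ).trans ?_
    rw [← pr_mono_sites (D := par x₀ (x₀ + (4 * ρ + 2)) y₀ (y₀ + ρ))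
      (D' := par x₀ (x₀ + ((6 : ℕ) : ℤ) * ρ) y₀ (y₀ + ρ)) (fun a ha => by
        rw [mem_par] at ha ⊢
        push_cast
        omega) depOn_lrCross]
    exact pr_mono fun s _ hs =>
      lrCross_shorter (by omega) (by push_cast; omega) le_rfl le_rfl hs
  have hlow : ∀ {A : Set (Set Site)}, IsUpperSet A → IsLowerSet {η : Set Site | ηᶜ ∈ A} :=
    fun hA _ _ hle h => hA (Set.compl_subset_compl.2 hle) h
  have hbt : ∀ a₀ a₁ b₀ b₁ : ℤ, a₁ = a₀ + ρ → b₁ = b₀ + (4 * ρ + 2) →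
      par a₀ a₁ b₀ b₁ ⊆ B → c ≤ pr B {η | ηᶜ ∈ btCross a₀ a₁ b₀ b₁} := by
    rintro a₀ a₁ b₀ b₁ rfl rfl hsub
    rw [pr_closed hsub depOn_btCross, ← pr_lrCross_eq_btCross]
    exact key b₀ a₀
  have hlr : ∀ a₀ a₁ b₀ b₁ : ℤ, a₁ = a₀ + (4 * ρ + 2) → b₁ = b₀ + ρ →
      par a₀ a₁ b₀ b₁ ⊆ B → c ≤ pr B {η | ηᶜ ∈ lrCross a₀ a₁ b₀ b₁} := by
    rintro a₀ a₁ b₀ b₁ rfl rfl hsub
    rw [pr_closed hsub depOn_lrCross]
    exact key a₀ b₀
  have q₁ := hbt (z.1 + ρ + 1) (z.1 + (2 * ρ + 1)) (z.2 - (2 * ρ + 1)) (z.2 + (2 * ρ + 1))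
    (by ring) (by ring) fun a ha => by
      simp only [hB, box, mem_par] at ha ⊢
      omega
  have q₂ := hbt (z.1 - (2 * ρ + 1)) (z.1 - ρ - 1) (z.2 - (2 * ρ + 1)) (z.2 + (2 * ρ + 1))
    (by ring) (by ring) fun a ha => by
      simp only [hB, box, mem_par] at ha ⊢
      omega
  have q₃ := hlr (z.1 - (2 * ρ + 1)) (z.1 + (2 * ρ + 1)) (z.2 + ρ + 1) (z.2 + (2 * ρ + 1))
    (by ring) (by ring) fun a ha => by
      simp only [hB, box, mem_par] at ha ⊢
      omega
  have q₄ := hlr (z.1 - (2 * ρ + 1)) (z.1 + (2 * ρ + 1)) (z.2 - (2 * ρ + 1)) (z.2 - ρ - 1)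
    (by ring) (by ring) fun a ha => by
      simp only [hB, box, mem_par] at ha ⊢
      omega
  refine (mul_le_mul (mul_le_mul (mul_le_mul q₁ q₂ hc.le (pr_nonneg _ _)) q₃ hc.le
    (mul_nonneg (pr_nonneg _ _) (pr_nonneg _ _))) q₄ hc.le
    (mul_nonneg (mul_nonneg (pr_nonneg _ _) (pr_nonneg _ _)) (pr_nonneg _ _))).trans ?_
  refine (mul_le_mul_of_nonneg_right (mul_le_mul_of_nonneg_right
    (pr_harris_lower (hlow isUpperSet_btCross) (hlow isUpperSet_btCross)) (pr_nonneg _ _))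
    (pr_nonneg _ _)).trans ?_
  refine (mul_le_mul_of_nonneg_right (pr_harris_lower
    ((hlow isUpperSet_btCross).inter (hlow isUpperSet_btCross)) (hlow isUpperSet_lrCross))
    (pr_nonneg _ _)).trans ?_
  exact pr_harris_lower (((hlow isUpperSet_btCross).inter (hlow isUpperSet_btCross)).inter
    (hlow isUpperSet_lrCross)) (hlow isUpperSet_lrCross)

/-- The radius after `j` doublings. -/
def radius (r j : ℕ) : ℕ := 2 ^ j * (r + 1) - 1

theorem radius_succ (r j : ℕ) : radius r (j + 1) = 2 * radius r j + 1 := by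
  have : 1 ≤ 2 ^ j * (r + 1) := Nat.one_le_iff_ne_zero.2 (by positivity)
  simp only [radius, pow_succ']
  rw [mul_assoc]
  omega

theorem le_radius (r j : ℕ) : r ≤ radius r j := by
  have : r + 1 ≤ 2 ^ j * (r + 1) := Nat.le_mul_of_pos_left _ (by positivity)
  simp only [radius]
  omega

theorem radius_mono (r : ℕ) {i j : ℕ} (h : i ≤ j) : radius r i ≤ radius r j := by
  have : 2 ^ i * (r + 1) ≤ 2 ^ j * (r + 1) :=
    Nat.mul_le_mul_right _ (Nat.pow_le_pow_right (by norm_num) h)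
  simp only [radius]
  omega

theorem box_mono (z : Site) {r R : ℕ} (h : r ≤ R) : box z r ⊆ box z R := fun a ha => by
  simp only [box, mem_par] at ha ⊢
  omega

theorem pr_no_ring {q : ℝ} (hq : 0 ≤ q)
    (hring : ∀ (z : Site) (ρ : ℕ), 1 ≤ ρ → pr (box z (2 * ρ + 1)) (ring z ρ)ᶜ ≤ q)
    (z : Site) {r : ℕ} (hr : 1 ≤ r) (J : ℕ) :
    pr (box z (radius r J)) (⋂ j ∈ Finset.range J, (ring z (radius r j))ᶜ) ≤ q ^ J := by
  induction J with
  | zero => simp [pr_univ]
  | succ J ih =>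
    set A := ⋂ j ∈ Finset.range J, (ring z (radius r j))ᶜ with hA
    have hdA : DepOn ↑(box z (radius r J)) A := by
      intro η η' he h
      simp only [hA, Set.mem_iInter] at h ⊢
      intro j hj
      have hsub : box z (2 * radius r j + 1) \ box z (radius r j) ⊆ box z (radius r J) :=
        sdiff_subset.trans (box_mono z ((radius_succ r j).ge.trans
          (radius_mono r (Finset.mem_range.1 hj))))
      exact ((depOn_ring z (radius r j)).compl.mono (Finset.coe_subset.2 hsub)) he (h j hj)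
    have e : (⋂ j ∈ Finset.range (J + 1), (ring z (radius r j))ᶜ) =
        A ∩ (ring z (radius r J))ᶜ := by
      rw [Finset.range_add_one, Finset.set_biInter_insert, Set.inter_comm]
    rw [e, pr_inter_mul (D := box z (radius r (J + 1))) (box_mono z (radius_mono r (by omega)))
      (radius_succ r J ▸ sdiff_subset) Finset.disjoint_sdiff hdA (depOn_ring z _).compl, pow_succ]
    refine mul_le_mul ?_ ?_ (pr_nonneg _ _) (by positivity)
    · rwa [pr_mono_sites (box_mono z (radius_mono r (by omega))) hdA]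
    · rw [radius_succ]
      exact hring z _ (hr.trans (le_radius r J))

/-- **One arm decays as a power.** -/
theorem exists_arm_bound : ∃ C α : ℝ, 0 < C ∧ 0 < α ∧ ∀ (z : Site) (r R : ℕ), 1 ≤ r → r ≤ R →
    pr (box z R) (arm z r R) ≤ C * ((r : ℝ) / R) ^ α := by
  obtain ⟨c, hc, hring⟩ := exists_ring_lower
  set q : ℝ := max (1 - c) (1 / 2) with hq
  have hq0 : 0 < q := lt_of_lt_of_le (by norm_num) (le_max_right _ _)
  have hq1 : q < 1 := max_lt (by linarith) (by norm_num)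
  set α : ℝ := -Real.log q / Real.log 2 with hα
  have hl2 : 0 < Real.log 2 := Real.log_pos (by norm_num)
  have hαpos : 0 < α := div_pos (neg_pos.2 (Real.log_neg hq0 hq1)) hl2
  refine ⟨4 ^ α, α, by positivity, hαpos, fun z r R hr hrR => ?_⟩
  obtain ⟨J, hJ1, hJ2⟩ : ∃ J : ℕ, 2 ^ J * (r + 1) ≤ R + 1 ∧ R + 1 < 2 ^ (J + 1) * (r + 1) := by
    refine ⟨Nat.log 2 ((R + 1) / (r + 1)), ?_, ?_⟩
    · exact (Nat.le_div_iff_mul_le (by omega)).1 (Nat.pow_log_le_self 2
        (Nat.pos_iff_ne_zero.1 (Nat.div_pos (by omega) (by omega))))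
    · have h := Nat.lt_pow_succ_log_self (by norm_num : 1 < 2) ((R + 1) / (r + 1))
      exact (Nat.div_lt_iff_lt_mul (by omega)).1 h
  have hJR : radius r J ≤ R := by
    simp only [radius]
    omega
  have hA : pr (box z R) (arm z r R) ≤ q ^ J := by
    refine le_trans ?_ (pr_no_ring hq0.le (fun z ρ hρ => ?_) z hr J)
    · rw [← pr_mono_sites (box_mono z hJR) (D := box z (radius r J))
        (A := ⋂ j ∈ Finset.range J, (ring z (radius r j))ᶜ)]
      · refine pr_mono fun s _ hs => Set.mem_iInter₂.2 fun j hj => not_ring_of_arm (le_radius r j)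
          ?_ hs
        exact ((radius_succ r j).ge.trans (radius_mono r (Finset.mem_range.1 hj))).trans hJR
      · intro η η' he h
        simp only [Set.mem_iInter] at h ⊢
        intro j hj
        have hsub : box z (2 * radius r j + 1) \ box z (radius r j) ⊆ box z (radius r J) :=
          sdiff_subset.trans (box_mono z ((radius_succ r j).ge.trans
            (radius_mono r (Finset.mem_range.1 hj))))
        exact ((depOn_ring z (radius r j)).compl.mono (Finset.coe_subset.2 hsub)) he (h j hj)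
    · rw [pr_compl]
      exact le_trans (by linarith [hring z ρ hρ]) (le_max_left _ _)
  refine hA.trans ?_
  have hqα : q = (1 / 2 : ℝ) ^ α := by
    rw [Real.rpow_def_of_pos (by norm_num), one_div, Real.log_inv, hα]
    field_simp
    rw [Real.exp_log hq0]
  have hR : (0 : ℝ) < R := by
    have : 0 < R := by omega
    exact_mod_cast this
  rw [hqα, ← Real.rpow_natCast, ← Real.rpow_mul (by norm_num), mul_comm α, Real.rpow_mul
    (by norm_num), Real.rpow_natCast, ← Real.mul_rpow (by norm_num) (by positivity)]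
  refine Real.rpow_le_rpow (by positivity) ?_ hαpos.le
  rw [one_div_pow, mul_div_assoc', div_le_div_iff₀ (by positivity) hR, one_mul]
  have h : (R : ℝ) + 1 < 2 ^ (J + 1) * ((r : ℝ) + 1) := by exact_mod_cast hJ2
  have hr1 : (1 : ℝ) ≤ r := by exact_mod_cast hr
  have hp : (0 : ℝ) < 2 ^ J := by positivity
  rw [pow_succ] at h
  nlinarith

end FA.Cardy
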