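import Fermat.Agent.Cardy.Estimate
import Mathlib.Analysis.Complex.Basic
import Mathlib.Analysis.Real.Sqrt

/-!
# Discrete contour sums

The combination of the three observables by cube roots of unity has vanishing sums round every
face, hence round every parallelogram of the lattice.
-/

set_option autoImplicit false

noncomputable section

open Finset
open scoped Classical

namespace FA.Cardy

/-- The first cube root of unity. -/
def tau : ℂ := ⟨-1 / 2, Real.sqrt 3 / 2⟩

theorem tau_sq_add : tau ^ 2 + tau + 1 = 0 := by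
  have h : Real.sqrt 3 * Real.sqrt 3 = 3 := Real.mul_self_sqrt (by norm_num)
  apply Complex.ext <;> simp [tau, pow_two] <;> linarith

/-- The combined observable. -/
def obsC (N : ℕ) (e : Edge) : ℂ :=
  (obs N 0 e : ℂ) + tau * (obs N 1 e : ℂ) + tau ^ 2 * (obs N 2 e : ℂ)

theorem face_sum_zero {N : ℕ} (hN : 3 ≤ N) {F : Face} (hF : FaceIn N F)
    (hreg : ∀ i, Regular N (sideEdge F i)) :
    tau * obsC N (sideEdge F 0) + tau ^ 2 * obsC N (sideEdge F 1) + obsC N (sideEdge F 2) = 0 := by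
  set a : Fin 3 → Fin 3 → ℝ := fun k j => obs N k (sideEdge F j) with ha
  have h : ∀ k j, a (k + 1) (j + 1) - a k j = a (k + 1) 1 - a k 0 := obs_face hN hF hreg
  obtain ⟨c, hc⟩ : ∃ c : Fin 3 → ℝ, ∀ k j, a (k + 1) (j + 1) = a k j + c k :=
    ⟨fun k => a (k + 1) 1 - a k 0, fun k j => by linarith [h k j]⟩
  have e1 : a 1 1 = a 0 0 + c 0 := hc 0 0
  have e2 : a 2 2 = a 0 0 + (c 0 + c 1) := by
    have : a 2 2 = a 1 1 + c 1 := hc 1 1
    linarith
  have e3 : a 1 2 = a 0 1 + c 0 := hc 0 1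
  have e4 : a 2 0 = a 0 1 + (c 0 + c 1) := by
    have : a 2 0 = a 1 2 + c 1 := hc 1 2
    linarith
  have e5 : a 1 0 = a 0 2 + c 0 := hc 0 2
  have e6 : a 2 1 = a 0 2 + (c 0 + c 1) := by
    have : a 2 1 = a 1 0 + c 1 := hc 1 0
    linarith
  simp only [obsC, show ∀ k j, obs N k (sideEdge F j) = a k j from fun _ _ => rfl]
  rw [e1, e2, e3, e4, e5, e6]
  push_cast
  linear_combination (tau * (a 0 0 : ℂ) + tau * (a 0 1 : ℂ) +
    (tau ^ 2 - tau + 1) * (a 0 2 : ℂ) + tau * (c 0 : ℂ) +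
    tau ^ 2 * ((c 0 : ℂ) + (c 1 : ℂ))) * tau_sq_add

/-- The sum round a parallelogram of edges vanishes. -/
theorem parallelogram_sum_zero {N : ℕ} (hN : 3 ≤ N) {a b : ℤ} (ha : 1 ≤ a) (hb : 1 ≤ b)
    {m l : ℕ} (h : a + m + (b + l) + 1 ≤ (N : ℤ)) :
    ∑ i ∈ range m, (obsC N ((a + i, b), 2) - obsC N ((a + i, b + l), 2)) +
      tau ^ 2 * ∑ j ∈ range l, (obsC N ((a, b + j), 1) - obsC N ((a + m, b + j), 1)) = 0 := by
  have hreg : ∀ (x y : ℤ) (i : Fin 3), 1 ≤ x → 1 ≤ y → x + y < (N : ℤ) →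
      Regular N ((x, y), i) := fun x y i h1 h2 h3 => by
    refine ⟨mem_edges.2 (by simp only; omega), fun k hk => ?_⟩
    fin_cases k <;> simp [cornerEdge] at hk <;> omega
  have key : ∀ i ∈ range m, ∀ j ∈ range l,
      tau ^ 2 * (obsC N ((a + i, b + j), 1) - obsC N ((a + (i + 1 : ℕ), b + j), 1)) +
        (obsC N ((a + i, b + j), 2) - obsC N ((a + i, b + (j + 1 : ℕ)), 2)) = 0 := by
    intro i hi j hj
    rw [Finset.mem_range] at hi hj
    have hi' : (i : ℤ) + 1 ≤ m := by omega
    have hj' : (j : ℤ) + 1 ≤ l := by omega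
    have up := face_sum_zero hN (F := ((a + i, b + j), true)) (by simp [FaceIn]; omega)
      (fun t => by
        simp only [sideEdge, halfAt, if_true]
        exact hreg _ _ _ (by omega) (by omega) (by omega))
    have down := face_sum_zero hN (F := ((a + i, b + j), false)) (by simp [FaceIn]; omega)
      (fun t => by
        fin_cases t <;> simp [sideEdge, halfAt, corner] <;>
          exact hreg _ _ _ (by omega) (by omega) (by omega))
    simp [sideEdge, halfAt, corner] at up down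
    push_cast
    simp only [← add_assoc]
    linear_combination up - down
  have hsum : ∑ i ∈ range m, ∑ j ∈ range l,
      (tau ^ 2 * (obsC N ((a + i, b + j), 1) - obsC N ((a + (i + 1 : ℕ), b + j), 1)) +
        (obsC N ((a + i, b + j), 2) - obsC N ((a + i, b + (j + 1 : ℕ)), 2))) = 0 :=
    sum_eq_zero fun i hi => sum_eq_zero fun j hj => key i hi j hj
  simp only [sum_add_distrib] at hsum
  have e1 : ∀ i : ℕ, ∑ j ∈ range l,
      (obsC N ((a + i, b + j), 2) - obsC N ((a + i, b + (j + 1 : ℕ)), 2)) =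
      obsC N ((a + i, b), 2) - obsC N ((a + i, b + l), 2) := fun i => by
    rw [sum_range_sub' (fun j : ℕ => obsC N ((a + i, b + j), 2))]
    simp
  have e2 : ∀ j : ℕ, ∑ i ∈ range m,
      tau ^ 2 * (obsC N ((a + i, b + j), 1) - obsC N ((a + (i + 1 : ℕ), b + j), 1)) =
      tau ^ 2 * (obsC N ((a, b + j), 1) - obsC N ((a + m, b + j), 1)) := fun j => by
    rw [← mul_sum, sum_range_sub' (fun i : ℕ => obsC N ((a + i, b + j), 1))]
    simp
  rw [Finset.sum_comm, sum_congr rfl fun j _ => e2 j, sum_congr rfl fun i _ => e1 i] at hsum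
  rw [mul_sum]
  linear_combination hsum

end FA.Cardy
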