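import Fermat.Agent.Cardy.Vertex
import Fermat.Agent.Cardy.Arm

/-!
# The observable on the side of the triangle

For an edge on the side opposite the first corner the observable of the third corner is exactly
the chance of a crossing between the two arcs it does not separate.
-/

set_option autoImplicit false

noncomputable section

open Finset
open scoped Classical symmDiff

namespace FA.Cardy

/-- The edge on the side `a + b = N` at first coordinate `x`. -/
def sidePoint (N x : ℕ) : Edge := (((x : ℤ), (N : ℤ) - 1 - x), 0)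

/-- The colours of the four arcs. -/
def arcCol (N x : ℕ) (w : Site) : ZMod 2 :=
  if (w.2 = 0 ∧ 1 ≤ w.1) ∨ (w.1 + w.2 = (N : ℤ) ∧ w.1 ≤ (x : ℤ)) then 1 else 0

/-- Closed sites join the left side to the side opposite the first corner, beyond `x`. -/
def closedCross (N x : ℕ) : Set (Set Site) :=
  {η | ∃ u v, Conn (ηᶜ ∩ ↑(inner N)) u v ∧ u.1 = 1 ∧ v.1 + v.2 = (N : ℤ) - 1 ∧ (x : ℤ) ≤ v.1}

/-- Open sites join the bottom to the side opposite the first corner, up to `x`. -/
def openCross (N x : ℕ) : Set (Set Site) :=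
  {η | ∃ u v, Conn (η ∩ ↑(inner N)) u v ∧ u.2 = 1 ∧ v.1 + v.2 = (N : ℤ) - 1 ∧ v.1 ≤ (x : ℤ)}

theorem not_closedCross_and_openCross {N x : ℕ} (hx : x + 2 ≤ N) (η : Set Site) :
    ¬(η ∈ closedCross N x ∧ η ∈ openCross N x) := by
  rintro ⟨⟨u, v, h, hu, hv, hvx⟩, u', v', h', hu', hv', hvx'⟩
  have hv1 := mem_inner.1 h.right_mem.2
  have hv1' := mem_inner.1 h'.right_mem.2
  set row : Set Site := {w | w.2 = v.2 ∧ v.1 + 1 ≤ w.1 ∧ w.1 ≤ (N : ℤ)} with hrow
  set col : Set Site := {w | w.1 = v'.1 ∧ v'.2 + 1 ≤ w.2 ∧ w.2 ≤ (N : ℤ)} with hcol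
  have hS : Conn ({w | Conn (ηᶜ ∩ ↑(inner N)) u w} ∪ row) u ((N : ℤ), v.2) := by
    refine ((h.cluster.mono Set.subset_union_left).step (w := (v.1 + 1, v.2)) ?_ ?_).trans
      ((conn_row v.2 (by omega)).mono fun w hw => Or.inr hw)
    · simp only [Adj]
      omega
    · exact Or.inr ⟨rfl, le_rfl, by show v.1 + 1 ≤ (N : ℤ); omega⟩
  have hS' : Conn ({w | Conn (η ∩ ↑(inner N)) u' w} ∪ col) u' (v'.1, (N : ℤ)) := by
    have hup := (conn_row (a := v'.2 + 1) (a' := (N : ℤ)) v'.1 (by omega)).map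
      (f := fun w : Site => (w.2, w.1)) (S' := col) (fun p q hpq => by
        simp only [Adj] at hpq ⊢
        omega) fun w hw => ⟨hw.1, hw.2.1, hw.2.2⟩
    refine ((h'.cluster.mono Set.subset_union_left).step (w := (v'.1, v'.2 + 1)) ?_ ?_).trans
      (hup.mono Set.subset_union_right)
    · simp only [Adj]
      omega
    · exact Or.inr ⟨rfl, le_rfl, by show v'.2 + 1 ≤ (N : ℤ); omega⟩
  obtain ⟨w, hw, hw'⟩ := exists_meet (x₀ := 1) (x₁ := (N : ℤ)) (y₀ := 1) (y₁ := (N : ℤ))
    (fun w hw => by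
      rcases hw with hw | hw
      · have := mem_inner.1 hw.right_mem.2
        omega
      · simp only [hrow, Set.mem_ofPred_eq] at hw
        omega)
    (fun w hw => by
      rcases hw with hw | hw
      · have := mem_inner.1 hw.right_mem.2
        omega
      · simp only [hcol, Set.mem_ofPred_eq] at hw
        omega)
    hS hu.le le_rfl hS' hu'.le le_rfl
  rcases hw with hw | hw <;> rcases hw' with hw' | hw'
  · exact hw.right_mem.1 hw'.right_mem.1
  · have := mem_inner.1 hw.right_mem.2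
    simp only [hcol, Set.mem_ofPred_eq] at hw'
    omega
  · have := mem_inner.1 hw'.right_mem.2
    simp only [hrow, Set.mem_ofPred_eq] at hw
    omega
  · simp only [hrow, hcol, Set.mem_ofPred_eq] at hw hw'
    omega

theorem regular_sidePoint {N x : ℕ} (hx : x + 2 ≤ N) :
    Regular N (sidePoint N x) := by
  refine ⟨by simp [sidePoint, mem_edges]; omega, fun k => ?_⟩
  fin_cases k <;> simp [sidePoint, cornerEdge]
  omega

theorem bdry_arcCol {N x : ℕ} (h1 : 1 ≤ x) (hx : x + 2 ≤ N) :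
    bdry N (arcCol N x) = defects N (sidePoint N x) := by
  ext ⟨⟨a, b⟩, i⟩
  simp only [bdry, defects, Finset.mem_filter, mem_edges, mem_halves, FaceIn, Finset.mem_insert,
    Finset.mem_singleton, cornerEdge, sidePoint, arcCol]
  fin_cases i <;>
    simp [faceOf, lft, rgt, vert, corner] <;> split_ifs <;>
    simp [CharTwo.add_self_eq_zero] <;> omega

/-- The part of a walk between two arcs of the boundary. -/
theorem conn_trim {N : ℕ} {β : Site → ZMod 2} {η : Set Site} {u : ZMod 2}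
    {P Q : Site → Prop} (hPQ : ∀ w, InTri N w → w ∉ inner N → β w = u → P w ∨ Q w)
    (hadj : ∀ w z, P w → Q z → InTri N w → InTri N z → ¬Adj w z ∧ w ≠ z) {a b : Site}
    (ha : P a) (hb : Q b) (h : Conn (colourSet N (colOf N β η) u) a b) :
    ∃ p q w w', P w ∧ InTri N w ∧ Adj w p ∧ Q w' ∧ InTri N w' ∧ Adj q w' ∧
      Conn ({w | colOf N β η w = u} ∩ ↑(inner N)) p q := by
  obtain ⟨w, haw, hw, rfl | ⟨p, hwp, hpb⟩⟩ := h.last_visit ha
  · exact absurd rfl (hadj w w hw hb haw.right_mem.1 haw.right_mem.1).2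
  obtain ⟨w', hpw', hw', rfl | ⟨q, hqw', hpq⟩⟩ := hpb.first_visit hb
  · exact absurd hwp (hadj w w' hw hw' haw.right_mem.1 hpw'.right_mem.1.1).1
  refine ⟨p, q, w, w', hw, haw.right_mem.1, hwp, hw', hpw'.right_mem.1.1, hqw',
    hpq.mono fun z hz => ⟨hz.1.1.2, ?_⟩⟩
  by_contra hzi
  rw [Finset.mem_coe] at hzi
  have hcol := hz.1.1.2
  rw [colOf, if_neg hzi] at hcol
  exact (hPQ z hz.1.1.1 hzi hcol).elim hz.1.2 hz.2

theorem defectHalf_boundary {N : ℕ} {D : Finset Edge} {ω : Finset Half} (hv : Valid N D ω)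
    {e : Edge} (he : e ∈ D) (hf : (e, false) ∉ halves N) : defectHalf ω e = (e, true) := by
  refine Prod.ext rfl ?_
  by_contra h
  have := hv.1 (hv.defectHalf_mem he)
  rw [show defectHalf ω e = (e, false) from Prod.ext rfl (by simpa using h)] at this
  exact hf this

/-- The endpoints of an edge, in either order. -/
theorem lft_eq_end (t : Half) : lft t = lft (t.1, true) ∨ lft t = rgt (t.1, true) := by
  obtain ⟨e, s⟩ := t
  cases s
  · exact Or.inr (lft_false e)
  · exact Or.inl rfl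

theorem colour_val : ∀ {p : Prop} [Decidable p], (if p then (1 : ZMod 2) else 0) = 0 ↔ ¬p := by
  intro p _
  split_ifs with h <;> simp [h]

/-- The joins read off as crossings. -/
theorem cross_of_joins {N x : ℕ} (h1 : 1 ≤ x) (hx : x + 2 ≤ N) {s : Finset Site} {k : Fin 3}
    (hk : Joins (cfgOf N (colOf N (arcCol N x) ↑s)) (cornerEdge N k) (sidePoint N x)) :
    (k = 2 → (↑s : Set Site) ∈ closedCross N x) ∧ (k = 1 → (↑s : Set Site) ∈ openCross N x) ∧
      k ≠ 0 := by
  set σ := colOf N (arcCol N x) ↑s with hσ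
  set ω := cfgOf N σ with hω
  have hreg := regular_sidePoint hx
  have hv : Valid N (defects N (sidePoint N x)) ω := bdry_arcCol h1 hx ▸ valid_cfgOf _ _
  have hcD : ∀ j, cornerEdge N j ∈ defects N (sidePoint N x) := fun j =>
    mem_defects.2 (Or.inr ⟨j, rfl⟩)
  have hbd : ∀ j, (cornerEdge N j, false) ∉ halves N := fun j => by
    fin_cases j <;> simp [cornerEdge, mem_halves, FaceIn, faceOf, corner]
  have other : ∀ j, j ≠ k → ∃ j', j' ≠ j ∧ j' ≠ k ∧ Joins ω (cornerEdge N j) (cornerEdge N j') := by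
    intro j hj
    obtain ⟨y, hy, hyne, hjy⟩ := hv.exists_joins (hcD j)
    rcases mem_defects.1 hy with rfl | ⟨j', rfl⟩
    · exact absurd ((existsUnique_joins hv).unique hjy hk) hj
    refine ⟨j', fun h => hyne (h ▸ rfl), fun h => ?_, hjy⟩
    have h2 := (hv.joins_symm (hcD j) hjy).2
    rw [h] at h2
    exact hreg.2 j (hk.unique h2)
  have walk : ∀ (j j' : Fin 3) (u : ZMod 2), Joins ω (cornerEdge N j) (cornerEdge N j') →
      σ (rgt (cornerEdge N j, true)) = u → σ (lft (cornerEdge N j, true)) = u + 1 →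
      ∃ y, (y = lft (cornerEdge N j', true) ∨ y = rgt (cornerEdge N j', true)) ∧
        Conn (colourSet N σ u) (rgt (cornerEdge N j, true)) y := by
    rintro j j' u ⟨t, ⟨n, hn, -, rfl⟩, hte⟩ hr hl
    have hd := defectHalf_boundary hv (hcD j) (hbd j)
    have hd' : (cornerEdge N j, true) ∈ ω := hd ▸ hv.defectHalf_mem (hcD j)
    obtain ⟨-, -, -, -, hc⟩ := strand_hand (S := ∅) hv (by simp) (by simp)
      (by rw [Finset.sdiff_empty]) hd' (by simp) ⟨hr, hl⟩ n (hd ▸ hn)
    rw [← hd] at hc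
    refine ⟨_, ?_, hd ▸ hc⟩
    rw [← hte]
    rw [hd] at hc ⊢
    exact lft_eq_end _
  refine ⟨?_, ?_, ?_⟩
  · rintro rfl
    obtain ⟨j', hj1, hj2, hjj⟩ := other 1 (by decide)
    obtain rfl : j' = 0 := (by decide : ∀ i : Fin 3, i ≠ 1 → i ≠ 2 → i = 0) j' hj1 hj2
    obtain ⟨y, hy, hc⟩ := walk 1 0 0 hjj
      (by simp [hσ, colOf, cornerEdge, rgt, vert, faceOf, corner, mem_inner, arcCol]; omega)
      (by simp [hσ, colOf, cornerEdge, lft, vert, faceOf, corner, mem_inner, arcCol]; omega)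
    set P : Site → Prop := fun w => w.1 + w.2 = (N : ℤ) ∧ 1 ≤ w.2 ∧ (x : ℤ) + 1 ≤ w.1 with hP
    set Q : Site → Prop := fun w => w.1 = 0 ∧ w.2 + 1 ≤ (N : ℤ) with hQ
    have hPQ : ∀ w, InTri N w → w ∉ inner N → arcCol N x w = 0 → P w ∨ Q w := by
      intro w hw hwi hc
      rw [arcCol, colour_val] at hc
      simp only [hP, hQ, InTri, mem_inner] at hw hwi ⊢
      omega
    have hyQ : Q y := by
      have hy0 := hc.right_mem.2
      rcases hy with rfl | rfl <;>
        simp [hσ, colOf, cornerEdge, lft, rgt, vert, faceOf, corner, mem_inner, arcCol, hQ] at hy0 ⊢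
      omega
    obtain ⟨p, q, w, w', hw, hwi, hwp, hw', hwi', hqw', hpq⟩ := conn_trim hPQ
      (fun w z hw hz _ _ => by
        simp only [hP, hQ, Adj] at hw hz ⊢
        refine ⟨by omega, fun h => ?_⟩
        subst h
        omega)
      (by simp [hP, cornerEdge, rgt, vert, faceOf, corner]; omega) hyQ hc
    have hp := mem_inner.1 hpq.left_mem.2
    have hq := mem_inner.1 hpq.right_mem.2
    simp only [hP, hQ, Adj] at hw hw' hwp hqw'
    refine ⟨q, p, hpq.symm.mono fun z hz => ⟨?_, hz.2⟩, by omega, by omega, by omega⟩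
    have hz1 := hz.1
    simp only [Set.mem_ofPred_eq, colOf, if_pos (Finset.mem_coe.1 hz.2), colour_val] at hz1
    exact hz1
  · rintro rfl
    obtain ⟨j', hj1, hj2, hjj⟩ := other 0 (by decide)
    obtain rfl : j' = 2 := (by decide : ∀ i : Fin 3, i ≠ 0 → i ≠ 1 → i = 2) j' hj1 hj2
    obtain ⟨y, hy, hc⟩ := walk 0 2 1 hjj
      (by simp [hσ, colOf, cornerEdge, rgt, vert, faceOf, corner, mem_inner, arcCol])
      (by simp [hσ, colOf, cornerEdge, lft, vert, faceOf, corner, mem_inner, arcCol,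
        CharTwo.add_self_eq_zero]; omega)
    set P : Site → Prop := fun w => w.2 = 0 ∧ 1 ≤ w.1 with hP
    set Q : Site → Prop := fun w => w.1 + w.2 = (N : ℤ) ∧ w.1 ≤ (x : ℤ) with hQ
    have hPQ : ∀ w, InTri N w → w ∉ inner N → arcCol N x w = 1 → P w ∨ Q w := by
      intro w _ _ hc
      rw [arcCol] at hc
      split_ifs at hc with h
      · exact h
      · exact absurd hc zero_ne_one
    have hyQ : Q y := by
      have hy0 := hc.right_mem.2
      rcases hy with rfl | rfl <;>
        simp [hσ, colOf, cornerEdge, lft, rgt, vert, faceOf, corner, mem_inner, arcCol, hQ] at hy0 ⊢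
    obtain ⟨p, q, w, w', hw, hwi, hwp, hw', hwi', hqw', hpq⟩ := conn_trim hPQ
      (fun w z hw hz _ _ => by
        simp only [hP, hQ, Adj] at hw hz ⊢
        refine ⟨by omega, fun h => ?_⟩
        subst h
        omega)
      (by simp [hP, cornerEdge, rgt, vert, faceOf, corner]) hyQ hc
    have hp := mem_inner.1 hpq.left_mem.2
    have hq := mem_inner.1 hpq.right_mem.2
    simp only [hP, hQ, Adj] at hw hw' hwp hqw'
    refine ⟨p, q, hpq.mono fun z hz => ⟨?_, hz.2⟩, by omega, by omega, by omega⟩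
    have hz1 := hz.1
    simp only [Set.mem_ofPred_eq, colOf, if_pos (Finset.mem_coe.1 hz.2)] at hz1
    by_contra hn
    rw [if_neg hn] at hz1
    exact zero_ne_one hz1
  · rintro rfl
    have h0 := obs_zero_opposite (by omega : 3 ≤ N) hreg rfl
      (by simp [sidePoint])
    rw [obs, div_eq_zero_iff, Nat.cast_eq_zero, Finset.card_eq_zero] at h0
    have hmem : ω ∈ (confSet N (defects N (sidePoint N x))).filter
        fun ω => Joins ω (cornerEdge N 0) (sidePoint N x) :=
      Finset.mem_filter.2 ⟨mem_confSet.2 hv, hk⟩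
    rcases h0 with h0 | h0
    · rw [h0] at hmem
      exact absurd hmem (Finset.notMem_empty _)
    · exact absurd h0 (by positivity)

theorem obs_eq_pr {N x : ℕ} (h1 : 1 ≤ x) (hx : x + 2 ≤ N) :
    obs N 2 (sidePoint N x) = pr (inner N) (closedCross N x) ∧
      obs N 1 (sidePoint N x) = pr (inner N) (openCross N x) := by
  have hv : ∀ s : Finset Site,
      Valid N (defects N (sidePoint N x)) (cfgOf N (colOf N (arcCol N x) ↑s)) := fun s =>
    bdry_arcCol h1 hx ▸ valid_cfgOf _ _
  have key : ∀ (k : Fin 3) (E : Set (Set Site)),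
      (∀ s : Finset Site, Joins (cfgOf N (colOf N (arcCol N x) ↑s)) (cornerEdge N k)
        (sidePoint N x) ↔ (↑s : Set Site) ∈ E) →
      obs N k (sidePoint N x) = pr (inner N) E := by
    intro k E h
    rw [obs, ← bdry_arcCol h1 hx, card_confSet_bdry, pr, confs]
    congr 3
    exact Finset.filter_congr fun s _ => h s
  have excl := not_closedCross_and_openCross hx
  refine ⟨key 2 _ fun s => ⟨fun h => (cross_of_joins h1 hx h).1 rfl, fun h => ?_⟩,
    key 1 _ fun s => ⟨fun h => (cross_of_joins h1 hx h).2.1 rfl, fun h => ?_⟩⟩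
  all_goals
    obtain ⟨j, hj, -⟩ := existsUnique_joins (hv s)
    obtain ⟨g2, g1, g0⟩ := cross_of_joins h1 hx hj
    fin_cases j
  · exact absurd rfl g0
  · exact absurd ⟨h, g1 rfl⟩ (excl _)
  · exact hj
  · exact absurd rfl g0
  · exact hj
  · exact absurd ⟨g2 rfl, h⟩ (excl _)

end FA.Cardy
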