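import Fermat.Agent.Cardy.Crossing

/-!
# Equicontinuity of the observables

If moving the defect a little changes the joined corner, an interface passes near it, and given
the strand to the corner this forces a long arm. So the observables are equicontinuous at every
scale of the mesh, up to the boundary.
-/

set_option autoImplicit false

noncomputable section

open Finset
open scoped Classical symmDiff

namespace FA.Cardy

/-- The halves of the strand at an edge. -/
def strandOf (ω : Finset Half) (e : Edge) : Finset Half :=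
  ω.filter fun x => ∃ k, x = (across ω ∘ mate ω)^[k] (defectHalf ω e) ∨
    x = mate ω ((across ω ∘ mate ω)^[k] (defectHalf ω e))

theorem Strip.strandOf_eq {N : ℕ} {ω : Finset Half} {e f : Edge} {n : ℕ}
    (hS : Strip N ω (strandSet ω (defectHalf ω e) n) e f) :
    strandOf ω e = strandSet ω (defectHalf ω e) n := by
  have hk : ∀ k, (across ω ∘ mate ω)^[k] (defectHalf ω e) ∈ strandSet ω (defectHalf ω e) n := by
    intro k
    induction k with
    | zero => exact mem_strandSet.2 ⟨0, Nat.zero_le _, Or.inl rfl⟩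
    | succ k ih =>
      rw [strand_succ]
      exact hS.across_mem _ (hS.mate_mem _ ih)
  ext x
  simp only [strandOf, Finset.mem_filter]
  constructor
  · rintro ⟨-, k, rfl | rfl⟩
    exacts [hk k, hS.mate_mem _ (hk k)]
  · intro hx
    obtain ⟨k, -, h⟩ := mem_strandSet.1 hx
    refine ⟨hS.subset hx, k, h⟩

theorem closed_agree {N : ℕ} {D D' : Finset Edge} {ω S : Finset Half} (hv : Valid N D ω)
    (hS : Valid N D' S) (hsub : S ⊆ ω) (hm : ∀ x ∈ S, mate ω x ∈ S)
    (hr : ∀ x ∈ S, across ω x ∈ S) {x : Half} (hx : x ∈ S) :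
    mate ω x = mate S x ∧ across ω x = across S x := by
  refine ⟨?_, ?_⟩
  · have h := hm x hx
    rcases hv.mate_cases (hsub hx) with ⟨g1, g2, e⟩ | ⟨g1, g2, e⟩ <;>
      rcases hS.mate_cases hx with ⟨k1, k2, e'⟩ | ⟨k1, k2, e'⟩
    · rw [e, e']
    · exact absurd (hsub k2) g2
    · exact absurd (hsub k1) g1
    · rw [e, e']
  · have h := hr x hx
    unfold across at h ⊢
    by_cases hc : (x.1, !x.2) ∈ ω
    · rw [if_pos ⟨hsub hx, hc⟩] at h ⊢
      rw [if_pos ⟨hx, h⟩]
    · rw [if_neg fun g => hc g.2, if_neg fun g => hc (hsub g.2)]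

theorem orbit_agree {N : ℕ} {D D' : Finset Edge} {ω S : Finset Half} (hv : Valid N D ω)
    (hS : Valid N D' S) (hsub : S ⊆ ω) (hm : ∀ x ∈ S, mate ω x ∈ S)
    (hr : ∀ x ∈ S, across ω x ∈ S) {h : Half} (hh : h ∈ S) : ∀ k,
    (across ω ∘ mate ω)^[k] h ∈ S ∧ (across ω ∘ mate ω)^[k] h = (across S ∘ mate S)^[k] h
  | 0 => ⟨hh, rfl⟩
  | k + 1 => by
    obtain ⟨h1, h2⟩ := orbit_agree hv hS hsub hm hr hh k
    have a := closed_agree hv hS hsub hm hr h1
    have b := closed_agree hv hS hsub hm hr (hm _ h1)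
    refine ⟨?_, ?_⟩
    · rw [strand_succ]
      exact hr _ (hm _ h1)
    · rw [strand_succ, strand_succ, b.2, a.1, h2]

/-- The strand is open all along. -/
def openOn (N : ℕ) (S : Finset Half) : Set (Set Site) :=
  {η | ∀ x ∈ S, ∀ i, colOf N (plainCol N) η (vert (faceOf x) i) = 1}

theorem isUpperSet_openOn (N : ℕ) (S : Finset Half) : IsUpperSet (openOn N S) := by
  intro η η' hle h x hx i
  have := h x hx i
  unfold colOf at this ⊢
  by_cases h1 : vert (faceOf x) i ∈ inner N
  · rw [if_pos h1] at this ⊢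
    by_cases h2 : vert (faceOf x) i ∈ η
    · rw [if_pos (hle h2)]
    · rw [if_neg h2] at this
      exact absurd this zero_ne_one
  · rwa [if_neg h1] at this ⊢

theorem pr_upper_inter_lower {D : Finset Site} {A B : Set (Set Site)} (hA : IsUpperSet A)
    (hB : IsLowerSet B) : pr D (A ∩ B) ≤ pr D A * pr D B := by
  have h := pr_harris (D := D) hA hB.compl
  have e : pr D (A ∩ B) + pr D (A ∩ Bᶜ) = pr D A := by
    rw [pr, pr, pr, ← add_div]
    congr 1
    have : confs D (A ∩ B) = (confs D A).filter (fun s : Finset Site => (↑s : Set Site) ∈ B) := by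
      ext s
      simp [mem_confs, and_assoc]
    rw [this]
    have : confs D (A ∩ Bᶜ) =
        (confs D A).filter (fun s : Finset Site => (↑s : Set Site) ∉ B) := by
      ext s
      simp [mem_confs, and_assoc]
    rw [this]
    exact_mod_cast card_filter_add_card_filter_not _
  rw [pr_compl] at h
  linarith

theorem strip_symmDiff {N : ℕ} (hN : 3 ≤ N) {z : Edge} (hz : Regular N z) :
    defects N z ∆ {cornerEdge N 0, z} = bdry N (plainCol N) ∧
      bdry N (plainCol N) ∆ {cornerEdge N 0, z} = defects N z := by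
  have h : defects N z ∆ {cornerEdge N 0, z} = bdry N (plainCol N) := by
    rw [← defects_symmDiff hN hz]
    congr 1
    ext e
    simp only [Finset.mem_insert, Finset.mem_singleton, Finset.mem_symmDiff]
    have := hz.2 0
    constructor
    · rintro (rfl | rfl)
      exacts [Or.inr ⟨rfl, Ne.symm this⟩, Or.inl ⟨rfl, this⟩]
    · tauto
  exact ⟨h, by rw [← h, symmDiff_symmDiff_cancel_right]⟩

theorem corner_false_notMem (N : ℕ) (j : Fin 3) : (cornerEdge N j, false) ∉ halves N := by
  fin_cases j <;> simp [cornerEdge, mem_halves, FaceIn, faceOf, corner]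

theorem strand_data {N : ℕ} (hN : 3 ≤ N) {z : Edge} (hz : Regular N z) {ω : Finset Half}
    (hv : Valid N (defects N z) ω) (hj : Joins ω (cornerEdge N 0) z) :
    Strip N ω (strandOf ω (cornerEdge N 0)) (cornerEdge N 0) z ∧
      (cornerEdge N 0, true) ∈ strandOf ω (cornerEdge N 0) ∧
      cfgOf N (colOf N (plainCol N) ↑(openPart N (plainCol N) (ω \ strandOf ω (cornerEdge N 0)))) =
        ω \ strandOf ω (cornerEdge N 0) ∧
      (↑(openPart N (plainCol N) (ω \ strandOf ω (cornerEdge N 0))) : Set Site) ∈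
        openOn N (strandOf ω (cornerEdge N 0)) := by
  obtain ⟨n, -, -, hstrip, s, hs, hcfg, hopen⟩ := hv.strip_colour
    (mem_defects.2 (Or.inr ⟨0, rfl⟩)) hj (strip_symmDiff hN hz).1
    (by simp [cornerEdge, plainCol, rgt, vert, faceOf, corner]) (corner_false_notMem N 0)
  have he := hstrip.strandOf_eq
  rw [he]
  have hv' := hstrip.sdiff_valid hv
  rw [(strip_symmDiff hN hz).1] at hv'
  have hc := cfgOf_openPart hv'
  have hse : s = openPart N (plainCol N) (ω \ strandSet ω (defectHalf ω (cornerEdge N 0)) n) :=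
    cfgOf_injective hs (filter_subset _ _) (hcfg.trans hc.symm)
  refine ⟨hstrip, ?_, hc, hse ▸ hopen⟩
  rw [← defectHalf_boundary hv (mem_defects.2 (Or.inr ⟨0, rfl⟩)) (corner_false_notMem N 0)]
  exact mem_strandSet.2 ⟨0, Nat.zero_le _, Or.inl rfl⟩

/-- The configurations with a given strand are the colourings open along it. -/
theorem card_strand {N : ℕ} (hN : 3 ≤ N) {z : Edge} (hz : Regular N z) {ω₀ : Finset Half}
    (hv₀ : Valid N (defects N z) ω₀) (hj₀ : Joins ω₀ (cornerEdge N 0) z) (Q : Set (Set Site)) :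
    ((confSet N (defects N z)).filter fun ω => Joins ω (cornerEdge N 0) z ∧
        strandOf ω (cornerEdge N 0) = strandOf ω₀ (cornerEdge N 0) ∧
        (↑(openPart N (plainCol N) (ω \ strandOf ω (cornerEdge N 0))) : Set Site) ∈ Q).card =
      (confs (inner N) (openOn N (strandOf ω₀ (cornerEdge N 0)) ∩ Q)).card := by
  set a := cornerEdge N 0 with ha
  set S := strandOf ω₀ a with hS
  set β := plainCol N with hβ
  obtain ⟨hstrip₀, haS, -, -⟩ := strand_data hN hz hv₀ hj₀
  have build : ∀ s : Finset Site, (↑s : Set Site) ∈ openOn N S →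
      Valid N (defects N z) (cfgOf N (colOf N β ↑s) ∪ S) ∧
      Joins (cfgOf N (colOf N β ↑s) ∪ S) a z ∧
      strandOf (cfgOf N (colOf N β ↑s) ∪ S) a = S ∧
      (cfgOf N (colOf N β ↑s) ∪ S) \ S = cfgOf N (colOf N β ↑s) := by
    intro s hs
    set c := cfgOf N (colOf N β ↑s) with hc
    have hsame : ∀ x ∈ S, ∀ i, halfAt (faceOf x) i ∉ c := fun x hx i h => by
      have h1 := (Finset.mem_filter.1 h).2
      rw [lft, rgt, faceOf_halfAt, hs x hx, hs x hx, CharTwo.add_self_eq_zero] at h1
      exact zero_ne_one h1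
    have hacr : ∀ x ∈ S, (x.1, !x.2) ∉ c := fun x hx h => by
      have h1 := (Finset.mem_filter.1 h).2
      obtain ⟨e, u⟩ := x
      have g1 := hs _ hx ((e, u) : Half).1.2
      have g2 : colOf N β ↑s (lft (e, u)) = 1 ∧ colOf N β ↑s (rgt (e, u)) = 1 :=
        ⟨hs _ hx _, hs _ hx _⟩
      cases u <;> simp only [Bool.not_false, Bool.not_true, lft_false, rgt_false] at h1 g2 <;>
        rw [g2.1, g2.2, CharTwo.add_self_eq_zero] at h1 <;> exact zero_ne_one h1
    have hdis : c ∆ S = c ∪ S := by
      refine Finset.ext fun x => ?_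
      simp only [Finset.mem_symmDiff, Finset.mem_union]
      constructor
      · rintro (⟨h, -⟩ | ⟨h, -⟩)
        exacts [Or.inl h, Or.inr h]
      · rintro (h | h)
        · exact Or.inl ⟨h, fun g => hsame x g x.1.2 (by rwa [halfAt_faceOf])⟩
        · exact Or.inr ⟨h, fun g => hsame x h x.1.2 (by rwa [halfAt_faceOf])⟩
    have hv : Valid N (defects N z) (c ∪ S) := by
      rw [← hdis, ← (strip_symmDiff hN hz).2]
      exact (valid_cfgOf β _).symmDiff hstrip₀.valid
    have hsub : S ⊆ c ∪ S := subset_union_right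
    have hm : ∀ x ∈ S, mate (c ∪ S) x ∈ S := fun x hx => by
      have hmem := hv.carries.mate_mem x (hsub hx)
      refine (Finset.mem_union.1 hmem).resolve_left fun h => ?_
      rw [← halfAt_faceOf (mate (c ∪ S) x), faceOf_mate] at h
      exact hsame x hx _ h
    have hr : ∀ x ∈ S, across (c ∪ S) x ∈ S := fun x hx => by
      unfold across
      split_ifs with hc'
      · exact (Finset.mem_union.1 hc'.2).resolve_left (hacr x hx)
      · exact hx
    have haD : a ∈ defects N z := mem_defects.2 (Or.inr ⟨0, rfl⟩)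
    have hd := defectHalf_boundary hv haD (corner_false_notMem N 0)
    have hdS := defectHalf_boundary hstrip₀.valid (by simp : a ∈ ({a, z} : Finset Edge))
      (corner_false_notMem N 0)
    have hd₀ := defectHalf_boundary hv₀ haD (corner_false_notMem N 0)
    have orb := orbit_agree hv hstrip₀.valid hsub hm hr haS
    have orb₀ := orbit_agree hv₀ hstrip₀.valid hstrip₀.subset hstrip₀.mate_mem
      hstrip₀.across_mem haS
    have hjoins : Joins (c ∪ S) a z := by
      obtain ⟨y, hy, hyne, t, ht, hte⟩ :=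
        hstrip₀.valid.exists_joins (by simp : a ∈ ({a, z} : Finset Edge))
      obtain rfl : y = z :=
        Finset.mem_singleton.1 ((Finset.mem_insert.1 hy).resolve_left hyne)
      refine ⟨t, ?_, hte⟩
      rw [hd, ← hdS] at *
      refine ht.congr fun k _ => ?_
      have hk := (orb k).1
      rw [(orb k).2] at hk
      refine ⟨(closed_agree hv hstrip₀.valid hsub hm hr hk).1, ?_⟩
      have hk' := hm _ hk
      rw [(closed_agree hv hstrip₀.valid hsub hm hr hk).1] at hk'
      exact (closed_agree hv hstrip₀.valid hsub hm hr hk').2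
    refine ⟨hv, hjoins, ?_, ?_⟩
    · have e1 : ∀ k, mate (c ∪ S) ((across (c ∪ S) ∘ mate (c ∪ S))^[k] (a, true)) =
          mate ω₀ ((across ω₀ ∘ mate ω₀)^[k] (a, true)) := fun k => by
        rw [(closed_agree hv hstrip₀.valid hsub hm hr (orb k).1).1, (orb k).2,
          (closed_agree hv₀ hstrip₀.valid hstrip₀.subset hstrip₀.mate_mem hstrip₀.across_mem
            (orb₀ k).1).1, (orb₀ k).2]
      ext x
      constructor
      · intro hx
        obtain ⟨-, k, h | h⟩ := Finset.mem_filter.1 hx <;> rw [hd] at h <;> subst h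
        exacts [(orb k).1, hm _ (orb k).1]
      · intro hx
        obtain ⟨-, k, h⟩ := Finset.mem_filter.1 hx
        refine Finset.mem_filter.2 ⟨hsub hx, k, ?_⟩
        rw [hd, (orb k).2, ← (orb₀ k).2]
        rw [hd₀] at h
        refine h.imp id fun h => ?_
        rw [h, ← e1 k, (orb k).2, ← (orb₀ k).2]
    · ext x
      simp only [Finset.mem_sdiff, Finset.mem_union]
      exact ⟨fun h => h.1.resolve_right h.2,
        fun h => ⟨Or.inl h, fun g => hsame x g x.1.2 (by rwa [halfAt_faceOf])⟩⟩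
  refine card_nbij' (fun ω => openPart N β (ω \ strandOf ω a))
    (fun s => cfgOf N (colOf N β (↑s : Set Site)) ∪ S) (fun ω hω => ?_) (fun s hs => ?_)
    (fun ω hω => ?_) fun s hs => ?_
  · obtain ⟨h1, h2, h3, h4⟩ := Finset.mem_filter.1 hω
    obtain ⟨-, -, -, hopen⟩ := strand_data hN hz (mem_confSet.1 h1) h2
    rw [h3] at hopen h4
    show openPart N β (ω \ strandOf ω a) ∈ _
    rw [h3]
    exact mem_confs.2 ⟨filter_subset _ _, hopen, h4⟩
  · obtain ⟨h1, h2, h3⟩ := mem_confs.1 hs
    obtain ⟨b1, b2, b3, b4⟩ := build s h2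
    refine Finset.mem_filter.2 ⟨mem_confSet.2 b1, b2, b3, ?_⟩
    rw [b3, b4]
    have hcfg := cfgOf_openPart (valid_cfgOf (N := N) β ↑s)
    have hop : openPart N β (cfgOf N (colOf N β ↑s)) = s :=
      cfgOf_injective (filter_subset _ _) h1 hcfg
    rwa [hop]
  · obtain ⟨h1, h2, h3, -⟩ := Finset.mem_filter.1 hω
    obtain ⟨hst, -, hcfg, -⟩ := strand_data hN hz (mem_confSet.1 h1) h2
    show cfgOf N (colOf N β ↑(openPart N β (ω \ strandOf ω a))) ∪ S = ω
    rw [hcfg, ← h3]
    exact Finset.sdiff_union_of_subset hst.subset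
  · obtain ⟨h1, h2, -⟩ := mem_confs.1 hs
    obtain ⟨-, -, b3, b4⟩ := build s h2
    show openPart N β ((cfgOf N (colOf N β ↑s) ∪ S) \ _) = s
    rw [b3, b4]
    exact cfgOf_injective (filter_subset _ _) h1 (cfgOf_openPart (valid_cfgOf β ↑s))

/-- Given the strand, a decreasing event is no likelier. -/
theorem joins_and_le {N : ℕ} (hN : 3 ≤ N) {z : Edge} (hz : Regular N z) {Q : Set (Set Site)}
    (hQ : IsLowerSet Q) :
    (((confSet N (defects N z)).filter fun ω => Joins ω (cornerEdge N 0) z ∧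
        (↑(openPart N (plainCol N) (ω \ strandOf ω (cornerEdge N 0))) : Set Site) ∈ Q).card : ℝ) /
      2 ^ (inner N).card ≤ pr (inner N) Q := by
  set a := cornerEdge N 0 with ha
  set Z := (confSet N (defects N z)).filter fun ω => Joins ω a z with hZ
  set 𝒮 := Z.image fun ω => strandOf ω a with h𝒮
  set T : Set (Set Site) → Finset (Finset Half) := fun E =>
    (confSet N (defects N z)).filter fun ω => Joins ω a z ∧
      (↑(openPart N (plainCol N) (ω \ strandOf ω a)) : Set Site) ∈ E with hT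
  have count : ∀ E : Set (Set Site), ((T E).card : ℝ) / 2 ^ (inner N).card =
      ∑ S ∈ 𝒮, pr (inner N) (openOn N S ∩ E) := by
    intro E
    rw [card_eq_sum_card_fiberwise (f := fun ω => strandOf ω a) (t := 𝒮) fun ω hω =>
      Finset.mem_image_of_mem _ (Finset.mem_filter.2 ⟨(Finset.mem_filter.1 hω).1,
        (Finset.mem_filter.1 hω).2.1⟩)]
    simp only [pr, Nat.cast_sum, Finset.sum_div]
    refine sum_congr rfl fun S hS => ?_
    obtain ⟨ω₀, hω₀, rfl⟩ := Finset.mem_image.1 hS
    obtain ⟨h1, h2⟩ := Finset.mem_filter.1 hω₀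
    rw [← card_strand hN hz (mem_confSet.1 h1) h2 E, Finset.filter_filter]
    congr 3
    exact Finset.filter_congr fun ω _ => by tauto
  calc _ = ∑ S ∈ 𝒮, pr (inner N) (openOn N S ∩ Q) := count Q
    _ ≤ ∑ S ∈ 𝒮, pr (inner N) (openOn N S) * pr (inner N) Q :=
        sum_le_sum fun S _ => pr_upper_inter_lower (isUpperSet_openOn N S) hQ
    _ = (∑ S ∈ 𝒮, pr (inner N) (openOn N S ∩ Set.univ)) * pr (inner N) Q := by
        simp only [Set.inter_univ, Finset.sum_mul]
    _ ≤ 1 * pr (inner N) Q := by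
        refine mul_le_mul_of_nonneg_right ?_ (pr_nonneg _ _)
        rw [← count Set.univ]
        have h : T Set.univ = Z := by simp [hT, hZ]
        rw [h]
        exact obs_le_one hN 0 hz
    _ = _ := one_mul _

/-! ### Moving the defect -/

/-- The coordinates of an edge towards the three corners. -/
def gap (N : ℕ) (e : Edge) : Fin 3 → ℤ := ![(N : ℤ) - 1 - e.1.1 - e.1.2, e.1.1, e.1.2]

theorem gap_rot (N : ℕ) (e : Edge) (k : Fin 3) : gap N (rotEdge N e) (k + 1) = gap N e k := by
  fin_cases k <;> simp [gap, rotEdge]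
  ring

theorem gap_nonneg {N : ℕ} {e : Edge} (he : e ∈ edges N) (k : Fin 3) : 0 ≤ gap N e k := by
  rw [mem_edges] at he
  fin_cases k <;> simp [gap] <;> omega

theorem gap_sum (N : ℕ) (e : Edge) : gap N e 0 + gap N e 1 + gap N e 2 = (N : ℤ) - 1 := by
  simp [gap]
  omega

/-- All the faces of a set of halves lie in a box. -/
def WithinBox (c : Site) (r : ℕ) (P : Finset Half) : Prop :=
  ∀ h ∈ P, ∀ i, vert (faceOf h) i ∈ box c r

/-- Linked inside a box. -/
def LinkedIn (N : ℕ) (c : Site) (r : ℕ) (z z' : Edge) : Prop :=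
  ∃ P, Valid N ({z} ∆ {z'}) P ∧ WithinBox c r P

theorem LinkedIn.trans {N : ℕ} {c : Site} {r : ℕ} {x y z : Edge} (h : LinkedIn N c r x y)
    (h' : LinkedIn N c r y z) : LinkedIn N c r x z := by
  obtain ⟨P, hP, hPb⟩ := h
  obtain ⟨P', hP', hPb'⟩ := h'
  refine ⟨P ∆ P', ?_, fun h hh => ?_⟩
  · have := hP.symmDiff hP'
    rwa [symmDiff_assoc, symmDiff_symmDiff_cancel_left] at this
  · rcases Finset.mem_symmDiff.1 hh with ⟨h1, -⟩ | ⟨h1, -⟩
    exacts [hPb h h1, hPb' h h1]

theorem LinkedIn.symm {N : ℕ} {c : Site} {r : ℕ} {x y : Edge} (h : LinkedIn N c r x y) :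
    LinkedIn N c r y x := by
  obtain ⟨P, hP, hPb⟩ := h
  exact ⟨P, by rwa [symmDiff_comm], hPb⟩

theorem linkedIn_refl {N : ℕ} (c : Site) (r : ℕ) (x : Edge) : LinkedIn N c r x x :=
  ⟨∅, by rw [symmDiff_self]; exact valid_empty N, fun h hh => absurd hh (Finset.notMem_empty h)⟩

theorem linkedIn_face {N : ℕ} {c : Site} {r : ℕ} {F : Face} (hF : FaceIn N F)
    (hb : ∀ l, vert F l ∈ box c r) (i j : Fin 3) :
    LinkedIn N c r (halfAt F i).1 (halfAt F j).1 := by
  by_cases hij : i = j
  · subst hij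
    exact linkedIn_refl _ _ _
  refine ⟨{halfAt F i, halfAt F j}, ?_, fun h hh => ?_⟩
  · have e : ({(halfAt F i).1} : Finset Edge) ∆ {(halfAt F j).1} =
        {(halfAt F i).1, (halfAt F j).1} := by
      have hne : (halfAt F i).1 ≠ (halfAt F j).1 := fun h =>
        hij (congrArg (fun x : Edge => x.2) h)
      ext x
      simp only [Finset.mem_symmDiff, Finset.mem_singleton, Finset.mem_insert]
      constructor
      · rintro (⟨h, -⟩ | ⟨h, -⟩)
        exacts [Or.inl h, Or.inr h]
      · rintro (h | h)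
        exacts [Or.inl ⟨h, h ▸ hne⟩, Or.inr ⟨h, h ▸ hne.symm⟩]
    rw [e]
    exact valid_pair hF hij
  · simp only [Finset.mem_insert, Finset.mem_singleton] at hh
    rcases hh with rfl | rfl <;> rw [faceOf_halfAt] <;> exact hb

theorem linkedIn_down {N : ℕ} {c : Site} {r : ℕ} : ∀ (n : ℕ) (p q : Site), 0 ≤ q.1 → 0 ≤ q.2 →
    q.1 ≤ p.1 → q.2 ≤ p.2 → p.1 - q.1 + (p.2 - q.2) = n → p.1 + p.2 < (N : ℤ) →
    p ∈ box c r → q ∈ box c r → LinkedIn N c (r + 1) (p, 2) (q, 2) := by
  intro n
  induction n with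
  | zero =>
    intro p q _ _ h3 h4 h5 _ _ _
    obtain rfl : p = q := Prod.ext (by omega) (by omega)
    exact linkedIn_refl _ _ _
  | succ n ih =>
    rintro ⟨a, b⟩ q h1 h2 h3 h4 h5 h6 h7 h8
    simp only [box, mem_par] at h7 h8
    simp only at h3 h4 h5 h6 h7 h8
    push_cast at h5
    have up : ∀ i j, LinkedIn N c (r + 1) ((a, b), i) ((a, b), j) := fun i j => by
      have := linkedIn_face (N := N) (c := c) (r := r + 1) (F := ((a, b), true))
        (by simp [FaceIn]; omega) (fun l => by
          fin_cases l <;> simp [vert, corner, box, mem_par] <;> omega) i j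
      simpa [halfAt] using this
    by_cases ha : q.1 < a
    · have h := linkedIn_face (N := N) (c := c) (r := r + 1) (F := ((a - 1, b), false))
        (by simp [FaceIn]; omega) (fun l => by
          fin_cases l <;> simp [vert, corner, box, mem_par] <;> omega) 1 0
      simp [halfAt, corner] at h
      have hup : LinkedIn N c (r + 1) ((a - 1, b), 0) ((a - 1, b), 2) := by
        have := linkedIn_face (N := N) (c := c) (r := r + 1) (F := ((a - 1, b), true))
          (by simp [FaceIn]; omega) (fun l => by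
            fin_cases l <;> simp [vert, corner, box, mem_par] <;> omega) 0 2
        simpa [halfAt] using this
      refine ((up 2 1).trans (h.trans hup)).trans (ih _ q h1 h2 ?_ ?_ ?_ ?_ ?_ ?_)
      all_goals simp only [box, mem_par]
      all_goals omega
    · have h := linkedIn_face (N := N) (c := c) (r := r + 1) (F := ((a, b - 1), false))
        (by simp [FaceIn]; omega) (fun l => by
          fin_cases l <;> simp [vert, corner, box, mem_par] <;> omega) 2 0
      simp [halfAt, corner] at h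
      have hup : LinkedIn N c (r + 1) ((a, b - 1), 0) ((a, b - 1), 2) := by
        have := linkedIn_face (N := N) (c := c) (r := r + 1) (F := ((a, b - 1), true))
          (by simp [FaceIn]; omega) (fun l => by
            fin_cases l <;> simp [vert, corner, box, mem_par] <;> omega) 0 2
        simpa [halfAt] using this
      refine (h.trans hup).trans (ih _ q h1 h2 ?_ ?_ ?_ ?_ ?_ ?_)
      all_goals simp only [box, mem_par]
      all_goals omega

theorem linkedIn_box {N : ℕ} {c : Site} {r : ℕ} {e e' : Edge} (he : e ∈ edges N)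
    (he' : e' ∈ edges N) (h : e.1 ∈ box c r) (h' : e'.1 ∈ box c r) :
    LinkedIn N c (r + 1) e e' := by
  obtain ⟨⟨a, b⟩, i⟩ := e
  obtain ⟨⟨a', b'⟩, i'⟩ := e'
  have hb := h
  have hb' := h'
  rw [mem_edges] at he he'
  simp only [box, mem_par] at hb hb'
  simp only at he he' hb hb'
  have up : ∀ (x y : ℤ) (i : Fin 3), 0 ≤ x → 0 ≤ y → x + y < (N : ℤ) → (x, y) ∈ box c r →
      LinkedIn N c (r + 1) ((x, y), i) ((x, y), 2) := fun x y i h1 h2 h3 h4 => by
    simp only [box, mem_par] at h4
    have := linkedIn_face (N := N) (c := c) (r := r + 1) (F := ((x, y), true))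
      (by simp [FaceIn]; omega) (fun l => by
        fin_cases l <;> simp [vert, corner, box, mem_par] <;> omega) i 2
    simpa [halfAt] using this
  have hq : (min a a', min b b') ∈ box c r := by
    simp only [box, mem_par]
    omega
  have d1 := linkedIn_down (N := N) (c := c) (r := r) (a - min a a' + (b - min b b')).toNat
    (a, b) (min a a', min b b') (by simp only; omega) (by simp only; omega) (by simp only; omega)
    (by simp only; omega) (by simp only; omega) he.2.2 h hq
  have d2 := linkedIn_down (N := N) (c := c) (r := r) (a' - min a a' + (b' - min b b')).toNat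
    (a', b') (min a a', min b b') (by simp only; omega) (by simp only; omega)
    (by simp only; omega) (by simp only; omega) (by simp only; omega) he'.2.2 h' hq
  exact ((up a b i he.1 he.2.1 he.2.2 h).trans d1).trans
    (d2.symm.trans (up a' b' i' he'.1 he'.2.1 he'.2.2 h').symm)

/-- Closed sites join a box to the side opposite the first corner. -/
def nearArm (N : ℕ) (c : Site) (r : ℕ) : Set (Set Site) :=
  {η | ∃ u v, Conn (ηᶜ ∩ ↑(inner N)) u v ∧ u ∈ box c r ∧ (N : ℤ) - 1 ≤ v.1 + v.2}

theorem isLowerSet_nearArm (N : ℕ) (c : Site) (r : ℕ) : IsLowerSet (nearArm N c r) :=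
  fun _ _ hle ⟨u, v, h, hu, hv⟩ =>
    ⟨u, v, h.mono (Set.inter_subset_inter_left _ (Set.compl_subset_compl.2 hle)), hu, hv⟩

theorem nearArm_of_change {N : ℕ} (hN : 3 ≤ N) {z z' : Edge} (hz : Regular N z)
    (hz' : Regular N z') {c : Site} {r : ℕ} (hc : c.1 + c.2 + 2 * r < (N : ℤ))
    {P : Finset Half} (hP : Valid N ({z} ∆ {z'}) P) (hPb : WithinBox c r P) {ω : Finset Half}
    (hv : Valid N (defects N z) ω) (hj : Joins ω (cornerEdge N 0) z)
    (hne : ¬Joins (ω ∆ P) (cornerEdge N 0) z') :
    (↑(openPart N (plainCol N) (ω \ strandOf ω (cornerEdge N 0))) : Set Site) ∈ nearArm N c r := by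
  obtain ⟨hstrip, -, hcfg, -⟩ := strand_data hN hz hv hj
  set S := strandOf ω (cornerEdge N 0) with hS
  set s := openPart N (plainCol N) (ω \ S) with hs
  have hcD : ∀ j, cornerEdge N j ∈ defects N z := fun j => mem_defects.2 (Or.inr ⟨j, rfl⟩)
  have hv' : Valid N (defects N z') (ω ∆ P) := by
    have := hv.symmDiff hP
    suffices e : defects N z ∆ ({z} ∆ {z'}) = defects N z' by rwa [e] at this
    ext e
    simp only [Finset.mem_symmDiff, defects, Finset.mem_insert, Finset.mem_singleton]
    have := hz.2 0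
    have := hz.2 1
    have := hz.2 2
    have := hz'.2 0
    have := hz'.2 1
    have := hz'.2 2
    by_cases e0 : e = z
    · subst e0
      by_cases e1 : e = z' <;> simp_all
    by_cases e1 : e = z'
    · subst e1
      simp_all
    simp [e0, e1]
  have hcD' : ∀ j, cornerEdge N j ∈ defects N z' := fun j => mem_defects.2 (Or.inr ⟨j, rfl⟩)
  obtain ⟨y, hyD, hyne, hby⟩ := hv.exists_joins (hcD 1)
  obtain rfl : y = cornerEdge N 2 := by
    rcases mem_defects.1 hyD with rfl | ⟨j, rfl⟩
    · exact absurd ((existsUnique_joins hv).unique hby hj) (by decide)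
    · have h0 : j ≠ 0 := fun h => by
        subst h
        have := (hv.joins_symm (hcD 1) hby).2.unique hj
        exact hz.2 1 this.symm
      have h1 : j ≠ 1 := fun h => hyne (by rw [h])
      rw [(by decide : ∀ j : Fin 3, j ≠ 0 → j ≠ 1 → j = 2) j h0 h1]
  have hnb : ¬Joins (ω ∆ P) (cornerEdge N 1) (cornerEdge N 2) := by
    intro h
    obtain ⟨k, hk, -⟩ := existsUnique_joins hv'
    have hk1 : k ≠ 1 := fun e => by
      subst e
      exact hz'.2 2 (hk.unique h)
    have hk2 : k ≠ 2 := fun e => by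
      subst e
      exact hz'.2 1 (hk.unique (hv'.joins_symm (hcD' 1) h).2)
    rw [(by decide : ∀ j : Fin 3, j ≠ 1 → j ≠ 2 → j = 0) k hk1 hk2] at hk
    exact hne hk
  obtain ⟨t, ht, hte⟩ := hby
  have hd : defectHalf ω (cornerEdge N 1) = (cornerEdge N 1, true) :=
    defectHalf_boundary hv (hcD 1) (corner_false_notMem N 1)
  have hd' : defectHalf (ω ∆ P) (cornerEdge N 1) = (cornerEdge N 1, true) :=
    defectHalf_boundary hv' (hcD' 1) (corner_false_notMem N 1)
  rw [hd] at ht
  obtain ⟨k, hk, hkP⟩ : ∃ k, Runs (mate ω) (across ω) (cornerEdge N 1, true) k ∧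
      ∃ h ∈ P, faceOf ((across ω ∘ mate ω)^[k] (cornerEdge N 1, true)) = faceOf h := by
    by_contra hcon
    simp only [not_exists, not_and] at hcon
    refine hnb ⟨t, ?_, hte⟩
    rw [hd']
    obtain ⟨n, hn, hf, htn⟩ := ht
    have same : ∀ k, Runs (mate ω) (across ω) (cornerEdge N 1, true) k →
        ∀ x, faceOf x = faceOf ((across ω ∘ mate ω)^[k] (cornerEdge N 1, true)) →
          (x ∈ ω ∆ P ↔ x ∈ ω) := by
      intro k hk x hx
      have hxP : x ∉ P := fun h => hcon k hk x h hx.symm
      simp [Finset.mem_symmDiff, hxP]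
    have hmem : ∀ k, (across ω ∘ mate ω)^[k] (cornerEdge N 1, true) ∈ ω := fun k => by
      have := hv.strand_mem (hcD 1) k
      rwa [hd] at this
    refine EndsAt.congr ⟨n, hn, hf, htn⟩ fun k hk => ?_
    have hsame := same k hk
    refine ⟨?_, ?_⟩
    · rcases hv.mate_cases (hmem k) with ⟨h1, -, e⟩ | ⟨h1, h2, e⟩ <;> rw [e]
      · rw [mate, if_pos ((hsame _ rfl).2 (hmem k)), if_pos ((hsame _ (faceOf_halfAt _ _)).2 h1)]
      · rw [mate, if_pos ((hsame _ rfl).2 (hmem k)),
          if_neg fun g => h1 ((hsame _ (faceOf_halfAt _ _)).1 g),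
          if_pos ((hsame _ (faceOf_halfAt _ _)).2 h2)]
    · have hmw := hv.carries.mate_mem _ (hmem k)
      have hmem' : mate ω ((across ω ∘ mate ω)^[k] (cornerEdge N 1, true)) ∈ ω ∆ P :=
        (hsame _ (faceOf_mate _ _)).2 hmw
      rcases (show k < n ∨ n ≤ k from lt_or_ge k n) with hkn | hkn
      · have hmv := hn k hkn
        generalize hy : mate ω ((across ω ∘ mate ω)^[k] (cornerEdge N 1, true)) = y at hmv hmw hmem'
        have hrun : Runs (mate ω) (across ω) (cornerEdge N 1, true) (k + 1) :=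
          fun j hj => hn j (by omega)
        have hnext := same (k + 1) hrun
        rw [strand_succ, hy] at hnext
        unfold across at hmv hnext ⊢
        split_ifs at hmv hnext with hc'
        · rw [if_pos ⟨hmem', (hnext _ rfl).2 hc'.2⟩, if_pos hc']
        · exact absurd rfl hmv
      · obtain rfl : k = n := le_antisymm
          (not_lt.1 fun h => hk n h hf) hkn
        rw [← htn] at hmem' ⊢
        rw [(show across ω t = t by rw [htn]; exact hf),
          (hv'.across_eq_self hmem').2 (hte ▸ hcD' 2)]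
  obtain ⟨h, hhP, hface⟩ := hkP
  have hbS : ((cornerEdge N 1, true) : Half) ∉ S := by
    intro hbS
    have h1 := hstrip.valid.2.2 (cornerEdge N 1)
    have hfalse : (cornerEdge N 1, false) ∉ S := fun h =>
      corner_false_notMem N 1 (hv.1 (hstrip.subset h))
    have hne0 := cornerEdge_ne (N := N) (show (1 : Fin 3) ≠ 0 by decide)
    simp [bit, hbS, hfalse, hne0, Ne.symm (hz.2 1)] at h1
  obtain ⟨-, -, hconn, -⟩ := strand_hand hv hstrip.mate_mem hstrip.across_mem hcfg
    (hd ▸ hv.defectHalf_mem (hcD 1)) hbS (u := 0)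
    (by simp [colOf, cornerEdge, plainCol, rgt, lft, vert, faceOf, corner, mem_inner]) k hk
  generalize hx : (across ω ∘ mate ω)^[k] (cornerEdge N 1, true) = x at hconn hface
  have hbox : rgt x ∈ box c r := by
    rw [rgt, hface]
    exact hPb h hhP _
  set σ := colOf N (plainCol N) ↑s with hσ
  have hframe : ∀ w, InTri N w → w ∉ inner N → σ w = 0 → w.1 + w.2 = (N : ℤ) := by
    intro w _ hwi hw
    rw [hσ, colOf, if_neg hwi, plainCol] at hw
    split_ifs at hw with h
    · exact h.2
    · exact absurd hw one_ne_zero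
  obtain ⟨w, hw', hw, rfl | ⟨p, hwp, hpx⟩⟩ :=
    hconn.last_visit (P := fun w => w.1 + w.2 = (N : ℤ))
      (by simp [cornerEdge, rgt, vert, faceOf, corner])
  · simp only [box, mem_par] at hbox
    omega
  refine ⟨rgt x, p, hpx.symm.mono fun a ha => ?_, hbox, ?_⟩
  · have hai : a ∈ inner N := by
      by_contra hai
      exact ha.2 (hframe a ha.1.1 hai ha.1.2)
    have h2 := ha.1.2
    rw [hσ, colOf, if_pos hai] at h2
    refine ⟨fun g => ?_, hai⟩
    rw [if_pos g] at h2
    exact one_ne_zero h2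
  · simp only [Adj] at hwp
    omega

theorem pr_nearArm_le {N : ℕ} {c : Site} {r R : ℕ} (hrR : r ≤ R)
    (hc : c.1 + c.2 + 2 * R + 1 ≤ (N : ℤ)) :
    pr (inner N) (nearArm N c r) ≤ pr (box c R) (arm c r R) := by
  calc pr (inner N) (nearArm N c r)
      ≤ pr (inner N) {η | ↑(inner N) \ η ∈ arm c r R} := by
        refine pr_mono fun s _ ⟨u, v, h, hu, hv⟩ => ?_
        have hv' : Beyond c R v := by
          simp only [Beyond]
          omega
        have hu' := mem_par.1 hu
        obtain ⟨x, hux, hx, rfl | ⟨y, hyx, huy⟩⟩ := h.first_visit (P := Beyond c R) hv'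
        · refine ⟨x, x, Conn.refl (S := _ ∩ _) ⟨⟨hux.left_mem.2, hux.left_mem.1⟩, ?_⟩, hu, hx⟩
          exact box_mono c hrR hu
        · refine ⟨u, x, (huy.mono (S' := (↑(inner N) \ ↑s) ∩ ↑(box c R))
              fun a ha => ⟨⟨ha.1.2, ha.1.1⟩, ?_⟩).step hyx
            ⟨⟨hux.right_mem.2, hux.right_mem.1⟩, ?_⟩, hu, hx⟩
          · have := ha.2
            simp only [Beyond] at this
            simp only [Finset.mem_coe, box, mem_par]
            omega
          · have := huy.right_mem.2
            simp only [Beyond] at this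
            simp only [Adj] at hyx
            simp only [Finset.mem_coe, box, mem_par]
            omega
    _ = pr (inner N) (arm c r R) := pr_flip _ _
    _ ≤ pr (box c R) (arm c r R) := by
        set A : Set (Set Site) := {η | η ∩ ↑(inner N) ∈ arm c r R} with hA
        have e : pr (inner N) (arm c r R) = pr (inner N) A := pr_congr fun s hs => by
          simp [hA, Set.inter_eq_left.2 (Finset.coe_subset.2 hs)]
        have hdA : DepOn ↑(inner N) A := fun η η' he h => by
          have : η ∩ ↑(inner N) = η' ∩ ↑(inner N) := by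
            ext x
            exact and_congr_left (he x)
          rwa [hA, Set.mem_ofPred_eq, ← this]
        rw [e, ← pr_mono_sites (subset_union_left : inner N ⊆ inner N ∪ box c R) hdA,
          ← pr_mono_sites (subset_union_right : box c R ⊆ inner N ∪ box c R) depOn_arm]
        exact pr_mono fun s _ h => isUpperSet_arm Set.inter_subset_left h

/-- Close edges see the first corner alike. -/
theorem obs_sub_le_zero {C α : ℝ}
    (harm : ∀ (z : Site) (r R : ℕ), 1 ≤ r → r ≤ R →
      pr (box z R) (arm z r R) ≤ C * ((r : ℝ) / R) ^ α)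
    {N : ℕ} (hN : 3 ≤ N) {z z' : Edge} (hz : Regular N z) (hz' : Regular N z') {d R : ℕ}
    (hd : ∀ k, |gap N z k - gap N z' k| ≤ d) (hR : d + 1 ≤ R) (hg : (2 * R : ℤ) ≤ gap N z 0) :
    obs N 0 z - obs N 0 z' ≤ C * (((d + 1 : ℕ) : ℝ) / R) ^ α := by
  have h1 := hd 1
  have h2 := hd 2
  simp [gap, abs_le] at h1 h2 hg
  obtain ⟨P, hP, hPb⟩ := linkedIn_box (c := z.1) (r := d) hz.1 hz'.1
    (by simp [box, mem_par]) (by simp [box, mem_par]; omega)
  set Z := (confSet N (defects N z)).filter fun ω => Joins ω (cornerEdge N 0) z with hZ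
  set Z' := (confSet N (defects N z')).filter fun ω => Joins ω (cornerEdge N 0) z' with hZ'
  set Bd := (confSet N (defects N z)).filter fun ω => Joins ω (cornerEdge N 0) z ∧
    (↑(openPart N (plainCol N) (ω \ strandOf ω (cornerEdge N 0))) : Set Site) ∈
      nearArm N z.1 (d + 1) with hBd
  have hsd : defects N z ∆ ({z} ∆ {z'}) = defects N z' := by
    ext e
    simp only [Finset.mem_symmDiff, defects, Finset.mem_insert, Finset.mem_singleton]
    have := hz.2 0
    have := hz.2 1
    have := hz.2 2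
    have := hz'.2 0
    have := hz'.2 1
    have := hz'.2 2
    by_cases e0 : e = z
    · subst e0
      by_cases e1 : e = z' <;> simp_all
    by_cases e1 : e = z'
    · subst e1
      simp_all
    simp [e0, e1]
  have hcard : Z.card ≤ Z'.card + Bd.card := by
    have h1 : (Z \ Bd).card ≤ Z'.card := by
      refine card_le_card_of_injOn (fun ω => ω ∆ P) (fun ω hω => ?_) fun a _ b _ h => ?_
      · obtain ⟨hωZ, hωB⟩ := Finset.mem_sdiff.1 (Finset.mem_coe.1 hω)
        obtain ⟨g1, g2⟩ := Finset.mem_filter.1 hωZ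
        refine Finset.mem_filter.2 ⟨mem_confSet.2 (hsd ▸ (mem_confSet.1 g1).symmDiff hP), ?_⟩
        by_contra hne
        refine hωB (Finset.mem_filter.2 ⟨g1, g2, ?_⟩)
        exact nearArm_of_change hN hz hz' (by push_cast; omega) hP hPb (mem_confSet.1 g1) g2 hne
      · simpa using congrArg (fun x => x ∆ P) h
    have h2 := card_le_card_sdiff_add_card (s := Z) (t := Bd)
    omega
  have hbad : (Bd.card : ℝ) / 2 ^ (inner N).card ≤ C * (((d + 1 : ℕ) : ℝ) / R) ^ α :=
    (joins_and_le hN hz (isLowerSet_nearArm _ _ _)).trans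
      ((pr_nearArm_le hR (by omega)).trans (harm _ _ _ (by omega) hR))
  have : (Z.card : ℝ) / 2 ^ (inner N).card ≤
      (Z'.card : ℝ) / 2 ^ (inner N).card + (Bd.card : ℝ) / 2 ^ (inner N).card := by
    rw [← add_div]
    refine div_le_div_of_nonneg_right ?_ (by positivity)
    exact_mod_cast hcard
  simp only [obs, ← hZ, ← hZ']
  linarith

/-- Close edges see each corner alike, away from the side opposite it. -/
theorem obs_sub_le {C α : ℝ}
    (harm : ∀ (z : Site) (r R : ℕ), 1 ≤ r → r ≤ R →
      pr (box z R) (arm z r R) ≤ C * ((r : ℝ) / R) ^ α)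
    {N : ℕ} (hN : 3 ≤ N) {d R : ℕ} (hR : d + 1 ≤ R) : ∀ (k : Fin 3) (z z' : Edge),
    Regular N z → Regular N z' → (∀ j, |gap N z j - gap N z' j| ≤ d) →
    (2 * R : ℤ) ≤ gap N z k → obs N k z - obs N k z' ≤ C * (((d + 1 : ℕ) : ℝ) / R) ^ α := by
  have hturn : ∀ k : Fin 3, (∀ z z', Regular N z → Regular N z' →
      (∀ j, |gap N z j - gap N z' j| ≤ d) → (2 * R : ℤ) ≤ gap N z (k + 1) →
      obs N (k + 1) z - obs N (k + 1) z' ≤ C * (((d + 1 : ℕ) : ℝ) / R) ^ α) →
      ∀ z z', Regular N z → Regular N z' → (∀ j, |gap N z j - gap N z' j| ≤ d) →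
      (2 * R : ℤ) ≤ gap N z k → obs N k z - obs N k z' ≤ C * (((d + 1 : ℕ) : ℝ) / R) ^ α := by
    intro k h z z' hz hz' hd hg
    rw [← obs_rot N k, ← obs_rot N k]
    refine h _ _ (regular_rot hz) (regular_rot hz') (fun j => ?_) (by rwa [gap_rot])
    have e : j = (j - 1) + 1 := (sub_add_cancel j 1).symm
    rw [e, gap_rot, gap_rot]
    exact hd _
  have h0 := fun z z' hz hz' hd hg => obs_sub_le_zero harm hN (z := z) (z' := z') hz hz' hd hR hg
  have h2 := hturn 2 (by simpa using h0)
  have h1 := hturn 1 h2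
  intro k
  fin_cases k
  exacts [h0, h1, h2]

/-- Near a corner that corner is very likely. -/
theorem obs_near_corner {C α : ℝ}
    (harm : ∀ (z : Site) (r R : ℕ), 1 ≤ r → r ≤ R →
      pr (box z R) (arm z r R) ≤ C * ((r : ℝ) / R) ^ α)
    {N : ℕ} (hN : 5 ≤ N) {d R : ℕ} (hR : d + 1 ≤ R) : ∀ (k : Fin 3) (z : Edge),
    Regular N z → gap N z (k + 1) + gap N z (k + 2) + 1 ≤ d → (2 * R + d : ℤ) + 1 ≤ (N : ℤ) →
    1 - C * (((d + 1 : ℕ) : ℝ) / R) ^ α - C * ((1 : ℝ) / ((N - 4 : ℕ) : ℝ)) ^ α ≤ obs N k z := by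
  have base : ∀ z : Edge, Regular N z → gap N z 0 + gap N z 1 + 1 ≤ d →
      (2 * R + d : ℤ) + 1 ≤ (N : ℤ) →
      1 - C * (((d + 1 : ℕ) : ℝ) / R) ^ α - C * ((1 : ℝ) / ((N - 4 : ℕ) : ℝ)) ^ α ≤ obs N 2 z := by
    intro z hz hd hbig
    have hz0 : Regular N (sidePoint N 1) := regular_sidePoint (by omega)
    have g := gap_nonneg hz.1
    have g0 := g 0
    have g1 := g 1
    have gs := gap_sum N z
    have hdiff : ∀ j, |gap N (sidePoint N 1) j - gap N z j| ≤ d := by
      intro j
      simp [gap] at g0 g1 gs hd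
      fin_cases j <;> simp [gap, sidePoint, abs_le] <;> omega
    have h1 := obs_sub_le harm (by omega : 3 ≤ N) hR 2 _ _ hz0 hz hdiff
      (by simp [gap, sidePoint]; omega)
    obtain ⟨-, e1⟩ := obs_eq_pr (N := N) le_rfl (by omega)
    have e0 : obs N 0 (sidePoint N 1) = 0 :=
      obs_zero_opposite (by omega) hz0 rfl (by simp [sidePoint])
    have esum := obs_sum (by omega : 3 ≤ N) hz0
    have h2 : obs N 1 (sidePoint N 1) ≤ C * ((1 : ℝ) / ((N - 4 : ℕ) : ℝ)) ^ α := by
      rw [e1]
      refine le_trans ?_ (le_of_le_of_eq (harm ((1 : ℤ), (N : ℤ) - 2) 1 (N - 4) le_rfl (by omega))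
        (by norm_num))
      set c : Site := ((1 : ℤ), (N : ℤ) - 2) with hc
      set A : Set (Set Site) := {η | η ∩ ↑(inner N) ∈ arm c 1 (N - 4)} with hA
      have hdA : DepOn ↑(inner N) A := fun η η' he h => by
        have : η ∩ ↑(inner N) = η' ∩ ↑(inner N) := by
          ext x
          exact and_congr_left (he x)
        rwa [hA, Set.mem_ofPred_eq, ← this]
      calc pr (inner N) (openCross N 1) ≤ pr (inner N) A := by
            refine pr_mono fun s _ ⟨u, v, h, hu, hv, hv1⟩ => ?_
            have hvi := mem_inner.1 h.right_mem.2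
            have hu' : Beyond c (N - 4) u := by
              simp only [Beyond, hc]
              omega
            obtain ⟨x, hvx, hx, rfl | ⟨y, hyx, hvy⟩⟩ :=
              h.symm.first_visit (P := Beyond c (N - 4)) hu'
            · simp only [Beyond, hc] at hx
              omega
            · refine ⟨v, x, (hvy.mono (S' := (↑s ∩ ↑(inner N)) ∩ ↑(box c (N - 4)))
                fun a ha => ⟨⟨ha.1.1, ha.1.2⟩, ?_⟩).step hyx
                ⟨⟨hvx.right_mem.1, hvx.right_mem.2⟩, ?_⟩, ?_, hx⟩
              · have := ha.2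
                simp only [Beyond] at this
                simp only [Finset.mem_coe, box, mem_par]
                omega
              · have := hvy.right_mem.2
                simp only [Beyond] at this
                simp only [Adj] at hyx
                simp only [Finset.mem_coe, box, mem_par]
                omega
              · simp only [box, mem_par, hc]
                omega
        _ ≤ _ := by
            rw [← pr_mono_sites (subset_union_left : inner N ⊆ inner N ∪ box c (N - 4)) hdA,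
              ← pr_mono_sites (subset_union_right : box c (N - 4) ⊆ inner N ∪ box c (N - 4))
                depOn_arm]
            exact pr_mono fun s _ h => isUpperSet_arm Set.inter_subset_left h
    linarith
  have hturn : ∀ k : Fin 3, (∀ z, Regular N z → gap N z (k + 1 + 1) + gap N z (k + 1 + 2) + 1 ≤ d →
      (2 * R + d : ℤ) + 1 ≤ (N : ℤ) → 1 - C * (((d + 1 : ℕ) : ℝ) / R) ^ α -
        C * ((1 : ℝ) / ((N - 4 : ℕ) : ℝ)) ^ α ≤ obs N (k + 1) z) →
      ∀ z, Regular N z → gap N z (k + 1) + gap N z (k + 2) + 1 ≤ d →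
      (2 * R + d : ℤ) + 1 ≤ (N : ℤ) → 1 - C * (((d + 1 : ℕ) : ℝ) / R) ^ α -
        C * ((1 : ℝ) / ((N - 4 : ℕ) : ℝ)) ^ α ≤ obs N k z := by
    intro k h z hz hd hbig
    rw [← obs_rot N k]
    refine h _ (regular_rot hz) ?_ hbig
    rw [gap_rot, add_right_comm k 1 2, gap_rot]
    exact hd
  have h1 := hturn 1 (by simpa using base)
  have h0 := hturn 0 (by simpa using h1)
  intro k
  fin_cases k
  exacts [h0, h1, by simpa using base]

/-- **Equicontinuity**, uniform in the mesh and up to the boundary. -/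
theorem obs_equicontinuous {ε : ℝ} (hε : 0 < ε) : ∃ M : ℕ, ∀ (N d : ℕ) (z z' : Edge),
    M * (d + 1) ≤ N → Regular N z → Regular N z' → (∀ j, |gap N z j - gap N z' j| ≤ d) →
    ∀ k, |obs N k z - obs N k z'| ≤ ε := by
  obtain ⟨C, α, hC, hα, harm⟩ := exists_arm_bound
  obtain ⟨t, ht, htC⟩ : ∃ t : ℝ, 0 < t ∧ ∀ x, 0 ≤ x → x ≤ t → C * x ^ α ≤ ε / 5 := by
    refine ⟨(ε / 5 / C) ^ (α⁻¹), by positivity, fun x hx0 hx => ?_⟩
    have := Real.rpow_le_rpow hx0 hx hα.le
    rw [← Real.rpow_mul (by positivity), inv_mul_cancel₀ hα.ne', Real.rpow_one] at this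
    calc C * x ^ α ≤ C * (ε / 5 / C) := mul_le_mul_of_nonneg_left this hC.le
      _ = ε / 5 := mul_div_cancel₀ _ hC.ne'
  obtain ⟨K, hK⟩ := exists_nat_gt (1 / t)
  have hK0 : 0 < K := by
    have := (one_div_pos.2 ht).trans hK
    exact_mod_cast this
  refine ⟨60 * K * K + 60, fun N d z z' hM hz hz' hd => ?_⟩
  set R := K * (d + 1) with hR
  set D := 8 * R + 1 with hD
  set R' := K * (D + 1) with hR'
  have hRle : d + 1 ≤ R := Nat.le_mul_of_pos_left _ hK0
  have hR'le : D + 1 ≤ R' := Nat.le_mul_of_pos_left _ hK0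
  have hRpos : 1 ≤ R := le_trans (by omega) hRle
  have hN : 2 * R' + D + 12 * R + 60 ≤ N := by
    refine le_trans ?_ hM
    simp only [hR', hD, hR]
    nlinarith [Nat.mul_le_mul (Nat.mul_le_mul hK0 hK0) (Nat.succ_le_succ (Nat.zero_le d))]
  have small : ∀ a b : ℕ, 1 ≤ b → K * a ≤ b → C * ((a : ℝ) / b) ^ α ≤ ε / 5 := by
    intro a b hb hab
    refine htC _ (by positivity) ?_
    rw [div_le_iff₀ (by positivity)]
    have h1 : (K : ℝ) * a ≤ b := by exact_mod_cast hab
    have h2 : 1 < t * K := by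
      rw [div_lt_iff₀ ht] at hK
      linarith
    nlinarith [mul_le_mul_of_nonneg_left h1 ht.le, mul_le_mul_of_nonneg_right h2.le
      (Nat.cast_nonneg a : (0 : ℝ) ≤ a)]
  have e1 := small (d + 1) R hRpos le_rfl
  have e2 := small (D + 1) R' (le_trans (by omega) hR'le) le_rfl
  have e3 : C * ((1 : ℝ) / ((N - 4 : ℕ) : ℝ)) ^ α ≤ ε / 5 := by
    have := small 1 (N - 4) (by omega) (by
      have : K ≤ R := Nat.le_mul_of_pos_right _ (Nat.succ_pos d)
      omega)
    simpa using this
  have hd' : ∀ j, |gap N z' j - gap N z j| ≤ d := fun j => by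
    rw [abs_sub_comm]
    exact hd j
  have two : ∀ k, (3 * R : ℤ) ≤ gap N z k → |obs N k z - obs N k z'| ≤ ε / 5 := by
    intro k hk
    have := abs_le.1 (hd k)
    have a := obs_sub_le harm (by omega) hRle k z z' hz hz' hd (by omega)
    have b := obs_sub_le harm (by omega) hRle k z' z hz' hz hd' (by omega)
    rw [abs_le]
    constructor <;> linarith
  have sum := obs_sum (by omega : 3 ≤ N) hz
  have sum' := obs_sum (by omega : 3 ≤ N) hz'
  have nn := obs_nonneg N
  intro k
  have hcases : ∀ k : Fin 3, (k = 0 ∧ k + 1 = 1 ∧ k + 2 = 2) ∨ (k = 1 ∧ k + 1 = 2 ∧ k + 2 = 0) ∨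
      (k = 2 ∧ k + 1 = 0 ∧ k + 2 = 1) := by decide
  have total : ∀ (y : Edge), Regular N y → ∀ k,
      obs N k y + obs N (k + 1) y + obs N (k + 2) y = 1 := by
    intro y hy k
    have := obs_sum (by omega : 3 ≤ N) hy
    rcases hcases k with ⟨rfl, e, e'⟩ | ⟨rfl, e, e'⟩ | ⟨rfl, e, e'⟩ <;> rw [e, e'] <;> linarith
  by_cases hk : (3 * R : ℤ) ≤ gap N z k
  · exact (two k hk).trans (by linarith)
  have hgs : gap N z k + gap N z (k + 1) + gap N z (k + 2) = (N : ℤ) - 1 := by
    have := gap_sum N z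
    rcases hcases k with ⟨rfl, e, e'⟩ | ⟨rfl, e, e'⟩ | ⟨rfl, e, e'⟩ <;> rw [e, e'] <;> omega
  have near : ∀ m, gap N z (m + 1) + gap N z (m + 2) ≤ (6 * R : ℤ) →
      1 - ε / 5 - ε / 5 ≤ obs N m z ∧ 1 - ε / 5 - ε / 5 ≤ obs N m z' := by
    intro m hm
    have a1 := abs_le.1 (hd (m + 1))
    have a2 := abs_le.1 (hd (m + 2))
    have n1 := gap_nonneg hz'.1 (m + 1)
    have n2 := gap_nonneg hz'.1 (m + 2)
    have b1 := obs_near_corner harm (by omega) hR'le m z hz (by omega) (by omega)
    have b2 := obs_near_corner harm (by omega) hR'le m z' hz' (by omega) (by omega)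
    constructor <;> linarith
  have t1 := total z hz k
  have t2 := total z' hz' k
  have k1 : k + 1 + 1 = k + 2 ∧ k + 1 + 2 = k ∧ k + 2 + 1 = k ∧ k + 2 + 2 = k + 1 := by
    rcases hcases k with ⟨rfl, -, -⟩ | ⟨rfl, -, -⟩ | ⟨rfl, -, -⟩ <;> decide
  by_cases hk1 : (3 * R : ℤ) ≤ gap N z (k + 1)
  · by_cases hk2 : (3 * R : ℤ) ≤ gap N z (k + 2)
    · have := abs_le.1 (two _ hk1)
      have := abs_le.1 (two _ hk2)
      rw [abs_le]
      constructor <;> linarith
    · obtain ⟨c1, c2⟩ := near (k + 1) (by rw [k1.1, k1.2.1]; omega)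
      rw [abs_le]
      constructor <;> linarith [nn k z, nn k z', nn (k + 2) z, nn (k + 2) z']
  · by_cases hk2 : (3 * R : ℤ) ≤ gap N z (k + 2)
    · obtain ⟨c1, c2⟩ := near (k + 2) (by rw [k1.2.2.1, k1.2.2.2]; omega)
      rw [abs_le]
      constructor <;> linarith [nn k z, nn k z', nn (k + 1) z, nn (k + 1) z']
    · omega

end FA.Cardy
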