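import Fermat.Agent.Cardy.Rotate

/-!
# The two hands of an interface

A strand of a colouring keeps one colour on its right, and the sites on its right are connected.
-/

set_option autoImplicit false

noncomputable section

open Finset
open scoped Classical

namespace FA.Cardy

/-- A site of the big triangle. -/
def InTri (N : ℕ) (w : Site) : Prop := 0 ≤ w.1 ∧ 0 ≤ w.2 ∧ w.1 + w.2 ≤ (N : ℤ)

theorem adj_vert (F : Face) {i j : Fin 3} (h : i ≠ j) : Adj (vert F i) (vert F j) := by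
  obtain ⟨q, s⟩ := F
  fin_cases i <;> fin_cases j <;> cases s <;>
    simp [vert, corner, Adj] at h ⊢ <;> omega

/-- The sites of one colour. -/
def colourSet (N : ℕ) (σ : Site → ZMod 2) (u : ZMod 2) : Set Site :=
  {w | InTri N w ∧ σ w = u}

theorem two_cases : ∀ a b : ZMod 2, a + b = 1 → b = a + 1 ∧ a = b + 1 := by decide

/-- The right hand along a strand outside a removed part. -/
theorem strand_hand {N : ℕ} {D : Finset Edge} {ω S : Finset Half} {σ : Site → ZMod 2}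
    (hv : Valid N D ω) (hm : ∀ x ∈ S, mate ω x ∈ S) (hr : ∀ x ∈ S, across ω x ∈ S)
    (hcfg : cfgOf N σ = ω \ S) {h : Half} (hh : h ∈ ω) (hhS : h ∉ S) {u : ZMod 2}
    (h0 : σ (rgt h) = u ∧ σ (lft h) = u + 1) :
    ∀ k, Runs (mate ω) (across ω) h k →
      ((across ω ∘ mate ω)^[k] h ∈ ω ∧ (across ω ∘ mate ω)^[k] h ∉ S) ∧
      (σ (rgt ((across ω ∘ mate ω)^[k] h)) = u ∧
        σ (lft ((across ω ∘ mate ω)^[k] h)) = u + 1) ∧
      Conn (colourSet N σ u) (rgt h) (rgt ((across ω ∘ mate ω)^[k] h)) ∧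
      σ (lft (mate ω ((across ω ∘ mate ω)^[k] h))) = u ∧
      Conn (colourSet N σ u) (rgt h) (lft (mate ω ((across ω ∘ mate ω)^[k] h))) := by
  have step : ∀ y ∈ ω, y ∉ S → σ (rgt y) = u ∧ σ (lft y) = u + 1 →
      mate ω y ∉ S ∧ σ (lft (mate ω y)) = u ∧ σ (rgt (mate ω y)) = u + 1 ∧
      (lft (mate ω y) = rgt y ∨ Adj (rgt y) (lft (mate ω y))) := by
    intro y hy hyS hfwd
    have hmS : mate ω y ∉ S := fun h => hyS (hv.mate_mate y ▸ hm _ h)
    have hmw : mate ω y ∈ ω := hv.carries.mate_mem _ hy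
    have hmc : σ (lft (mate ω y)) + σ (rgt (mate ω y)) = 1 := by
      have : mate ω y ∈ cfgOf N σ := by
        rw [hcfg]
        exact Finset.mem_sdiff.2 ⟨hmw, hmS⟩
      exact (Finset.mem_filter.1 this).2
    have key : ∀ i : Fin 3, i + 1 + 1 = i + 2 ∧ i + 1 + 2 = i ∧ i + 2 + 1 = i ∧
        i + 2 + 2 = i + 1 ∧ i + 2 ≠ i := by decide
    obtain ⟨k1, k2, k3, k4, k5⟩ := key y.1.2
    have hside : ∀ F : Face, ∀ j, (halfAt F j).1.2 = j := fun _ _ => rfl
    refine ⟨hmS, ?_⟩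
    rcases hv.mate_cases hy with ⟨-, -, e⟩ | ⟨-, -, e⟩ <;> rw [e] at hmc ⊢ <;>
      simp only [lft, rgt, faceOf_halfAt, hside] at hmc hfwd ⊢
    · rw [k1, k2] at hmc ⊢
      exact ⟨hfwd.1, hfwd.1 ▸ (two_cases _ _ hmc).1, Or.inl rfl⟩
    · rw [k3, k4] at hmc ⊢
      refine ⟨?_, hfwd.2, Or.inr (adj_vert _ k5)⟩
      rw [hfwd.2] at hmc
      have h2 : ∀ a v : ZMod 2, a + (v + 1) = 1 → a = v := by decide
      exact h2 _ _ hmc
  have move : ∀ y ∈ ω, y ∉ S → σ (rgt y) = u ∧ σ (lft y) = u + 1 →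
      Conn (colourSet N σ u) (rgt h) (rgt y) →
      Conn (colourSet N σ u) (rgt h) (lft (mate ω y)) := by
    intro y hy hyS hfwd hc
    obtain ⟨-, g1, -, g2⟩ := step y hy hyS hfwd
    rcases g2 with g2 | g2
    · rwa [g2]
    · exact hc.step g2 ⟨(ends_mem (hv.1 (hv.carries.mate_mem _ hy))).1, g1⟩
  intro k hk
  induction k with
  | zero =>
    have hc : Conn (colourSet N σ u) (rgt h) (rgt h) :=
      Conn.refl (S := colourSet N σ u) ⟨(ends_mem (hv.1 hh)).2, h0.1⟩
    exact ⟨⟨hh, hhS⟩, h0, hc, (step h hh hhS h0).2.1, move h hh hhS h0 hc⟩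
  | succ k ih =>
    obtain ⟨⟨h1, h2⟩, h3, -, g1, g2⟩ := ih fun j hj => hk j (by omega)
    obtain ⟨hmS, -, g3, -⟩ := step _ h1 h2 h3
    have hne := hk k (by omega)
    have hmw := hv.carries.mate_mem _ h1
    rw [strand_succ]
    generalize mate ω ((across ω ∘ mate ω)^[k] h) = y at hmS g1 g2 g3 hne hmw
    have haS : across ω y ∉ S := fun h => hmS (across_across ω y ▸ hr _ h)
    have hflip : rgt (across ω y) = lft y ∧ lft (across ω y) = rgt y := by
      obtain ⟨e, v⟩ := y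
      unfold across at hne ⊢
      split_ifs at hne ⊢
      · cases v <;> simp [lft_false, rgt_false]
      · exact absurd rfl hne
    have h3' : σ (rgt (across ω y)) = u ∧ σ (lft (across ω y)) = u + 1 := by
      rw [hflip.1, hflip.2]
      exact ⟨g1, g3⟩
    have hc : Conn (colourSet N σ u) (rgt h) (rgt (across ω y)) := by rwa [hflip.1]
    exact ⟨⟨across_mem hmw, haS⟩, h3', hc, (step _ (across_mem hmw) haS h3').2.1,
      move _ (across_mem hmw) haS h3' hc⟩

end FA.Cardy
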