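import Fermat.Agent.Cardy.Sites
import Mathlib.Data.ZMod.Basic
import Mathlib.Algebra.BigOperators.Fin
import Mathlib.Algebra.CharP.Two
import Mathlib.Data.Int.Interval
import Mathlib.Tactic.LinearCombination

/-!
# The lemma of Hex

In a parallelogram of the triangular lattice either the open sites join the left side to the
right side or the closed sites join the bottom to the top, and never both. The first half is the
lemma of Sperner modulo two, the second a parity of crossings of vertical rays.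
-/

set_option autoImplicit false

noncomputable section

open Finset
open scoped Classical

namespace FA.Cardy

/-- The parallelogram `[x₀, x₁] × [y₀, y₁]`. -/
def par (x₀ x₁ y₀ y₁ : ℤ) : Finset Site := Finset.Icc x₀ x₁ ×ˢ Finset.Icc y₀ y₁

theorem mem_par {x₀ x₁ y₀ y₁ : ℤ} {v : Site} :
    v ∈ par x₀ x₁ y₀ y₁ ↔ (x₀ ≤ v.1 ∧ v.1 ≤ x₁) ∧ y₀ ≤ v.2 ∧ v.2 ≤ y₁ := by
  simp [par]

/-- The open sites cross the parallelogram from left to right. -/
def lrCross (x₀ x₁ y₀ y₁ : ℤ) : Set (Set Site) :=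
  {η | ∃ u v, Conn (η ∩ ↑(par x₀ x₁ y₀ y₁)) u v ∧ u.1 = x₀ ∧ v.1 = x₁}

/-- The open sites cross the parallelogram from bottom to top. -/
def btCross (x₀ x₁ y₀ y₁ : ℤ) : Set (Set Site) :=
  {η | ∃ u v, Conn (η ∩ ↑(par x₀ x₁ y₀ y₁)) u v ∧ u.2 = y₀ ∧ v.2 = y₁}

variable {x₀ x₁ y₀ y₁ : ℤ}

theorem isUpperSet_lrCross : IsUpperSet (lrCross x₀ x₁ y₀ y₁) :=
  fun _ _ hle ⟨u, v, h, hu, hv⟩ => ⟨u, v, h.mono (Set.inter_subset_inter_left _ hle), hu, hv⟩

theorem isUpperSet_btCross : IsUpperSet (btCross x₀ x₁ y₀ y₁) :=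
  fun _ _ hle ⟨u, v, h, hu, hv⟩ => ⟨u, v, h.mono (Set.inter_subset_inter_left _ hle), hu, hv⟩

theorem depOn_lrCross : DepOn ↑(par x₀ x₁ y₀ y₁) (lrCross x₀ x₁ y₀ y₁) :=
  fun _ _ he ⟨u, v, h, hu, hv⟩ =>
    ⟨u, v, h.mono fun x hx => ⟨(he x hx.2).1 hx.1, hx.2⟩, hu, hv⟩

theorem depOn_btCross : DepOn ↑(par x₀ x₁ y₀ y₁) (btCross x₀ x₁ y₀ y₁) :=
  fun _ _ he ⟨u, v, h, hu, hv⟩ =>
    ⟨u, v, h.mono fun x hx => ⟨(he x hx.2).1 hx.1, hx.2⟩, hu, hv⟩

/-! ### At least one crossing -/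

/-- The label of a site of the framed parallelogram: joined to the left by open sites, to the
bottom by closed ones, or neither. -/
def hexLabel (x₀ x₁ y₀ y₁ : ℤ) (η : Set Site) (w : Site) : Fin 3 :=
  if w.2 < y₀ then 1
  else if w.1 < x₀ then 0
  else if x₁ < w.1 ∨ y₁ < w.2 then 2
  else if ∃ u, Conn (η ∩ ↑(par x₀ x₁ y₀ y₁)) u w ∧ u.1 = x₀ then 0
  else if ∃ u, Conn (ηᶜ ∩ ↑(par x₀ x₁ y₀ y₁)) u w ∧ u.2 = y₀ then 1
  else 2

/-- Weight one on an edge from label `0` to label `1`. -/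
def hexWeight (i j : Fin 3) : ZMod 2 := if i.val + j.val = 1 then 1 else 0

theorem hexWeight_triangle : ∀ i j k : Fin 3,
    ((i = 0 ∨ j = 0 ∨ k = 0) → (i = 1 ∨ j = 1 ∨ k = 1) → ¬(i = 2 ∨ j = 2 ∨ k = 2)) →
    hexWeight i j + hexWeight j k + hexWeight i k = 0 := by
  decide

theorem hexLabel_zero {η : Set Site} {w : Site} (h : hexLabel x₀ x₁ y₀ y₁ η w = 0) :
    (w.1 < x₀ ∧ y₀ ≤ w.2) ∨ ∃ u, Conn (η ∩ ↑(par x₀ x₁ y₀ y₁)) u w ∧ u.1 = x₀ := by
  unfold hexLabel at h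
  split_ifs at h with h1 h2 h3 h4 h5
  all_goals first
    | exact Or.inl ⟨h2, not_lt.1 h1⟩
    | exact Or.inr h4
    | exact absurd h (by decide)

theorem hexLabel_one {η : Set Site} {w : Site} (h : hexLabel x₀ x₁ y₀ y₁ η w = 1) :
    w.2 < y₀ ∨ ∃ u, Conn (ηᶜ ∩ ↑(par x₀ x₁ y₀ y₁)) u w ∧ u.2 = y₀ := by
  unfold hexLabel at h
  split_ifs at h with h1 h2 h3 h4 h5
  all_goals first
    | exact Or.inl h1
    | exact Or.inr h5
    | exact absurd h (by decide)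

theorem hexLabel_two {η : Set Site} {w : Site} (h : hexLabel x₀ x₁ y₀ y₁ η w = 2) :
    y₀ ≤ w.2 ∧ x₀ ≤ w.1 ∧ (x₁ < w.1 ∨ y₁ < w.2 ∨ w ∈ par x₀ x₁ y₀ y₁ ∧
      (¬∃ u, Conn (η ∩ ↑(par x₀ x₁ y₀ y₁)) u w ∧ u.1 = x₀) ∧
      ¬∃ u, Conn (ηᶜ ∩ ↑(par x₀ x₁ y₀ y₁)) u w ∧ u.2 = y₀) := by
  unfold hexLabel at h
  split_ifs at h with h1 h2 h3 h4 h5 <;> try exact absurd h (by decide)
  · exact ⟨not_lt.1 h1, not_lt.1 h2, h3.imp id Or.inl⟩
  · rw [not_or, not_lt, not_lt] at h3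
    exact ⟨not_lt.1 h1, not_lt.1 h2,
      Or.inr (Or.inr ⟨mem_par.2 ⟨⟨not_lt.1 h2, h3.1⟩, not_lt.1 h1, h3.2⟩, h4, h5⟩)⟩

/-- No site of the third label has neighbours of both of the others forming a triangle with it. -/
theorem hexLabel_not_both (hx : x₀ ≤ x₁) (hy : y₀ ≤ y₁) {η : Set Site}
    (h₁ : η ∉ lrCross x₀ x₁ y₀ y₁) (h₂ : ηᶜ ∉ btCross x₀ x₁ y₀ y₁) {p q r : Site}
    (hpq : Adj p q) (hpr : Adj p r) (hqr : Adj q r) (hp : hexLabel x₀ x₁ y₀ y₁ η p = 0)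
    (hq : hexLabel x₀ x₁ y₀ y₁ η q = 1) (hr : hexLabel x₀ x₁ y₀ y₁ η r = 2) : False := by
  have a1 : ∀ {u w : Site}, Conn (η ∩ ↑(par x₀ x₁ y₀ y₁)) u w →
      (x₀ ≤ w.1 ∧ w.1 ≤ x₁) ∧ y₀ ≤ w.2 ∧ w.2 ≤ y₁ := fun h => mem_par.1 h.right_mem.2
  have a2 : ∀ {u w : Site}, Conn (ηᶜ ∩ ↑(par x₀ x₁ y₀ y₁)) u w →
      (x₀ ≤ w.1 ∧ w.1 ≤ x₁) ∧ y₀ ≤ w.2 ∧ w.2 ≤ y₁ := fun h => mem_par.1 h.right_mem.2
  obtain ⟨r2, r1, hr⟩ := hexLabel_two hr
  have hap := hpq
  have hbp := hpr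
  have hcq := hqr
  simp only [Adj] at hap hbp hcq
  by_cases hrP : r ∈ par x₀ x₁ y₀ y₁
  · have hb := mem_par.1 hrP
    obtain ⟨-, hnL, hnB⟩ := (hr.resolve_left (by omega)).resolve_left (by omega)
    by_cases hrη : r ∈ η
    · refine hnL ?_
      rcases hexLabel_zero hp with ⟨h, -⟩ | ⟨u, hu, hu1⟩
      · exact ⟨r, Conn.refl (S := η ∩ ↑(par x₀ x₁ y₀ y₁)) ⟨hrη, hrP⟩, by omega⟩
      · exact ⟨u, hu.step hpr ⟨hrη, hrP⟩, hu1⟩
    · refine hnB ?_
      rcases hexLabel_one hq with h | ⟨u, hu, hu1⟩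
      · exact ⟨r, Conn.refl (S := ηᶜ ∩ ↑(par x₀ x₁ y₀ y₁)) ⟨hrη, hrP⟩, by omega⟩
      · exact ⟨u, hu.step hqr ⟨hrη, hrP⟩, hu1⟩
  have hout : x₁ < r.1 ∨ y₁ < r.2 := by
    rw [mem_par] at hrP
    omega
  rcases le_or_gt r.2 y₁ with hr2 | hr2
  · rcases hexLabel_zero hp with ⟨h, -⟩ | ⟨u, hu, hu1⟩
    · omega
    · exact h₁ ⟨u, p, hu, hu1, by have := a1 hu; omega⟩
  · rcases hexLabel_one hq with h | ⟨u, hu, hu1⟩
    · omega
    · exact h₂ ⟨u, q, hu, hu1, by have := a2 hu; omega⟩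

/-- A telescope modulo two. -/
theorem sum_add_succ_two (N : ℕ) (g : ℕ → ZMod 2) :
    ∑ i ∈ range N, (g i + g (i + 1)) = g 0 + g N := by
  induction N with
  | zero => simp [CharTwo.add_self_eq_zero]
  | succ N ih =>
    rw [sum_range_succ, ih]
    linear_combination CharTwo.add_self_eq_zero (g N)

/-- **The lemma of Hex**, existence. -/
theorem lrCross_or_btCross (hx : x₀ ≤ x₁) (hy : y₀ ≤ y₁) (η : Set Site) :
    η ∈ lrCross x₀ x₁ y₀ y₁ ∨ ηᶜ ∈ btCross x₀ x₁ y₀ y₁ := by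
  by_contra hcon
  rw [not_or] at hcon
  obtain ⟨A, hA⟩ : ∃ A : ℕ, (A : ℤ) = x₁ - x₀ + 2 := ⟨(x₁ - x₀ + 2).toNat, by omega⟩
  obtain ⟨B, hB⟩ : ∃ B : ℕ, (B : ℤ) = y₁ - y₀ + 2 := ⟨(y₁ - y₀ + 2).toNat, by omega⟩
  obtain ⟨f, hf⟩ : ∃ f : ℕ → ℕ → Fin 3,
      ∀ i j, f i j = hexLabel x₀ x₁ y₀ y₁ η (x₀ - 1 + i, y₀ - 1 + j) := ⟨_, fun _ _ => rfl⟩
  have tri : ∀ p q r : Site, Adj p q → Adj p r → Adj q r →
      hexWeight (hexLabel x₀ x₁ y₀ y₁ η p) (hexLabel x₀ x₁ y₀ y₁ η q) +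
        hexWeight (hexLabel x₀ x₁ y₀ y₁ η q) (hexLabel x₀ x₁ y₀ y₁ η r) +
        hexWeight (hexLabel x₀ x₁ y₀ y₁ η p) (hexLabel x₀ x₁ y₀ y₁ η r) = 0 := by
    intro p q r hpq hpr hqr
    have hall : ∀ a b : Site, (a = p ∨ a = q ∨ a = r) → (b = p ∨ b = q ∨ b = r) →
        hexLabel x₀ x₁ y₀ y₁ η a ≠ hexLabel x₀ x₁ y₀ y₁ η b → Adj a b := by
      rintro a b (rfl | rfl | rfl) (rfl | rfl | rfl) hne
      all_goals first
        | exact absurd rfl hne
        | assumption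
        | exact hpq.symm
        | exact hpr.symm
        | exact hqr.symm
    refine hexWeight_triangle _ _ _ fun h0 h1 h2 => ?_
    have pick : ∀ k, (hexLabel x₀ x₁ y₀ y₁ η p = k ∨ hexLabel x₀ x₁ y₀ y₁ η q = k ∨
        hexLabel x₀ x₁ y₀ y₁ η r = k) →
        ∃ a, (a = p ∨ a = q ∨ a = r) ∧ hexLabel x₀ x₁ y₀ y₁ η a = k := by
      rintro k (h | h | h) <;> exact ⟨_, by tauto, h⟩
    obtain ⟨a, ha, la⟩ := pick 0 h0
    obtain ⟨b, hb, lb⟩ := pick 1 h1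
    obtain ⟨c, hc, lc⟩ := pick 2 h2
    exact hexLabel_not_both hx hy hcon.1 hcon.2 (hall a b ha hb (by rw [la, lb]; decide))
      (hall a c ha hc (by rw [la, lc]; decide)) (hall b c hb hc (by rw [lb, lc]; decide)) la lb lc
  set hor : ℕ → ℕ → ZMod 2 := fun i j => hexWeight (f i j) (f (i + 1) j) with hhor
  set ver : ℕ → ℕ → ZMod 2 := fun i j => hexWeight (f i j) (f i (j + 1)) with hver
  have square : ∀ i j, hor i j + hor i (j + 1) + (ver i j + ver (i + 1) j) = 0 := by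
    intro i j
    have t1 := tri (x₀ - 1 + i, y₀ - 1 + j) (x₀ - 1 + (i + 1 : ℕ), y₀ - 1 + j)
      (x₀ - 1 + i, y₀ - 1 + (j + 1 : ℕ)) (by simp only [Adj]; push_cast; omega)
      (by simp only [Adj]; push_cast; omega) (by simp only [Adj]; push_cast; omega)
    have t2 := tri (x₀ - 1 + (i + 1 : ℕ), y₀ - 1 + j) (x₀ - 1 + i, y₀ - 1 + (j + 1 : ℕ))
      (x₀ - 1 + (i + 1 : ℕ), y₀ - 1 + (j + 1 : ℕ)) (by simp only [Adj]; push_cast; omega)
      (by simp only [Adj]; push_cast; omega) (by simp only [Adj]; push_cast; omega)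
    simp only [← hf] at t1 t2
    simp only [hhor, hver]
    linear_combination t1 + t2 - CharTwo.add_self_eq_zero (hexWeight (f (i + 1) j) (f i (j + 1)))
  have hsum : ∑ i ∈ range A, ∑ j ∈ range B,
      (hor i j + hor i (j + 1) + (ver i j + ver (i + 1) j)) = 0 :=
    sum_eq_zero fun i _ => sum_eq_zero fun j _ => square i j
  simp only [sum_add_distrib (s := range B) (f := fun j => hor _ j + hor _ (j + 1))] at hsum
  rw [sum_add_distrib, Finset.sum_comm (s := range A) (t := range B)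
    (f := fun i j => ver i j + ver (i + 1) j),
    sum_congr rfl fun i _ => sum_add_succ_two B (hor i),
    sum_congr rfl fun j _ => sum_add_succ_two A (fun i => ver i j)] at hsum
  have f0 : ∀ i, f i 0 = 1 := fun i => by rw [hf, hexLabel, if_pos (by simp)]
  have fl : ∀ j, 1 ≤ j → f 0 j = 0 := fun j hj => by
    rw [hf, hexLabel, if_neg (by simp; omega), if_pos (by simp)]
  have fr : ∀ j, 1 ≤ j → f A j = 2 := fun j hj => by
    rw [hf, hexLabel, if_neg (by simp; omega), if_neg (by simp; omega),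
      if_pos (by simp; omega)]
  have ft : ∀ i, 1 ≤ i → f i B = 2 := fun i hi => by
    rw [hf, hexLabel, if_neg (by simp; omega), if_neg (by simp; omega),
      if_pos (by simp; omega)]
  have e1 : ∑ i ∈ range A, (hor i 0 + hor i B) = 0 := sum_eq_zero fun i _ => by
    simp only [hhor, f0]
    rcases Nat.eq_zero_or_pos i with rfl | hi
    · rw [fl B (by omega), ft 1 le_rfl]
      decide
    · rw [ft i hi, ft (i + 1) (by omega)]
      decide
  have e2 : ∑ j ∈ range B, (ver 0 j + ver A j) = 1 := by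
    rw [sum_eq_single 0]
    · simp only [hver, f0, fl 1 le_rfl, fr 1 le_rfl]
      decide
    · intro j _ hj
      simp only [hver]
      rw [fl j (by omega), fl (j + 1) (by omega), fr j (by omega), fr (j + 1) (by omega)]
      decide
    · simp only [Finset.mem_range]
      omega
  rw [e1, e2] at hsum
  exact absurd hsum (by decide)

/-! ### At most one crossing -/

/-- The edge `xy` crosses the ray upwards from `p`. -/
def rayCross (p x y : Site) : ZMod 2 :=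
  if (x.1 = p.1 ∧ y.1 = p.1 + 1 ∧ p.2 < x.2) ∨ (y.1 = p.1 ∧ x.1 = p.1 + 1 ∧ p.2 < y.2) then 1
  else 0

/-- The part of an endpoint in the change of parity between neighbouring sites. -/
def rayEnd (p q w : Site) : ZMod 2 :=
  if (p.1 < q.1 ∧ w.1 = q.1 ∧ q.2 < w.2) ∨ (q.1 < p.1 ∧ w.1 = p.1 ∧ p.2 < w.2) then 1 else 0

theorem rayCross_add {p q x y : Site} (hpq : Adj p q) (hxy : Adj x y) (h1 : p ≠ x) (h2 : p ≠ y)
    (h3 : q ≠ x) (h4 : q ≠ y) :
    rayCross p x y + rayCross q x y = rayEnd p q x + rayEnd p q y := by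
  obtain ⟨p1, p2⟩ := p
  obtain ⟨q1, q2⟩ := q
  obtain ⟨a1, a2⟩ := x
  obtain ⟨b1, b2⟩ := y
  simp only [Adj, ne_eq, Prod.mk.injEq, rayCross, rayEnd] at *
  rcases (by omega : q1 = p1 ∨ q1 = p1 + 1 ∨ p1 = q1 + 1) with rfl | rfl | rfl <;>
    rcases (by omega : b1 = a1 ∨ b1 = a1 + 1 ∨ a1 = b1 + 1) with rfl | rfl | rfl <;>
    simp [add_assoc] <;> split_ifs <;> first | decide | omega

/-- Crossings of rays by a walk. -/
theorem Conn.parity {S : Set Site} {u v : Site} (h : Conn S u v) :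
    ∃ s : Site → ZMod 2,
      (∀ p q, Adj p q → p ∉ S → q ∉ S → s p + s q = rayEnd p q u + rayEnd p q v) ∧
      (∀ p, p ∉ S → (∀ x ∈ S, p.2 ≤ x.2) →
        s p = (if p.1 < u.1 then 1 else 0) + (if p.1 < v.1 then 1 else 0)) ∧
      ∀ p, (∀ x ∈ S, x.2 ≤ p.2) → s p = 0 := by
  refine h.induction (P := fun x => ∃ s : Site → ZMod 2,
    (∀ p q, Adj p q → p ∉ S → q ∉ S → s p + s q = rayEnd p q u + rayEnd p q x) ∧
    (∀ p, p ∉ S → (∀ w ∈ S, p.2 ≤ w.2) →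
      s p = (if p.1 < u.1 then 1 else 0) + (if p.1 < x.1 then 1 else 0)) ∧
    ∀ p, (∀ w ∈ S, w.2 ≤ p.2) → s p = 0)
    ⟨fun _ => 0, fun p q _ _ _ => by simp [CharTwo.add_self_eq_zero],
      fun p _ _ => by simp [CharTwo.add_self_eq_zero], fun _ _ => rfl⟩ ?_
  rintro x y hux hxy hy ⟨s, hs1, hs2, hs3⟩
  refine ⟨fun p => s p + rayCross p x y, fun p q hpq hp hq => ?_, fun p hp hlow => ?_,
    fun p hup => ?_⟩
  · have hc := rayCross_add hpq hxy (fun e => hp (e ▸ hux.right_mem)) (fun e => hp (e ▸ hy))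
      (fun e => hq (e ▸ hux.right_mem)) (fun e => hq (e ▸ hy))
    linear_combination hs1 p q hpq hp hq + hc + CharTwo.add_self_eq_zero (rayEnd p q x)
  · have l1 := hlow x hux.right_mem
    have l2 := hlow y hy
    have n1 : p ≠ x := fun e => hp (e ▸ hux.right_mem)
    have n2 : p ≠ y := fun e => hp (e ▸ hy)
    have e : rayCross p x y = (if p.1 < x.1 then 1 else 0) + (if p.1 < y.1 then 1 else 0) := by
      obtain ⟨p1, p2⟩ := p
      obtain ⟨a1, a2⟩ := x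
      obtain ⟨b1, b2⟩ := y
      simp only [Adj, ne_eq, Prod.mk.injEq, rayCross] at *
      split_ifs <;> first | decide | (exfalso; omega)
    linear_combination hs2 p hp hlow + e +
      CharTwo.add_self_eq_zero (if p.1 < x.1 then (1 : ZMod 2) else 0)
  · have l1 := hup x hux.right_mem
    have l2 := hup y hy
    show s p + rayCross p x y = 0
    rw [hs3 p hup, zero_add, rayCross, if_neg (by omega)]

/-- **Crossing walks meet.** -/
theorem exists_meet {S S' : Set Site} {u v u' v' : Site} (hS : ∀ x ∈ S, y₀ ≤ x.2 ∧ x.2 ≤ y₁)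
    (hS' : ∀ x ∈ S', x₀ ≤ x.1 ∧ x.1 ≤ x₁) (h : Conn S u v) (hu : u.1 ≤ x₀) (hv : x₁ ≤ v.1)
    (h' : Conn S' u' v') (hu' : u'.2 ≤ y₀) (hv' : y₁ ≤ v'.2) : ∃ w, w ∈ S ∧ w ∈ S' := by
  by_contra hcon
  rw [not_exists] at hcon
  have hall : ∀ x ∈ S', x ∉ S := fun x hx hxS => hcon x ⟨hxS, hx⟩
  set T : Set Site := S ∪ {(u.1 - 1, u.2), (v.1 + 1, v.2)} with hT
  have hnT : ∀ x ∈ S', x ∉ T := by
    intro x hx
    have := hS' x hx
    simp only [hT, Set.mem_union, Set.mem_insert_iff, Set.mem_singleton_iff, not_or]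
    exact ⟨hall x hx, fun e => by rw [e] at this; simp at this; omega,
      fun e => by rw [e] at this; simp at this; omega⟩
  have hTb : ∀ x ∈ T, y₀ ≤ x.2 ∧ x.2 ≤ y₁ := by
    simp only [hT, Set.mem_union, Set.mem_insert_iff, Set.mem_singleton_iff]
    rintro x (hx | rfl | rfl)
    · exact hS x hx
    · exact hS u h.left_mem
    · exact hS v h.right_mem
  have hext : Conn T (u.1 - 1, u.2) (v.1 + 1, v.2) :=
    ((Conn.single (by simp) (by simp [Adj]; omega) (Or.inl h.left_mem)).trans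
      (h.mono Set.subset_union_left)).step (by simp [Adj]; omega) (by simp)
  obtain ⟨s, hs1, hs2, hs3⟩ := hext.parity
  have hconst : ∀ w, Conn S' u' w → s w = s u' := fun w hw =>
    hw.induction (P := fun x => s x = s u') rfl fun x y hux ha hy ih => by
      have hx := hux.right_mem
      have b1 := hS' x hx
      have b2 := hS' y hy
      have e := hs1 x y ha (hnT x hx) (hnT y hy)
      rw [rayEnd, rayEnd, if_neg (by dsimp only; omega), if_neg (by dsimp only; omega),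
        add_zero, CharTwo.add_eq_zero] at e
      rw [← e, ih]
  have e := hconst v' h'
  rw [hs3 v' fun x hx => (hTb x hx).2.trans hv',
    hs2 u' (hnT u' h'.left_mem) fun x hx => hu'.trans (hTb x hx).1,
    if_neg (by have := hS' u' h'.left_mem; dsimp only; omega),
    if_pos (by have := hS' u' h'.left_mem; dsimp only; omega)] at e
  exact absurd e (by decide)

/-- **The lemma of Hex**, uniqueness. -/
theorem not_lrCross_and_btCross (η : Set Site) :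
    ¬(η ∈ lrCross x₀ x₁ y₀ y₁ ∧ ηᶜ ∈ btCross x₀ x₁ y₀ y₁) := by
  rintro ⟨⟨u, v, h, hu, hv⟩, u', v', h', hu', hv'⟩
  obtain ⟨w, hw, hw'⟩ := exists_meet (fun x hx => (mem_par.1 hx.2).2)
    (fun x hx => (mem_par.1 hx.2).1) h hu.le hv.ge h' hu'.le hv'.ge
  exact hw'.1 hw.1

/-! ### The rhombus -/

/-- The exchange of the coordinates. -/
def swapSite : Site ≃ Site := Equiv.prodComm ℤ ℤ

theorem adj_swapSite {p q : Site} (h : Adj p q) : Adj (swapSite p) (swapSite q) := by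
  simp only [Adj, swapSite, Equiv.prodComm_apply, Prod.fst_swap, Prod.snd_swap] at *
  omega

theorem pr_lrCross_eq_btCross :
    pr (par x₀ x₁ y₀ y₁) (lrCross x₀ x₁ y₀ y₁) = pr (par y₀ y₁ x₀ x₁) (btCross y₀ y₁ x₀ x₁) := by
  refine le_antisymm (pr_le_map swapSite (fun x => ?_) fun s _ ⟨u, v, h, hu, hv⟩ => ?_)
    (pr_le_map swapSite (fun x => ?_) fun s _ ⟨u, v, h, hu, hv⟩ => ?_)
  · simp [mem_par, swapSite, and_comm]
  · exact ⟨_, _, h.map (fun _ _ => adj_swapSite) fun x hx =>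
      ⟨Set.mem_image_of_mem _ hx.1, by simpa [mem_par, swapSite, and_comm] using hx.2⟩, hu, hv⟩
  · simp [mem_par, swapSite, and_comm]
  · exact ⟨_, _, h.map (fun _ _ => adj_swapSite) fun x hx =>
      ⟨Set.mem_image_of_mem _ hx.1, by simpa [mem_par, swapSite, and_comm] using hx.2⟩, hu, hv⟩

/-- Open crossings one way and closed crossings the other way share all the probability. -/
theorem pr_lrCross_add_btCross (hx : x₀ ≤ x₁) (hy : y₀ ≤ y₁) :
    pr (par x₀ x₁ y₀ y₁) (lrCross x₀ x₁ y₀ y₁) +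
      pr (par x₀ x₁ y₀ y₁) (btCross x₀ x₁ y₀ y₁) = 1 := by
  have e : pr (par x₀ x₁ y₀ y₁) (lrCross x₀ x₁ y₀ y₁)ᶜ =
      pr (par x₀ x₁ y₀ y₁) {η | ↑(par x₀ x₁ y₀ y₁) \ η ∈ btCross x₀ x₁ y₀ y₁} := by
    refine pr_congr fun s _ => ⟨fun h => ?_, fun h hl => ?_⟩
    · exact (depOn_btCross.iff fun x hx => by simp [Finset.mem_coe.1 hx]).1
        ((lrCross_or_btCross hx hy _).resolve_left h)
    · exact not_lrCross_and_btCross _
        ⟨hl, (depOn_btCross.iff fun x hx => by simp [Finset.mem_coe.1 hx]).2 h⟩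
  rw [pr_flip, pr_compl] at e
  linarith

/-- The rhombus is crossed with chance one half. -/
theorem pr_lrCross_rhombus (x₀ : ℤ) (n : ℕ) :
    pr (par x₀ (x₀ + n) x₀ (x₀ + n)) (lrCross x₀ (x₀ + n) x₀ (x₀ + n)) = 1 / 2 := by
  have h := pr_lrCross_add_btCross (x₀ := x₀) (x₁ := x₀ + n) (y₀ := x₀) (y₁ := x₀ + n)
    (by omega) (by omega)
  have h' := pr_lrCross_eq_btCross (x₀ := x₀) (x₁ := x₀ + n) (y₀ := x₀) (y₁ := x₀ + n)
  linarith

end FA.Cardy
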