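import Fermat.Agent.Cardy.Contour
import Mathlib.MeasureTheory.Integral.IntervalIntegral.FundThmCalculus
import Mathlib.MeasureTheory.Integral.DominatedConvergence
import Mathlib.Topology.MetricSpace.UniformConvergence

/-!
# Limits of the observables

Along an ultrafilter of meshes the observables converge uniformly to continuous functions with
the boundary values of barycentric coordinates and with vanishing contour integrals.
-/

set_option autoImplicit false

noncomputable section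

open Finset Filter
open scoped Classical Topology

namespace FA.Cardy

/-- The closed triangle in oblique coordinates. -/
def triangle : Set (ℝ × ℝ) := {p | 0 ≤ p.1 ∧ 0 ≤ p.2 ∧ p.1 + p.2 ≤ 1}

/-- A retraction of the plane on the triangle. -/
def retract (p : ℝ × ℝ) : ℝ × ℝ :=
  (max 0 (min p.1 1), max 0 (min p.2 (1 - max 0 (min p.1 1))))

theorem retract_mem (p : ℝ × ℝ) : retract p ∈ triangle := by
  simp only [triangle, retract, Set.mem_ofPred_eq]
  refine ⟨le_max_left _ _, le_max_left _ _, ?_⟩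
  have h1 : max 0 (min p.1 1) ≤ 1 := max_le zero_le_one (min_le_right _ _)
  have h2 : max 0 (min p.2 (1 - max 0 (min p.1 1))) ≤ 1 - max 0 (min p.1 1) :=
    max_le (by linarith) (min_le_right _ _)
  linarith

theorem retract_of_mem {p : ℝ × ℝ} (hp : p ∈ triangle) : retract p = p := by
  obtain ⟨h1, h2, h3⟩ := hp
  have e1 : max 0 (min p.1 1) = p.1 := by rw [min_eq_left (by linarith), max_eq_right h1]
  refine Prod.ext e1 ?_
  show max 0 (min p.2 (1 - max 0 (min p.1 1))) = p.2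
  rw [e1, min_eq_left (by linarith), max_eq_right h2]

theorem continuous_retract : Continuous retract := by
  unfold retract
  fun_prop

/-- Nearby edges have nearby observables. -/
theorem obs_close {ε : ℝ} (hε : 0 < ε) : ∃ δ : ℝ, 0 < δ ∧ ∃ N₀ : ℕ, ∀ N ≥ N₀, ∀ z z' : Edge,
    Regular N z → Regular N z' → |(z.1.1 : ℝ) - z'.1.1| ≤ δ * N →
    |(z.1.2 : ℝ) - z'.1.2| ≤ δ * N → ∀ k, |obs N k z - obs N k z'| ≤ ε := by
  obtain ⟨M, hM⟩ := obs_equicontinuous hε
  refine ⟨1 / (4 * ((M : ℝ) + 1)), by positivity, 2 * M, fun N hN z z' hz hz' h1 h2 => ?_⟩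
  set δ : ℝ := 1 / (4 * ((M : ℝ) + 1)) with hδ
  have hMδ : (M : ℝ) * (2 * δ) ≤ 1 / 2 := by
    rw [hδ]
    field_simp
    linarith
  set d := ⌊2 * δ * N⌋₊ with hd
  have hd' : (d : ℝ) ≤ 2 * δ * N := Nat.floor_le (by positivity)
  refine hM N d z z' ?_ hz hz' fun j => ?_
  · have h : (M : ℝ) * (d + 1) ≤ N := by
      have hN' : 2 * (M : ℝ) ≤ N := by exact_mod_cast hN
      nlinarith [mul_le_mul_of_nonneg_left hd' (Nat.cast_nonneg M : (0 : ℝ) ≤ M),
        mul_le_mul_of_nonneg_right hMδ (Nat.cast_nonneg N : (0 : ℝ) ≤ N)]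
    exact_mod_cast h
  · have key : |((gap N z j - gap N z' j : ℤ) : ℝ)| ≤ 2 * δ * N := by
      rw [abs_le] at h1 h2 ⊢
      fin_cases j <;> simp [gap] <;> constructor <;> linarith
    rw [← Int.cast_abs] at key
    have : |gap N z j - gap N z' j| ≤ ⌊2 * δ * (N : ℝ)⌋ := Int.le_floor.2 key
    rwa [← Int.natCast_floor_eq_floor (by positivity)] at this

/-- The edge sampling a point at a mesh. -/
def sampleEdge (N : ℕ) (p : ℝ × ℝ) : Edge :=
  ((⌊p.1 * ((N : ℝ) - 3)⌋ + 1, ⌊p.2 * ((N : ℝ) - 3)⌋ + 1), 2)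

theorem sampleEdge_spec {N : ℕ} (hN : 5 ≤ N) {p : ℝ × ℝ} (hp : p ∈ triangle) :
    Regular N (sampleEdge N p) ∧ |((sampleEdge N p).1.1 : ℝ) - p.1 * N| ≤ 4 ∧
      |((sampleEdge N p).1.2 : ℝ) - p.2 * N| ≤ 4 := by
  obtain ⟨h1, h2, h3⟩ := hp
  have hn : (0 : ℝ) ≤ (N : ℝ) - 3 := by
    have : (5 : ℝ) ≤ N := by exact_mod_cast hN
    linarith
  have a0 : 0 ≤ ⌊p.1 * ((N : ℝ) - 3)⌋ := Int.floor_nonneg.2 (mul_nonneg h1 hn)
  have b0 : 0 ≤ ⌊p.2 * ((N : ℝ) - 3)⌋ := Int.floor_nonneg.2 (mul_nonneg h2 hn)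
  have a1 := Int.floor_le (p.1 * ((N : ℝ) - 3))
  have a2 := Int.lt_floor_add_one (p.1 * ((N : ℝ) - 3))
  have b1 := Int.floor_le (p.2 * ((N : ℝ) - 3))
  have b2 := Int.lt_floor_add_one (p.2 * ((N : ℝ) - 3))
  have hs : ⌊p.1 * ((N : ℝ) - 3)⌋ + ⌊p.2 * ((N : ℝ) - 3)⌋ ≤ (N : ℤ) - 3 := by
    have : ((⌊p.1 * ((N : ℝ) - 3)⌋ + ⌊p.2 * ((N : ℝ) - 3)⌋ : ℤ) : ℝ) ≤ ((N : ℤ) - 3 : ℤ) := by
      push_cast
      nlinarith
    exact_mod_cast this
  refine ⟨⟨mem_edges.2 (by simp only [sampleEdge]; omega), fun k h => ?_⟩, ?_, ?_⟩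
  · fin_cases k <;> simp [sampleEdge, cornerEdge] at h
    omega
  · simp only [sampleEdge, Int.cast_add, Int.cast_one]
    rw [abs_le]
    constructor <;> nlinarith
  · simp only [sampleEdge, Int.cast_add, Int.cast_one]
    rw [abs_le]
    constructor <;> nlinarith

/-- The sampled observable. -/
def obsReal (N : ℕ) (k : Fin 3) (p : ℝ × ℝ) : ℝ :=
  if p ∈ triangle ∧ 5 ≤ N then obs N k (sampleEdge N p) else 0

theorem obsReal_mem (N : ℕ) (k : Fin 3) (p : ℝ × ℝ) : obsReal N k p ∈ Set.Icc (0 : ℝ) 1 := by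
  unfold obsReal
  split_ifs with h
  · exact ⟨obs_nonneg _ _ _, obs_le_one (by omega) k (sampleEdge_spec h.2 h.1).1⟩
  · exact ⟨le_rfl, zero_le_one⟩

theorem exists_limit (U : Ultrafilter ℕ) (k : Fin 3) (p : ℝ × ℝ) :
    ∃ x ∈ Set.Icc (0 : ℝ) 1, Tendsto (fun N => obsReal N k p) U (𝓝 x) := by
  obtain ⟨x, hx, hl⟩ := isCompact_Icc.ultrafilter_le_nhds (U.map fun N => obsReal N k p) (by
    rw [Ultrafilter.coe_map]
    exact Filter.tendsto_principal.2 (Filter.Eventually.of_forall fun N => obsReal_mem N k p))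
  exact ⟨x, hx, hl⟩

/-- The limit of an observable, continued to the plane. -/
def lim3 (U : Ultrafilter ℕ) (k : Fin 3) (p : ℝ × ℝ) : ℝ :=
  (exists_limit U k (retract p)).choose

theorem tendsto_lim3 (U : Ultrafilter ℕ) (k : Fin 3) {p : ℝ × ℝ} (hp : p ∈ triangle) :
    Tendsto (fun N => obsReal N k p) U (𝓝 (lim3 U k p)) := by
  have h := (exists_limit U k (retract p)).choose_spec.2
  rw [lim3]
  simp only [retract_of_mem hp] at h ⊢
  exact h

/-- The lattice position of an edge at mesh `1 / N`. -/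
def pos (N : ℕ) (e : Edge) : ℝ × ℝ := ((e.1.1 : ℝ) / N, (e.1.2 : ℝ) / N)

theorem pos_mem {N : ℕ} {e : Edge} (he : e ∈ edges N) : pos N e ∈ triangle := by
  obtain ⟨h1, h2, h3⟩ := mem_edges.1 he
  have h1' : (0 : ℝ) ≤ e.1.1 := by exact_mod_cast h1
  have h2' : (0 : ℝ) ≤ e.1.2 := by exact_mod_cast h2
  have h3' : (e.1.1 : ℝ) + e.1.2 ≤ N := by exact_mod_cast h3.le
  refine ⟨div_nonneg h1' (Nat.cast_nonneg N), div_nonneg h2' (Nat.cast_nonneg N), ?_⟩
  show (e.1.1 : ℝ) / N + (e.1.2 : ℝ) / N ≤ 1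
  rw [← add_div]
  exact div_le_one_of_le₀ h3' (Nat.cast_nonneg N)

variable {U : Ultrafilter ℕ}

theorem lim3_close (hU : (U : Filter ℕ) ≤ atTop) {ε : ℝ} (hε : 0 < ε) : ∃ δ : ℝ, 0 < δ ∧
    ∀ p ∈ triangle, ∀ q ∈ triangle, |p.1 - q.1| ≤ δ → |p.2 - q.2| ≤ δ →
      ∀ k, |lim3 U k p - lim3 U k q| ≤ ε := by
  obtain ⟨δ, hδ, N₀, hclose⟩ := obs_close hε
  refine ⟨δ / 2, half_pos hδ, fun p hp q hq h1 h2 k => ?_⟩
  refine le_of_tendsto ((tendsto_lim3 U k hp).sub (tendsto_lim3 U k hq)).abs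
    (hU (eventually_atTop.2 ⟨max (max N₀ 5) ⌈16 / δ⌉₊, fun N hN => ?_⟩))
  simp only [max_le_iff, Nat.ceil_le] at hN
  obtain ⟨sp1, sp2, sp3⟩ := sampleEdge_spec hN.1.2 hp
  obtain ⟨sq1, sq2, sq3⟩ := sampleEdge_spec hN.1.2 hq
  have h16 : 16 ≤ δ * N := by
    have := hN.2
    rwa [div_le_iff₀ hδ, mul_comm] at this
  have hN0 : (0 : ℝ) ≤ N := Nat.cast_nonneg N
  rw [obsReal, obsReal, if_pos ⟨hp, hN.1.2⟩, if_pos ⟨hq, hN.1.2⟩]
  rw [abs_le] at sp2 sp3 sq2 sq3 h1 h2
  refine hclose N hN.1.1 _ _ sp1 sq1 ?_ ?_ k <;> rw [abs_le] <;> constructor <;> nlinarith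

theorem continuous_lim3 (hU : (U : Filter ℕ) ≤ atTop) (k : Fin 3) : Continuous (lim3 U k) := by
  have e : lim3 U k = fun p => lim3 U k (retract p) := by
    funext p
    simp only [lim3, retract_of_mem (retract_mem p)]
  suffices h : ContinuousOn (lim3 U k) triangle by
    rw [e]
    exact h.comp_continuous continuous_retract retract_mem
  rw [Metric.continuousOn_iff]
  intro q hq ε hε
  obtain ⟨δ, hδ, h⟩ := lim3_close hU (half_pos hε)
  refine ⟨δ, hδ, fun p hp hd => ?_⟩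
  rw [Real.dist_eq]
  rw [Prod.dist_eq, max_lt_iff, Real.dist_eq, Real.dist_eq] at hd
  exact lt_of_le_of_lt (h p hp q hq hd.1.le hd.2.le k) (half_lt_self hε)

/-- **Uniform convergence** to the limits on the edges. -/
theorem obs_uniform (hU : (U : Filter ℕ) ≤ atTop) {ε : ℝ} (hε : 0 < ε) :
    ∀ᶠ N : ℕ in (U : Filter ℕ), ∀ k e, Regular N e → |obs N k e - lim3 U k (pos N e)| ≤ ε := by
  obtain ⟨δ, hδ, N₀, hclose⟩ := obs_close (by positivity : 0 < ε / 3)
  obtain ⟨η, hη, hlim⟩ := lim3_close hU (by positivity : 0 < ε / 3)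
  obtain ⟨K, hK⟩ := exists_nat_gt (max (2 / δ) (1 / η))
  rw [max_lt_iff] at hK
  have hK0 : (0 : ℝ) < K := lt_trans (by positivity) hK.1
  set grid : ℕ × ℕ → ℝ × ℝ := fun ij => ((ij.1 : ℝ) / K, (ij.2 : ℝ) / K) with hgrid
  have hev : ∀ᶠ N : ℕ in (U : Filter ℕ), ∀ k : Fin 3,
      ∀ ij ∈ (Finset.range (K + 1) ×ˢ Finset.range (K + 1)).filter fun ij => ij.1 + ij.2 ≤ K,
      |obsReal N k (grid ij) - lim3 U k (grid ij)| ≤ ε / 3 := by
    refine eventually_all.2 fun k => (Finset.eventually_all _).2 fun ij hij => ?_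
    have hmem : grid ij ∈ triangle := by
      obtain ⟨-, h⟩ := Finset.mem_filter.1 hij
      refine ⟨by positivity, by positivity, ?_⟩
      simp only [hgrid, ← add_div, div_le_one hK0]
      exact_mod_cast h
    have ht : Tendsto (fun N => |obsReal N k (grid ij) - lim3 U k (grid ij)|) U (𝓝 0) := by
      simpa using ((tendsto_lim3 U k hmem).sub_const (lim3 U k (grid ij))).abs
    exact ht.eventually (eventually_le_nhds (by positivity))
  filter_upwards [hev, hU (eventually_ge_atTop (max (max N₀ 5) ⌈8 / δ⌉₊))] with N hN hN' k e he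
  simp only [max_le_iff, Nat.ceil_le] at hN'
  have h8 : 8 ≤ δ * N := by
    have := hN'.2
    rwa [div_le_iff₀ hδ, mul_comm] at this
  have hNpos : (0 : ℝ) < N := by
    have : 0 < N := by omega
    exact_mod_cast this
  obtain ⟨p1, p2, p3⟩ := pos_mem he.1
  set p := pos N e with hp
  set ij : ℕ × ℕ := (⌊p.1 * K⌋₊, ⌊p.2 * K⌋₊) with hij
  have f1 : (ij.1 : ℝ) ≤ p.1 * K := Nat.floor_le (by positivity)
  have f2 : (ij.2 : ℝ) ≤ p.2 * K := Nat.floor_le (by positivity)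
  have g1 : p.1 * K < ij.1 + 1 := Nat.lt_floor_add_one _
  have g2 : p.2 * K < ij.2 + 1 := Nat.lt_floor_add_one _
  have hsum : ij.1 + ij.2 ≤ K := by
    have : ((ij.1 + ij.2 : ℕ) : ℝ) ≤ (K : ℕ) := by
      push_cast
      nlinarith
    exact_mod_cast this
  have hmem : ij ∈ (Finset.range (K + 1) ×ˢ Finset.range (K + 1)).filter
      fun ij => ij.1 + ij.2 ≤ K :=
    Finset.mem_filter.2 ⟨Finset.mem_product.2
      ⟨Finset.mem_range.2 (by omega), Finset.mem_range.2 (by omega)⟩, hsum⟩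
  have hq : grid ij ∈ triangle := by
    refine ⟨by positivity, by positivity, ?_⟩
    simp only [hgrid, ← add_div, div_le_one hK0]
    exact_mod_cast hsum
  have d1 : |p.1 - (grid ij).1| ≤ 1 / K := by
    simp only [hgrid]
    rw [abs_le, le_sub_iff_add_le, sub_le_iff_le_add, neg_add_eq_sub, ← sub_div, ← add_div,
      div_le_iff₀ hK0, le_div_iff₀ hK0]
    constructor <;> linarith
  have d2 : |p.2 - (grid ij).2| ≤ 1 / K := by
    simp only [hgrid]
    rw [abs_le, le_sub_iff_add_le, sub_le_iff_le_add, neg_add_eq_sub, ← sub_div, ← add_div,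
      div_le_iff₀ hK0, le_div_iff₀ hK0]
    constructor <;> linarith
  have hKη : 1 / (K : ℝ) ≤ η := by
    rw [div_le_iff₀ hK0]
    have := hK.2
    rw [div_lt_iff₀ hη] at this
    linarith
  have hKδ : 1 / (K : ℝ) ≤ δ / 2 := by
    rw [div_le_iff₀ hK0]
    have := hK.1
    rw [div_lt_iff₀ hδ] at this
    linarith
  obtain ⟨s1, s2, s3⟩ := sampleEdge_spec hN'.1.2 hq
  have c1 : |lim3 U k (grid ij) - lim3 U k p| ≤ ε / 3 := by
    refine hlim _ hq _ ⟨p1, p2, p3⟩ ?_ ?_ k <;> rw [abs_sub_comm]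
    exacts [d1.trans hKη, d2.trans hKη]
  have c2 := hN k ij hmem
  rw [obsReal, if_pos ⟨hq, hN'.1.2⟩] at c2
  have q1 : p.1 * N = e.1.1 := div_mul_cancel₀ _ hNpos.ne'
  have q2 : p.2 * N = e.1.2 := div_mul_cancel₀ _ hNpos.ne'
  have c3 : |obs N k e - obs N k (sampleEdge N (grid ij))| ≤ ε / 3 := by
    have u1 := abs_le.1 (d1.trans hKδ)
    have u2 := abs_le.1 (d2.trans hKδ)
    rw [abs_le] at s2 s3
    refine hclose N hN'.1.1 _ _ he s1 ?_ ?_ k <;> rw [abs_le] <;> constructor <;> nlinarith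
  rw [abs_le] at c1 c2 c3 ⊢
  constructor <;> linarith

/-- Edges tending to a point have observables tending to the limit there. -/
theorem tendsto_obs (hU : (U : Filter ℕ) ≤ atTop) (k : Fin 3) {e : ℕ → Edge} {p : ℝ × ℝ}
    (he : ∀ᶠ N in (U : Filter ℕ), Regular N (e N))
    (hp : Tendsto (fun N => pos N (e N)) U (𝓝 p)) :
    Tendsto (fun N => obs N k (e N)) U (𝓝 (lim3 U k p)) := by
  rw [Metric.tendsto_nhds]
  intro ε hε
  have h := Metric.tendsto_nhds.1 (((continuous_lim3 hU k).tendsto p).comp hp) (ε / 2) (half_pos hε)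
  filter_upwards [h, he, obs_uniform hU (by positivity : 0 < ε / 4)] with N h1 h2 h3
  have h4 := h3 k _ h2
  simp only [Function.comp, Real.dist_eq] at h1
  rw [Real.dist_eq]
  rw [abs_lt] at h1 ⊢
  rw [abs_le] at h4
  constructor <;> linarith

theorem lim3_sum (hU : (U : Filter ℕ) ≤ atTop) {p : ℝ × ℝ} (hp : p ∈ triangle) :
    lim3 U 0 p + lim3 U 1 p + lim3 U 2 p = 1 := by
  refine tendsto_nhds_unique (((tendsto_lim3 U 0 hp).add (tendsto_lim3 U 1 hp)).add
    (tendsto_lim3 U 2 hp)) (tendsto_const_nhds.congr' ?_)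
  filter_upwards [hU (eventually_ge_atTop 5)] with N hN
  simp only [obsReal, if_pos (And.intro hp hN)]
  exact (obs_sum (by omega) (sampleEdge_spec hN hp).1).symm

theorem tendsto_div_of_bound {c : ℕ → ℝ} {x B : ℝ} (hU : (U : Filter ℕ) ≤ atTop)
    (h : ∀ᶠ N : ℕ in (U : Filter ℕ), |c N - x * N| ≤ B) :
    Tendsto (fun N : ℕ => c N / N) U (𝓝 x) := by
  rw [Metric.tendsto_nhds]
  intro ε hε
  filter_upwards [h, hU (eventually_ge_atTop (⌈(B + 1) / ε⌉₊ + 1))] with N h1 h2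
  have hN : (0 : ℝ) < N := by
    have : 0 < N := by omega
    exact_mod_cast this
  have hB : (B + 1) / ε ≤ N := (Nat.le_ceil _).trans (by exact_mod_cast (Nat.le_succ _).trans h2)
  rw [div_le_iff₀ hε] at hB
  rw [Real.dist_eq, show c N / N - x = (c N - x * N) / N by field_simp, abs_div, abs_of_pos hN,
    div_lt_iff₀ hN]
  linarith

/-- The three boundary values. -/
theorem lim3_boundary (hU : (U : Filter ℕ) ≤ atTop) {t : ℝ} (h0 : 0 ≤ t) (h1 : t ≤ 1) :
    lim3 U 0 (t, 1 - t) = 0 ∧ lim3 U 1 (0, t) = 0 ∧ lim3 U 2 (1 - t, 0) = 0 := by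
  set x : ℕ → ℕ := fun N => max 1 (min (N - 2) ⌊t * N⌋₊) with hx
  have hev : ∀ᶠ N : ℕ in (U : Filter ℕ), 1 ≤ x N ∧ x N + 2 ≤ N ∧ |(x N : ℝ) - t * N| ≤ 3 := by
    filter_upwards [hU (eventually_ge_atTop 3)] with N hN
    refine ⟨le_max_left _ _, ?_, ?_⟩
    · have : max 1 (min (N - 2) ⌊t * N⌋₊) ≤ max 1 (N - 2) :=
        max_le_max le_rfl (min_le_left _ _)
      simp only [hx]
      omega
    · have hfl : (⌊t * N⌋₊ : ℝ) ≤ t * N := Nat.floor_le (by positivity)
      have hfu : t * N < ⌊t * N⌋₊ + 1 := Nat.lt_floor_add_one _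
      have htN : t * N ≤ N := mul_le_of_le_one_left (Nat.cast_nonneg N) h1
      have hle : x N ≤ ⌊t * N⌋₊ + 1 := by
        simp only [hx]
        omega
      have hge : ⌊t * N⌋₊ ≤ x N + 2 := by
        have : ⌊t * N⌋₊ ≤ N := Nat.floor_le_of_le htN
        simp only [hx]
        omega
      have hle' : (x N : ℝ) ≤ ⌊t * N⌋₊ + 1 := by exact_mod_cast hle
      have hge' : (⌊t * N⌋₊ : ℝ) ≤ x N + 2 := by exact_mod_cast hge
      rw [abs_le]
      constructor <;> linarith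
  have hreg : ∀ᶠ N : ℕ in (U : Filter ℕ), Regular N (sidePoint N (x N)) := by
    filter_upwards [hev] with N hN
    exact regular_sidePoint hN.2.1
  have hzero : ∀ᶠ N : ℕ in (U : Filter ℕ), obs N 0 (sidePoint N (x N)) = 0 := by
    filter_upwards [hev] with N hN
    exact obs_zero_opposite (by omega) (regular_sidePoint hN.2.1) rfl (by simp [sidePoint])
  have ta : Tendsto (fun N : ℕ => (x N : ℝ) / N) U (𝓝 t) :=
    tendsto_div_of_bound hU (hev.mono fun N h => h.2.2)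
  have tb : Tendsto (fun N : ℕ => ((N : ℝ) - 1 - x N) / N) U (𝓝 (1 - t)) := by
    refine tendsto_div_of_bound (B := 4) hU (hev.mono fun N h => ?_)
    have := abs_le.1 h.2.2
    rw [abs_le]
    constructor <;> linarith
  have tc : Tendsto (fun N : ℕ => (0 : ℝ) / N) U (𝓝 0) :=
    tendsto_div_of_bound (B := 0) hU (Eventually.of_forall fun N => by simp)
  refine ⟨?_, ?_, ?_⟩
  · have h := tendsto_obs hU 0 (e := fun N => sidePoint N (x N)) (p := (t, 1 - t)) hreg (by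
      refine (ta.prodMk_nhds tb).congr fun N => ?_
      simp [pos, sidePoint])
    exact tendsto_nhds_unique h (tendsto_const_nhds.congr' (hzero.mono fun N h => h.symm))
  · have h := tendsto_obs hU 1 (e := fun N => rotEdge N (sidePoint N (x N))) (p := (0, t))
      (hreg.mono fun N h => regular_rot h) (by
        refine (tc.prodMk_nhds ta).congr fun N => ?_
        simp [pos, sidePoint, rotEdge])
    refine tendsto_nhds_unique h (tendsto_const_nhds.congr' (hzero.mono fun N h => ?_))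
    have := obs_rot N 0 (z := sidePoint N (x N))
    rw [zero_add] at this
    simp only
    rw [this, h]
  · have h := tendsto_obs hU 2 (e := fun N => rotEdge N (rotEdge N (sidePoint N (x N))))
      (p := (1 - t, 0)) (hreg.mono fun N h => regular_rot (regular_rot h)) (by
        refine (tb.prodMk_nhds tc).congr fun N => ?_
        simp [pos, sidePoint, rotEdge])
    refine tendsto_nhds_unique h (tendsto_const_nhds.congr' (hzero.mono fun N h => ?_))
    have e1 := obs_rot N 0 (z := sidePoint N (x N))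
    have e2 := obs_rot N 1 (z := rotEdge N (sidePoint N (x N)))
    rw [zero_add] at e1
    simp only [Fin.reduceAdd] at e2
    simp only
    rw [e2, e1, h]

/-- The combined limit. -/
def limC (U : Ultrafilter ℕ) (p : ℝ × ℝ) : ℂ :=
  (lim3 U 0 p : ℂ) + tau * (lim3 U 1 p : ℂ) + tau ^ 2 * (lim3 U 2 p : ℂ)

theorem continuous_limC (hU : (U : Filter ℕ) ≤ atTop) : Continuous (limC U) := by
  have h : ∀ k, Continuous fun p => (lim3 U k p : ℂ) := fun k =>
    Complex.continuous_ofReal.comp (continuous_lim3 hU k)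
  exact ((h 0).add (continuous_const.mul (h 1))).add (continuous_const.mul (h 2))

theorem norm_tau : ‖tau‖ = 1 := by
  have h : Real.sqrt 3 * Real.sqrt 3 = 3 := Real.mul_self_sqrt (by norm_num)
  have e : Complex.normSq tau = 1 := by
    simp only [tau, Complex.normSq_mk]
    linarith
  rw [Complex.norm_def, e, Real.sqrt_one]

theorem obsC_uniform (hU : (U : Filter ℕ) ≤ atTop) {ε : ℝ} (hε : 0 < ε) :
    ∀ᶠ N : ℕ in (U : Filter ℕ), ∀ e, Regular N e → ‖obsC N e - limC U (pos N e)‖ ≤ ε := by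
  filter_upwards [obs_uniform hU (by positivity : 0 < ε / 3)] with N hN e he
  have e1 : obsC N e - limC U (pos N e) = ((obs N 0 e - lim3 U 0 (pos N e) : ℝ) : ℂ) +
      tau * ((obs N 1 e - lim3 U 1 (pos N e) : ℝ) : ℂ) +
      tau ^ 2 * ((obs N 2 e - lim3 U 2 (pos N e) : ℝ) : ℂ) := by
    simp only [obsC, limC]
    push_cast
    ring
  rw [e1]
  refine norm_add₃_le.trans ?_
  rw [norm_mul, norm_mul, norm_pow, norm_tau, one_pow, one_mul, one_mul, Complex.norm_real,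
    Complex.norm_real, Complex.norm_real, Real.norm_eq_abs, Real.norm_eq_abs, Real.norm_eq_abs]
  linarith [hN 0 e he, hN 1 e he, hN 2 e he]

/-- Riemann sums along an ultrafilter. -/
theorem tendsto_riemann {f : ℝ → ℂ} (hf : Continuous f) {X : ℝ} (hX : 0 ≤ X) {m : ℕ → ℕ}
    {v : ℕ → ℕ → ℂ} (hU : (U : Filter ℕ) ≤ atTop)
    (hm : Tendsto (fun N : ℕ => (m N : ℝ) / N) U (𝓝 X))
    (hv : ∀ ε : ℝ, 0 < ε → ∀ᶠ N : ℕ in (U : Filter ℕ), ∀ i < m N, ‖v N i - f (i / N)‖ ≤ ε) :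
    Tendsto (fun N : ℕ => (∑ i ∈ range (m N), v N i) / (N : ℂ)) U
      (𝓝 (∫ s in (0 : ℝ)..X, f s)) := by
  have hint : ∀ a b : ℝ, IntervalIntegrable f MeasureTheory.volume a b :=
    fun a b => hf.intervalIntegrable a b
  have hprim : Tendsto (fun N : ℕ => ∫ s in (0 : ℝ)..(m N : ℝ) / N, f s) U
      (𝓝 (∫ s in (0 : ℝ)..X, f s)) :=
    ((intervalIntegral.continuous_primitive hint 0).tendsto X).comp hm
  refine hprim.congr_dist ?_
  rw [Metric.tendsto_nhds]
  intro ε hε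
  set η : ℝ := ε / (2 * (X + 2)) with hη
  have hη0 : 0 < η := by positivity
  obtain ⟨δ, hδ, huc⟩ := Metric.uniformContinuousOn_iff.1
    ((isCompact_Icc (a := (0 : ℝ)) (b := X + 1)).uniformContinuousOn_of_continuous
      hf.continuousOn) η hη0
  filter_upwards [hv η hη0, hU (eventually_ge_atTop (⌈1 / δ⌉₊ + 1)),
    hm.eventually (eventually_le_nhds (by linarith : X < X + 1))] with N hN hN1 hm1
  have hNpos : (0 : ℝ) < N := by
    have : 0 < N := by omega
    exact_mod_cast this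
  have hδN : 1 / (N : ℝ) < δ := by
    have h1 : 1 / δ < N := lt_of_le_of_lt (Nat.le_ceil _) (by exact_mod_cast hN1)
    rw [div_lt_iff₀ hNpos]
    rw [div_lt_iff₀ hδ] at h1
    linarith
  rw [dist_zero_right, Real.norm_eq_abs, abs_of_nonneg dist_nonneg, dist_eq_norm]
  have hadj : ∑ i ∈ range (m N), ∫ s in ((i : ℕ) : ℝ) / N..((i + 1 : ℕ) : ℝ) / N, f s =
      ∫ s in (0 : ℝ)..(m N : ℝ) / N, f s := by
    rw [intervalIntegral.sum_integral_adjacent_intervals (a := fun k : ℕ => (k : ℝ) / N)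
      fun k _ => hint _ _]
    simp
  rw [← hadj, Finset.sum_div, ← sum_sub_distrib]
  have hterm : ∀ i ∈ range (m N),
      ‖(∫ s in ((i : ℕ) : ℝ) / N..((i + 1 : ℕ) : ℝ) / N, f s) - v N i / (N : ℂ)‖ ≤
        2 * η / N := by
    intro i hi
    rw [Finset.mem_range] at hi
    have hw : ((i + 1 : ℕ) : ℝ) / N - ((i : ℕ) : ℝ) / N = 1 / N := by
      push_cast
      ring
    have e : v N i / (N : ℂ) = ∫ s in ((i : ℕ) : ℝ) / N..((i + 1 : ℕ) : ℝ) / N, v N i := by
      rw [intervalIntegral.integral_const, hw, Complex.real_smul]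
      push_cast
      ring
    rw [e, ← intervalIntegral.integral_sub (hint _ _) intervalIntegrable_const]
    refine (intervalIntegral.norm_integral_le_of_norm_le_const (C := 2 * η) fun s hs => ?_).trans
      (le_of_eq ?_)
    · rw [Set.uIoc_of_le (by linarith [one_div_pos.2 hNpos]), Set.mem_Ioc] at hs
      have htop : ((i + 1 : ℕ) : ℝ) / N ≤ X + 1 :=
        le_trans (div_le_div_of_nonneg_right (by exact_mod_cast hi) hNpos.le) hm1
      have h0 : (0 : ℝ) ≤ (i : ℝ) / N := by positivity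
      have hclose : ‖f s - f (i / N)‖ ≤ η := by
        rw [← dist_eq_norm]
        refine (huc s ⟨by linarith, by linarith⟩ _ ⟨h0, by linarith⟩ ?_).le
        rw [Real.dist_eq, abs_lt]
        constructor <;> linarith
      calc ‖f s - v N i‖ ≤ ‖f s - f (i / N)‖ + ‖f (i / N) - v N i‖ :=
            norm_sub_le_norm_sub_add_norm_sub _ _ _
        _ ≤ 2 * η := by
            rw [norm_sub_rev (f (i / N)) (v N i)]
            linarith [hN i hi]
    · rw [hw, abs_of_pos (one_div_pos.2 hNpos)]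
      ring
  refine lt_of_le_of_lt ((norm_sum_le _ _).trans (sum_le_sum hterm)) ?_
  rw [sum_const, card_range, nsmul_eq_mul]
  calc (m N : ℝ) * (2 * η / N) = (m N : ℝ) / N * (2 * η) := by ring
    _ ≤ (X + 1) * (2 * η) := mul_le_mul_of_nonneg_right hm1 (by positivity)
    _ < ε := by
        rw [hη]
        field_simp
        linarith

/-- **Vanishing contour integrals.** -/
theorem limC_contour (hU : (U : Filter ℕ) ≤ atTop) {X Y : ℝ} (hX : 0 ≤ X) (hY : 0 ≤ Y)
    (hXY : X + Y ≤ 1) :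
    (∫ s in (0 : ℝ)..X, limC U (s, 0)) - (∫ s in (0 : ℝ)..X, limC U (s, Y)) +
      tau ^ 2 * ((∫ s in (0 : ℝ)..Y, limC U (0, s)) - (∫ s in (0 : ℝ)..Y, limC U (X, s))) =
    0 := by
  set m : ℕ → ℕ := fun N => ⌊X * ((N : ℝ) - 5)⌋₊ with hm
  set l : ℕ → ℕ := fun N => ⌊Y * ((N : ℝ) - 5)⌋₊ with hl
  have hbig : ∀ᶠ N : ℕ in (U : Filter ℕ), 6 ≤ N ∧ (m N : ℤ) + l N + 3 ≤ N ∧
      |(m N : ℝ) - X * N| ≤ 6 ∧ |(l N : ℝ) - Y * N| ≤ 6 := by
    filter_upwards [hU (eventually_ge_atTop 6)] with N hN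
    have hn : (0 : ℝ) ≤ (N : ℝ) - 5 := by
      have : (6 : ℝ) ≤ N := by exact_mod_cast hN
      linarith
    have a1 : (m N : ℝ) ≤ X * ((N : ℝ) - 5) := Nat.floor_le (mul_nonneg hX hn)
    have a2 : X * ((N : ℝ) - 5) < m N + 1 := Nat.lt_floor_add_one _
    have b1 : (l N : ℝ) ≤ Y * ((N : ℝ) - 5) := Nat.floor_le (mul_nonneg hY hn)
    have b2 : Y * ((N : ℝ) - 5) < l N + 1 := Nat.lt_floor_add_one _
    refine ⟨hN, ?_, ?_, ?_⟩
    · have : ((m N : ℤ) + l N + 3 : ℤ) ≤ ((N : ℤ) : ℤ) := by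
        have h : (m N : ℝ) + l N + 3 ≤ N := by nlinarith
        exact_mod_cast h
      exact this
    · rw [abs_le]
      constructor <;> nlinarith
    · rw [abs_le]
      constructor <;> nlinarith
  have tm : Tendsto (fun N : ℕ => (m N : ℝ) / N) U (𝓝 X) :=
    tendsto_div_of_bound hU (hbig.mono fun N h => h.2.2.1)
  have tl : Tendsto (fun N : ℕ => (l N : ℝ) / N) U (𝓝 Y) :=
    tendsto_div_of_bound hU (hbig.mono fun N h => h.2.2.2)
  have tone : Tendsto (fun N : ℕ => (1 : ℝ) / N) U (𝓝 0) :=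
    tendsto_div_of_bound (B := 1) hU (Eventually.of_forall fun N => by simp)
  have hcont := continuous_limC hU
  have huc : ∀ ε : ℝ, 0 < ε → ∃ δ : ℝ, 0 < δ ∧ ∀ p q : ℝ × ℝ,
      p ∈ Set.Icc ((-1 : ℝ), (-1 : ℝ)) (2, 2) → q ∈ Set.Icc ((-1 : ℝ), (-1 : ℝ)) (2, 2) →
      |p.1 - q.1| < δ → |p.2 - q.2| < δ → ‖limC U p - limC U q‖ ≤ ε := by
    intro ε hε
    obtain ⟨δ, hδ, h⟩ := Metric.uniformContinuousOn_iff.1
      ((isCompact_Icc (a := ((-1 : ℝ), (-1 : ℝ))) (b := ((2 : ℝ), (2 : ℝ))))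
        |>.uniformContinuousOn_of_continuous hcont.continuousOn) ε hε
    refine ⟨δ, hδ, fun p q hp hq h1 h2 => ?_⟩
    rw [← dist_eq_norm]
    refine (h p hp q hq ?_).le
    rw [Prod.dist_eq, max_lt_iff, Real.dist_eq, Real.dist_eq]
    exact ⟨h1, h2⟩
  have approx : ∀ (n : ℕ → ℕ) (e : ℕ → ℕ → Edge) (γ : ℝ → ℝ × ℝ) (cx cy : ℕ → ℝ),
      (∀ᶠ N : ℕ in (U : Filter ℕ), ∀ i < n N, Regular N (e N i)) →
      (∀ (N i : ℕ), (pos N (e N i)).1 = (γ ((i : ℝ) / N)).1 + cx N ∧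
        (pos N (e N i)).2 = (γ ((i : ℝ) / N)).2 + cy N) →
      Tendsto cx U (𝓝 0) → Tendsto cy U (𝓝 0) →
      ∀ ε : ℝ, 0 < ε → ∀ᶠ N : ℕ in (U : Filter ℕ), ∀ i < n N,
        ‖obsC N (e N i) - limC U (γ ((i : ℝ) / N))‖ ≤ ε := by
    intro n e γ cx cy hreg hpos hcx hcy ε hε
    obtain ⟨δ, hδ, h⟩ := huc (ε / 2) (half_pos hε)
    filter_upwards [hreg, obsC_uniform hU (half_pos hε),
      (Metric.tendsto_nhds.1 hcx) (min δ 1) (by positivity),
      (Metric.tendsto_nhds.1 hcy) (min δ 1) (by positivity)] with N h1 h2 h3 h4 i hi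
    rw [Real.dist_eq, sub_zero, lt_min_iff] at h3 h4
    obtain ⟨p1, p2⟩ := hpos N i
    obtain ⟨t1, t2, t3⟩ := pos_mem (h1 i hi).1
    have b3 := abs_lt.1 h3.2
    have b4 := abs_lt.1 h4.2
    have hin : pos N (e N i) ∈ Set.Icc ((-1 : ℝ), (-1 : ℝ)) (2, 2) :=
      ⟨⟨by dsimp only; linarith, by dsimp only; linarith⟩,
        ⟨by dsimp only; linarith, by dsimp only; linarith⟩⟩
    have hin' : γ ((i : ℝ) / N) ∈ Set.Icc ((-1 : ℝ), (-1 : ℝ)) (2, 2) :=
      ⟨⟨by dsimp only; linarith, by dsimp only; linarith⟩,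
        ⟨by dsimp only; linarith, by dsimp only; linarith⟩⟩
    have h5 := h _ _ hin hin' (by rw [p1, add_sub_cancel_left]; exact h3.1)
      (by rw [p2, add_sub_cancel_left]; exact h4.1)
    calc _ ≤ ‖obsC N (e N i) - limC U (pos N (e N i))‖ +
          ‖limC U (pos N (e N i)) - limC U (γ ((i : ℝ) / N))‖ :=
          norm_sub_le_norm_sub_add_norm_sub _ _ _
      _ ≤ ε := by linarith [h2 _ (h1 i hi)]
  have hreg : ∀ (N : ℕ) (x y : ℤ) (i : Fin 3), 1 ≤ x → 1 ≤ y → x + y < (N : ℤ) →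
      Regular N ((x, y), i) := fun N x y i h1 h2 h3 => by
    refine ⟨mem_edges.2 (by simp only; omega), fun k hk => ?_⟩
    fin_cases k <;> simp [cornerEdge] at hk <;> omega
  have tY : Tendsto (fun N : ℕ => (1 + (l N : ℝ)) / N - Y) U (𝓝 0) := by
    have := (tone.add tl).sub_const Y
    simp only [zero_add, sub_self] at this
    exact this.congr fun N => by ring
  have tX : Tendsto (fun N : ℕ => (1 + (m N : ℝ)) / N - X) U (𝓝 0) := by
    have := (tone.add tm).sub_const X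
    simp only [zero_add, sub_self] at this
    exact this.congr fun N => by ring
  have r₁ := tendsto_riemann (f := fun s => limC U (s, 0)) (hcont.comp (by fun_prop)) hX hU tm
    (v := fun N i => obsC N ((1 + (i : ℤ), 1), 2))
    (approx m (fun N i => ((1 + (i : ℤ), 1), 2)) (fun s => (s, 0))
      (fun N => (1 : ℝ) / N) (fun N => (1 : ℝ) / N)
      (hbig.mono fun N h i hi => hreg _ _ _ _ (by omega) le_rfl (by omega))
      (fun N i => by simp [pos]; ring) tone tone)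
  have r₂ := tendsto_riemann (f := fun s => limC U (s, Y)) (hcont.comp (by fun_prop)) hX hU tm
    (v := fun N i => obsC N ((1 + (i : ℤ), 1 + (l N : ℤ)), 2))
    (approx m (fun N i => ((1 + (i : ℤ), 1 + (l N : ℤ)), 2)) (fun s => (s, Y))
      (fun N => (1 : ℝ) / N) (fun N => (1 + (l N : ℝ)) / N - Y)
      (hbig.mono fun N h i hi => hreg _ _ _ _ (by omega) (by omega) (by omega))
      (fun N i => ⟨by simp [pos]; ring, by simp [pos]⟩) tone tY)
  have r₃ := tendsto_riemann (f := fun s => limC U (0, s)) (hcont.comp (by fun_prop)) hY hU tl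
    (v := fun N i => obsC N ((1, 1 + (i : ℤ)), 1))
    (approx l (fun N i => ((1, 1 + (i : ℤ)), 1)) (fun s => (0, s))
      (fun N => (1 : ℝ) / N) (fun N => (1 : ℝ) / N)
      (hbig.mono fun N h i hi => hreg _ _ _ _ le_rfl (by omega) (by omega))
      (fun N i => by simp [pos]; ring) tone tone)
  have r₄ := tendsto_riemann (f := fun s => limC U (X, s)) (hcont.comp (by fun_prop)) hY hU tl
    (v := fun N i => obsC N ((1 + (m N : ℤ), 1 + (i : ℤ)), 1))
    (approx l (fun N i => ((1 + (m N : ℤ), 1 + (i : ℤ)), 1)) (fun s => (X, s))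
      (fun N => (1 + (m N : ℝ)) / N - X) (fun N => (1 : ℝ) / N)
      (hbig.mono fun N h i hi => hreg _ _ _ _ (by omega) (by omega) (by omega))
      (fun N i => ⟨by simp [pos], by simp [pos]; ring⟩) tX tone)
  refine tendsto_nhds_unique ((r₁.sub r₂).add ((r₃.sub r₄).const_mul (tau ^ 2)))
    (tendsto_const_nhds.congr' ?_)
  filter_upwards [hbig] with N h
  have := parallelogram_sum_zero (N := N) (by omega) (a := 1) (b := 1) le_rfl le_rfl
    (m := m N) (l := l N) (by omega)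
  rw [sum_sub_distrib, sum_sub_distrib] at this
  calc (0 : ℂ) = 0 / (N : ℂ) := (zero_div _).symm
    _ = _ := by rw [← this]; ring

end FA.Cardy
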