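import Mathlib.Data.Finset.Image
import Mathlib.Data.Fintype.Card
import Mathlib.Logic.Function.Iterate

/-!
# Strands of two involutions

Alternately apply two involutions `m` and `r`; from a point fixed by `r` this traces a strand
that ends at exactly one other point fixed by `r`.
-/

set_option autoImplicit false

namespace FA.Cardy

variable {α : Type*} {m r m' r' : α → α}

/-- The first `n` steps from `h` do not stop. -/
def Runs (m r : α → α) (h : α) (n : ℕ) : Prop :=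
  ∀ k < n, r (m ((r ∘ m)^[k] h)) ≠ m ((r ∘ m)^[k] h)

/-- The strand from `h` ends at `t`. -/
def EndsAt (m r : α → α) (h t : α) : Prop :=
  ∃ n, Runs m r h n ∧ r (m ((r ∘ m)^[n] h)) = m ((r ∘ m)^[n] h) ∧ t = m ((r ∘ m)^[n] h)

theorem strand_succ (m r : α → α) (h : α) (k : ℕ) :
    (r ∘ m)^[k + 1] h = r (m ((r ∘ m)^[k] h)) :=
  Function.iterate_succ_apply' _ _ _

theorem EndsAt.unique {h t t' : α} (h₁ : EndsAt m r h t) (h₂ : EndsAt m r h t') : t = t' := by
  obtain ⟨n, hn, hf, rfl⟩ := h₁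
  obtain ⟨n', hn', hf', rfl⟩ := h₂
  rcases lt_trichotomy n n' with hl | rfl | hl
  · exact absurd hf (hn' n hl)
  · rfl
  · exact absurd hf' (hn n' hl)

theorem EndsAt.fixed {h t : α} (h₁ : EndsAt m r h t) : r t = t := by
  obtain ⟨n, -, hf, rfl⟩ := h₁
  exact hf

theorem strand_reverse (hm : ∀ x, m (m x) = x) (hr : ∀ x, r (r x) = x) {h : α} {n : ℕ}
    (hn : r (m ((r ∘ m)^[n] h)) = m ((r ∘ m)^[n] h)) :
    ∀ k ≤ n, (r ∘ m)^[k] (m ((r ∘ m)^[n] h)) = m ((r ∘ m)^[n - k] h)
  | 0, _ => rfl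
  | k + 1, hk => by
    rw [strand_succ, strand_reverse hm hr hn k (by omega), hm,
      show n - k = n - (k + 1) + 1 by omega, strand_succ, hr]

/-- The strand runs backwards. -/
theorem EndsAt.symm (hm : ∀ x, m (m x) = x) (hr : ∀ x, r (r x) = x) {h t : α} (hh : r h = h)
    (h₁ : EndsAt m r h t) : EndsAt m r t h := by
  obtain ⟨n, hn, hf, rfl⟩ := h₁
  have hrev := strand_reverse hm hr hf
  refine ⟨n, fun k hk => ?_, ?_, ?_⟩
  · rw [hrev k hk.le, hm, show n - k = n - (k + 1) + 1 by omega, strand_succ, hr]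
    exact (hn (n - (k + 1)) (by omega)).symm
  · rw [hrev n le_rfl, hm, Nat.sub_self]
    exact hh
  · rw [hrev n le_rfl, hm, Nat.sub_self]
    rfl

theorem strand_ne_mate_start (hm : ∀ x, m (m x) = x) (hr : ∀ x, r (r x) = x) :
    ∀ (n : ℕ) (h : α), m h ≠ h → (∀ k ≤ n, m ((r ∘ m)^[k] h) ≠ (r ∘ m)^[k] h) →
      Runs m r h n → (r ∘ m)^[n] h ≠ m h
  | 0, _, hne, _, _ => fun e => hne e.symm
  | 1, h, _, _, hn => fun e => hn 0 one_pos e
  | n + 2, h, _, hfree, hn => fun e => by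
    rw [strand_succ] at e
    have e' : (r ∘ m)^[n + 1] h = m (r (m h)) := by
      rw [← hm ((r ∘ m)^[n + 1] h), ← e, hr]
    have hn' : Runs m r (r (m h)) n := fun k hk => by
      have := hn (k + 1) (by omega)
      rwa [Function.iterate_succ_apply] at this
    refine strand_ne_mate_start hm hr n (r (m h)) (hfree 1 (by omega)) (fun k hk => ?_) hn' ?_
    · have := hfree (k + 1) (by omega)
      rwa [Function.iterate_succ_apply] at this
    · rw [Function.iterate_succ_apply] at e'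
      exact e'

/-- A point set carried to itself by both involutions, moved by the first. -/
structure Carries (m r : α → α) (S : Finset α) : Prop where
  mate_mem : ∀ x ∈ S, m x ∈ S
  across_mem : ∀ x ∈ S, r x ∈ S
  mate_ne : ∀ x ∈ S, m x ≠ x

theorem Carries.strand_mem {S : Finset α} (hS : Carries m r S) {h : α} (hh : h ∈ S) :
    ∀ k, (r ∘ m)^[k] h ∈ S
  | 0 => hh
  | k + 1 => by
    rw [strand_succ]
    exact hS.across_mem _ (hS.mate_mem _ (hS.strand_mem hh k))

/-- **Every strand ends, at another point.** -/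
theorem Carries.exists_endsAt {S : Finset α} (hS : Carries m r S) (hm : ∀ x, m (m x) = x)
    (hr : ∀ x, r (r x) = x) {h : α} (hh : h ∈ S) (hfix : r h = h) :
    ∃ t ∈ S, EndsAt m r h t ∧ t ≠ h := by
  classical
  by_cases hstop : ∃ k, r (m ((r ∘ m)^[k] h)) = m ((r ∘ m)^[k] h)
  · have hn : Runs m r h (Nat.find hstop) := fun k hk => Nat.find_min hstop hk
    refine ⟨_, hS.mate_mem _ (hS.strand_mem hh _), ⟨_, hn, Nat.find_spec hstop, rfl⟩, fun e => ?_⟩
    refine strand_ne_mate_start hm hr _ h (hS.mate_ne h hh)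
      (fun k _ => hS.mate_ne _ (hS.strand_mem hh k)) hn ?_
    rw [← hm ((r ∘ m)^[Nat.find hstop] h), e]
  rw [not_exists] at hstop
  obtain ⟨i, j, hij, e⟩ : ∃ i j, i < j ∧ (r ∘ m)^[i] h = (r ∘ m)^[j] h := by
    obtain ⟨i, -, j, -, hne, he⟩ := Finset.exists_ne_map_eq_of_card_lt_of_maps_to
      (s := Finset.range (S.card + 1)) (by simp) (f := fun k => (r ∘ m)^[k] h)
      (fun k _ => hS.strand_mem hh k)
    rcases hne.lt_or_gt with h' | h'
    · exact ⟨i, j, h', he⟩
    · exact ⟨j, i, h', he.symm⟩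
  obtain ⟨d, rfl⟩ : ∃ d, j = i + (d + 1) := ⟨j - i - 1, by omega⟩
  have hinj : Function.Injective (r ∘ m) := fun x y hxy => by
    have h1 := congrArg r hxy
    simp only [Function.comp_apply, hr] at h1
    simpa only [hm] using congrArg m h1
  rw [Function.iterate_add_apply] at e
  have e' := hinj.iterate i e
  rw [strand_succ] at e'
  have h2 : m ((r ∘ m)^[d] h) = h := by
    have h3 := congrArg r e'
    rwa [hfix, hr, eq_comm] at h3
  exact absurd (by rw [h2, hfix]) (hstop d)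

/-- Strands agree while the involutions agree. -/
theorem strand_congr {h : α} : ∀ (n : ℕ),
    (∀ k < n, m' ((r ∘ m)^[k] h) = m ((r ∘ m)^[k] h) ∧
      r' (m ((r ∘ m)^[k] h)) = r (m ((r ∘ m)^[k] h))) →
    (r' ∘ m')^[n] h = (r ∘ m)^[n] h
  | 0, _ => rfl
  | n + 1, hag => by
    rw [strand_succ, strand_succ, strand_congr n fun k hk => hag k (by omega),
      (hag n (by omega)).1, (hag n (by omega)).2]

theorem EndsAt.congr {h t : α} (h₁ : EndsAt m r h t)
    (hag : ∀ k, Runs m r h k → m' ((r ∘ m)^[k] h) = m ((r ∘ m)^[k] h) ∧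
      r' (m ((r ∘ m)^[k] h)) = r (m ((r ∘ m)^[k] h))) :
    EndsAt m' r' h t := by
  obtain ⟨n, hn, hf, rfl⟩ := h₁
  have hruns : ∀ k ≤ n, Runs m r h k := fun k hk j hj => hn j (by omega)
  have e : ∀ k ≤ n, (r' ∘ m')^[k] h = (r ∘ m)^[k] h := fun k hk =>
    strand_congr k fun j hj => hag j (hruns j (by omega))
  have e1 : ∀ k ≤ n, r' (m' ((r' ∘ m')^[k] h)) = r (m ((r ∘ m)^[k] h)) ∧
      m' ((r' ∘ m')^[k] h) = m ((r ∘ m)^[k] h) := fun k hk => by
    rw [e k hk, (hag k (hruns k hk)).1]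
    exact ⟨(hag k (hruns k hk)).2, rfl⟩
  refine ⟨n, fun k hk => ?_, ?_, ?_⟩
  · rw [(e1 k hk.le).1, (e1 k hk.le).2]
    exact hn k hk
  · rw [(e1 n le_rfl).1, (e1 n le_rfl).2]
    exact hf
  · rw [(e1 n le_rfl).2]

end FA.Cardy
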