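import Fermat.Agent.Cardy.Hex
import Fermat.Agent.Cardy.Strand

/-!
# Configurations of half-edges

Edges of the dual honeycomb lattice are cut in halves. A configuration with a given set of
defects uses an even number of halves at every face and both or neither half of every edge
outside the defects. With defects on the boundary only these are the boundaries of colourings.
-/

set_option autoImplicit false

noncomputable section

open Finset
open scoped Classical

namespace FA.Cardy

/-- The corners of the triangle with lower left corner `0`. -/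
def corner : Fin 3 → Site := ![((0 : ℤ), (0 : ℤ)), (1, 0), (0, 1)]

/-- An upward (`true`) or downward face, by its lower left corner. -/
abbrev Face : Type := Site × Bool

/-- An edge: a side of an upward face. -/
abbrev Edge : Type := Site × Fin 3

/-- The half of an edge in one of its two faces. -/
abbrev Half : Type := Edge × Bool

/-- The corners of a face, anticlockwise. -/
def vert (F : Face) (i : Fin 3) : Site :=
  if F.2 then F.1 + corner i else F.1 + (1, 1) - corner i

/-- The face of a half. -/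
def faceOf (h : Half) : Face := (if h.2 then h.1.1 else h.1.1 - corner h.1.2, h.2)

/-- The half of a face at one of its sides. -/
def halfAt (F : Face) (i : Fin 3) : Half := ((if F.2 then F.1 else F.1 + corner i, i), F.2)

theorem faceOf_halfAt (F : Face) (i : Fin 3) : faceOf (halfAt F i) = F := by
  obtain ⟨q, s⟩ := F
  cases s <;> simp [faceOf, halfAt]

theorem halfAt_faceOf (h : Half) : halfAt (faceOf h) h.1.2 = h := by
  obtain ⟨⟨p, i⟩, s⟩ := h
  cases s <;> simp [faceOf, halfAt]

theorem halfAt_injective (F : Face) : Function.Injective (halfAt F) := fun i j h => by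
  simpa [halfAt] using congrArg (fun x : Half => x.1.2) h

/-- The endpoint on the left of one entering the face of a half. -/
def lft (h : Half) : Site := vert (faceOf h) (h.1.2 + 1)

/-- The endpoint on the right of one entering the face of a half. -/
def rgt (h : Half) : Site := vert (faceOf h) (h.1.2 + 2)

theorem lft_false (e : Edge) : lft (e, false) = rgt (e, true) := by
  obtain ⟨p, i⟩ := e
  fin_cases i <;> simp [lft, rgt, vert, faceOf, corner, Prod.ext_iff]

theorem rgt_false (e : Edge) : rgt (e, false) = lft (e, true) := by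
  obtain ⟨p, i⟩ := e
  fin_cases i <;> simp [lft, rgt, vert, faceOf, corner, Prod.ext_iff]

/-- A face of the big triangle. -/
def FaceIn (N : ℕ) (F : Face) : Prop :=
  0 ≤ F.1.1 ∧ 0 ≤ F.1.2 ∧ F.1.1 + F.1.2 + (if F.2 then 0 else 1) < (N : ℤ)

/-- The edges of the big triangle. -/
def edges (N : ℕ) : Finset Edge :=
  (par 0 N 0 N ×ˢ (Finset.univ : Finset (Fin 3))).filter fun e =>
    e.1.1 + e.1.2 < (N : ℤ)

theorem mem_edges {N : ℕ} {e : Edge} :
    e ∈ edges N ↔ 0 ≤ e.1.1 ∧ 0 ≤ e.1.2 ∧ e.1.1 + e.1.2 < (N : ℤ) := by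
  simp only [edges, Finset.mem_filter, Finset.mem_product, mem_par, Finset.mem_univ, and_true]
  omega

/-- The halves of the big triangle. -/
def halves (N : ℕ) : Finset Half :=
  (edges N ×ˢ (Finset.univ : Finset Bool)).filter fun h => FaceIn N (faceOf h)

theorem mem_halves {N : ℕ} {h : Half} : h ∈ halves N ↔ FaceIn N (faceOf h) := by
  obtain ⟨⟨p, i⟩, s⟩ := h
  refine ⟨fun h => (Finset.mem_filter.1 h).2, fun h => Finset.mem_filter.2 ⟨?_, h⟩⟩
  simp only [Finset.mem_product, Finset.mem_univ, and_true, mem_edges]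
  fin_cases i <;> cases s <;> simp [FaceIn, faceOf, corner] at h ⊢ <;> omega

theorem halfAt_mem_halves {N : ℕ} {F : Face} (h : FaceIn N F) (i : Fin 3) :
    halfAt F i ∈ halves N := by
  rw [mem_halves, faceOf_halfAt]
  exact h

theorem edge_mem_of_half {N : ℕ} {h : Half} (hh : h ∈ halves N) : h.1 ∈ edges N :=
  (Finset.mem_product.1 (Finset.mem_filter.1 hh).1).1

theorem true_mem_halves {N : ℕ} {e : Edge} (he : e ∈ edges N) : (e, true) ∈ halves N := by
  rw [mem_edges] at he
  rw [mem_halves]
  simpa [FaceIn, faceOf] using he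

/-- An indicator modulo two. -/
def bit {α : Type*} (S : Finset α) (x : α) : ZMod 2 := if x ∈ S then 1 else 0

theorem bit_symmDiff {α : Type*} [DecidableEq α] (S T : Finset α) (x : α) :
    bit (symmDiff S T) x = bit S x + bit T x := by
  simp only [bit, Finset.mem_symmDiff]
  by_cases hS : x ∈ S <;> by_cases hT : x ∈ T <;> simp [hS, hT, CharTwo.add_self_eq_zero]

theorem bit_eq_one {α : Type*} {S : Finset α} {x : α} : bit S x = 1 ↔ x ∈ S := by
  simp [bit]

/-- A configuration with the defects `D`. -/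
def Valid (N : ℕ) (D : Finset Edge) (ω : Finset Half) : Prop :=
  ω ⊆ halves N ∧ (∀ F, bit ω (halfAt F 0) + bit ω (halfAt F 1) + bit ω (halfAt F 2) = 0) ∧
    ∀ e, bit ω (e, true) + bit ω (e, false) = bit D e

theorem Valid.symmDiff {N : ℕ} {D D' : Finset Edge} {ω P : Finset Half} (h : Valid N D ω)
    (h' : Valid N D' P) : Valid N (symmDiff D D') (symmDiff ω P) := by
  refine ⟨fun x hx => ?_, fun F => ?_, fun e => ?_⟩
  · rcases Finset.mem_symmDiff.1 hx with ⟨h1, -⟩ | ⟨h1, -⟩
    exacts [h.1 h1, h'.1 h1]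
  · simp only [bit_symmDiff]
    linear_combination h.2.1 F + h'.2.1 F
  · simp only [bit_symmDiff]
    linear_combination h.2.2 e + h'.2.2 e

theorem valid_empty (N : ℕ) : Valid N ∅ ∅ := by simp [Valid, bit]

/-- All configurations with given defects. -/
def confSet (N : ℕ) (D : Finset Edge) : Finset (Finset Half) :=
  (halves N).powerset.filter (Valid N D)

theorem mem_confSet {N : ℕ} {D : Finset Edge} {ω : Finset Half} :
    ω ∈ confSet N D ↔ Valid N D ω :=
  ⟨fun h => (Finset.mem_filter.1 h).2,
    fun h => Finset.mem_filter.2 ⟨Finset.mem_powerset.2 h.1, h⟩⟩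

theorem card_confSet_symmDiff {N : ℕ} {D D' : Finset Edge} {P : Finset Half} (h : Valid N D' P) :
    (confSet N (symmDiff D D')).card = (confSet N D).card := by
  refine card_nbij' (fun ω => symmDiff ω P) (fun ω => symmDiff ω P) (fun ω hω => ?_)
    (fun ω hω => ?_) (fun ω _ => symmDiff_symmDiff_cancel_right _ _)
    (fun ω _ => symmDiff_symmDiff_cancel_right _ _)
  · have := (mem_confSet.1 hω).symmDiff h
    rw [symmDiff_symmDiff_cancel_right] at this
    exact mem_confSet.2 this
  · exact mem_confSet.2 ((mem_confSet.1 hω).symmDiff h)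

/-! ### Colourings -/

/-- The interior sites. -/
def inner (N : ℕ) : Finset Site :=
  (par 1 N 1 N).filter fun w => w.1 + w.2 < (N : ℤ)

theorem mem_inner {N : ℕ} {w : Site} :
    w ∈ inner N ↔ 1 ≤ w.1 ∧ 1 ≤ w.2 ∧ w.1 + w.2 < (N : ℤ) := by
  simp only [inner, Finset.mem_filter, mem_par]
  omega

/-- A colouring from fixed boundary colours and the open interior sites. -/
def colOf (N : ℕ) (β : Site → ZMod 2) (η : Set Site) (w : Site) : ZMod 2 :=
  if w ∈ inner N then (if w ∈ η then 1 else 0) else β w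

/-- The halves between different colours. -/
def cfgOf (N : ℕ) (σ : Site → ZMod 2) : Finset Half :=
  (halves N).filter fun h => σ (lft h) + σ (rgt h) = 1

/-- The boundary edges between different colours. -/
def bdry (N : ℕ) (β : Site → ZMod 2) : Finset Edge :=
  (edges N).filter fun e => (e, false) ∉ halves N ∧ β (lft (e, true)) + β (rgt (e, true)) = 1

theorem ite_self_two : ∀ x : ZMod 2, (if x = 1 then (1 : ZMod 2) else 0) = x := by decide

theorem bit_cfgOf {N : ℕ} {σ : Site → ZMod 2} {h : Half} (hh : h ∈ halves N) :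
    bit (cfgOf N σ) h = σ (lft h) + σ (rgt h) := by
  rw [bit]
  simp only [cfgOf, Finset.mem_filter, hh, true_and]
  exact ite_self_two _

theorem bit_bdry {N : ℕ} {β : Site → ZMod 2} {e : Edge} (he : e ∈ edges N)
    (hf : (e, false) ∉ halves N) :
    bit (bdry N β) e = β (lft (e, true)) + β (rgt (e, true)) := by
  rw [bit]
  simp only [bdry, Finset.mem_filter, he, hf, not_false_iff, true_and]
  exact ite_self_two _

theorem ends_not_inner {N : ℕ} {e : Edge} (he : e ∈ edges N) (hf : (e, false) ∉ halves N) :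
    lft (e, true) ∉ inner N ∧ rgt (e, true) ∉ inner N := by
  obtain ⟨p, i⟩ := e
  rw [mem_halves] at hf
  rw [mem_edges] at he
  fin_cases i <;> simp [FaceIn, faceOf, lft, rgt, vert, corner, mem_inner] at hf he ⊢ <;> omega

theorem valid_cfgOf {N : ℕ} (β : Site → ZMod 2) (η : Set Site) :
    Valid N (bdry N β) (cfgOf N (colOf N β η)) := by
  set σ := colOf N β η with hσ
  refine ⟨filter_subset _ _, fun F => ?_, fun e => ?_⟩
  · by_cases hF : FaceIn N F
    · simp only [bit_cfgOf (halfAt_mem_halves hF _), lft, rgt, faceOf_halfAt]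
      simp only [halfAt, Fin.reduceAdd]
      linear_combination CharTwo.add_self_eq_zero (σ (vert F 0)) +
        CharTwo.add_self_eq_zero (σ (vert F 1)) + CharTwo.add_self_eq_zero (σ (vert F 2))
    · have : ∀ i, halfAt F i ∉ cfgOf N σ := fun i hi => hF (by
        have := mem_halves.1 (Finset.mem_filter.1 hi).1
        rwa [faceOf_halfAt] at this)
      simp [bit, this]
  · by_cases he : e ∈ edges N
    · by_cases hf : (e, false) ∈ halves N
      · have h1 : e ∉ bdry N β := fun h => (Finset.mem_filter.1 h).2.1 hf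
        rw [bit_cfgOf (true_mem_halves he), bit_cfgOf hf, lft_false, rgt_false, bit, if_neg h1]
        linear_combination CharTwo.add_self_eq_zero (σ (lft (e, true))) +
          CharTwo.add_self_eq_zero (σ (rgt (e, true)))
      · have h1 : (e, false) ∉ cfgOf N σ := fun h => hf (Finset.mem_filter.1 h).1
        obtain ⟨hl, hr⟩ := ends_not_inner he hf
        rw [bit_cfgOf (true_mem_halves he), bit_bdry he hf, bit, if_neg h1, add_zero]
        simp [hσ, colOf, hl, hr]
    · have h1 : ∀ s, (e, s) ∉ cfgOf N σ := fun s h =>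
        he (edge_mem_of_half (Finset.mem_filter.1 h).1)
      have h2 : e ∉ bdry N β := fun h => he (Finset.mem_filter.1 h).1
      simp [bit, h1, h2]

/-- The colouring read off a configuration along rows. -/
def recover (β : Site → ZMod 2) (ω : Finset Half) (w : Site) : ZMod 2 :=
  β (0, w.2) + ∑ i ∈ range w.1.toNat, bit ω ((((i : ℤ), w.2), 2), true)

theorem recover_step (β : Site → ZMod 2) (ω : Finset Half) {a b : ℤ} (ha : 0 ≤ a) :
    recover β ω (a + 1, b) = recover β ω (a, b) + bit ω (((a, b), 2), true) := by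
  obtain ⟨k, rfl⟩ := Int.eq_ofNat_of_zero_le ha
  have : ((k : ℤ) + 1).toNat = k + 1 := by omega
  simp only [recover, this, Int.toNat_natCast, sum_range_succ, add_assoc]

theorem recover_side_two {β : Site → ZMod 2} {ω : Finset Half} {a b : ℤ} (ha : 0 ≤ a) :
    recover β ω (a, b) + recover β ω (a + 1, b) = bit ω (((a, b), 2), true) := by
  rw [recover_step β ω ha]
  linear_combination CharTwo.add_self_eq_zero (recover β ω (a, b))

theorem Valid.halves_eq {N : ℕ} {β : Site → ZMod 2} {ω : Finset Half}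
    (h : Valid N (bdry N β) ω) {e : Edge} (hf : (e, false) ∈ halves N) :
    bit ω (e, false) = bit ω (e, true) := by
  have h1 := h.2.2 e
  have h2 : e ∉ bdry N β := fun h' => (Finset.mem_filter.1 h').2.1 hf
  rw [bit.eq_1 (bdry N β), if_neg h2, CharTwo.add_eq_zero] at h1
  exact h1.symm

theorem Valid.boundary_bit {N : ℕ} {β : Site → ZMod 2} {ω : Finset Half}
    (h : Valid N (bdry N β) ω) {e : Edge} (he : e ∈ edges N) (hf : (e, false) ∉ halves N) :
    bit ω (e, true) = β (lft (e, true)) + β (rgt (e, true)) := by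
  have h1 := h.2.2 e
  rw [bit_bdry he hf, bit.eq_1 ω (e, false), if_neg fun h' => hf (h.1 h'), add_zero] at h1
  exact h1

theorem recover_side_one {N : ℕ} {β : Site → ZMod 2} {ω : Finset Half}
    (h : Valid N (bdry N β) ω) : ∀ (a : ℕ) (b : ℤ), 0 ≤ b → (a : ℤ) + b < N →
      recover β ω ((a : ℤ), b + 1) + recover β ω ((a : ℤ), b) =
        bit ω ((((a : ℤ), b), 1), true)
  | 0, b, hb, hab => by
    rw [h.boundary_bit (mem_edges.2 ⟨le_rfl, hb, by simpa using hab⟩)
      (by simp [mem_halves, FaceIn, faceOf, corner])]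
    simp [recover, lft, rgt, vert, faceOf, corner]
  | a + 1, b, hb, hab => by
    push_cast at hab ⊢
    have ih := recover_side_one h a b hb (by omega)
    have up := h.2.1 (((a : ℤ), b), true)
    have down := h.2.1 (((a : ℤ), b), false)
    simp [halfAt, corner] at up down
    have hh : ∀ i, ((((a : ℤ), b) + corner i, i), false) ∈ halves N := fun i => by
      simpa [halfAt] using halfAt_mem_halves (F := (((a : ℤ), b), false))
        (by simp [FaceIn]; omega) i
    have h0 := hh 0
    have h1 := hh 1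
    have h2 := hh 2
    simp [corner] at h0 h1 h2
    rw [h.halves_eq h0, h.halves_eq h1, h.halves_eq h2] at down
    rw [recover_step β ω (by omega : (0 : ℤ) ≤ a), recover_step β ω (by omega : (0 : ℤ) ≤ a)]
    linear_combination ih + down - up + CharTwo.add_self_eq_zero (bit ω ((((a : ℤ), b), 1), true))
      + CharTwo.add_self_eq_zero (bit ω ((((a : ℤ), b), 2), true))
      - CharTwo.add_self_eq_zero (bit ω ((((a : ℤ) + 1, b), 1), true))

/-- The colouring read off agrees with the configuration. -/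
theorem recover_edge {N : ℕ} {β : Site → ZMod 2} {ω : Finset Half}
    (h : Valid N (bdry N β) ω) {e : Edge} (he : e ∈ edges N) :
    recover β ω (lft (e, true)) + recover β ω (rgt (e, true)) = bit ω (e, true) := by
  obtain ⟨⟨a, b⟩, i⟩ := e
  rw [mem_edges] at he
  simp only at he
  obtain ⟨k, rfl⟩ := Int.eq_ofNat_of_zero_le he.1
  have e1 := recover_side_one h k b he.2.1 (by omega)
  have e2 := recover_side_two (β := β) (ω := ω) (b := b) he.1
  have up := h.2.1 (((k : ℤ), b), true)
  simp [halfAt] at up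
  fin_cases i <;> simp [lft, rgt, vert, faceOf, corner]
  · linear_combination e1 + e2 - up + CharTwo.add_self_eq_zero (bit ω ((((k : ℤ), b), 1), true))
      + CharTwo.add_self_eq_zero (bit ω ((((k : ℤ), b), 2), true))
      - CharTwo.add_self_eq_zero (recover β ω ((k : ℤ), b))
  · exact e1
  · exact e2

theorem recover_boundary {N : ℕ} {β : Site → ZMod 2} {ω : Finset Half}
    (h : Valid N (bdry N β) ω) {w : Site} (h1 : 0 ≤ w.1) (h2 : 0 ≤ w.2)
    (h3 : w.1 + w.2 ≤ N) (hw : w ∉ inner N) : recover β ω w = β w := by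
  obtain ⟨a, b⟩ := w
  obtain ⟨k, rfl⟩ := Int.eq_ofNat_of_zero_le h1
  rw [mem_inner] at hw
  simp only at hw h2 h3
  induction k generalizing b with
  | zero => simp [recover]
  | succ k ih =>
    push_cast at hw h3 ⊢
    have hor : b = 0 ∨ (k : ℤ) + 1 + b = N := by omega
    rcases hor with rfl | hsum
    · have hbd : (((k : ℤ), (0 : ℤ)), (2 : Fin 3)) ∈ edges N ∧
          ((((k : ℤ), (0 : ℤ)), (2 : Fin 3)), false) ∉ halves N := by
        constructor
        · simp [mem_edges]
          omega
        · simp [mem_halves, FaceIn, faceOf, corner]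
      have e := recover_edge h hbd.1
      rw [h.boundary_bit hbd.1 hbd.2] at e
      simp [lft, rgt, vert, faceOf, corner] at e
      rw [ih 0 (by simp) le_rfl (by omega) (by omega)] at e
      linear_combination e
    · have hbd : (((k : ℤ), b), (0 : Fin 3)) ∈ edges N ∧
          ((((k : ℤ), b), (0 : Fin 3)), false) ∉ halves N := by
        constructor
        · simp [mem_edges]
          omega
        · simp [mem_halves, FaceIn, faceOf, corner]
          omega
      have e := recover_edge h hbd.1
      rw [h.boundary_bit hbd.1 hbd.2] at e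
      simp [lft, rgt, vert, faceOf, corner] at e
      rw [ih (b + 1) (by simp) (by omega) (by omega) (by omega)] at e
      linear_combination e

/-- The interior sites read off as open. -/
def openPart (N : ℕ) (β : Site → ZMod 2) (ω : Finset Half) : Finset Site :=
  (inner N).filter fun w => recover β ω w = 1

theorem recover_eq_colOf {N : ℕ} {β : Site → ZMod 2} {ω : Finset Half}
    (h : Valid N (bdry N β) ω) {w : Site} (h1 : 0 ≤ w.1) (h2 : 0 ≤ w.2)
    (h3 : w.1 + w.2 ≤ N) : colOf N β ↑(openPart N β ω) w = recover β ω w := by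
  rw [colOf]
  split_ifs with hw hq
  · exact (Finset.mem_filter.1 hq).2.symm
  · have hne : recover β ω w ≠ 1 := fun e => hq (Finset.mem_filter.2 ⟨hw, e⟩)
    revert hne
    generalize recover β ω w = x
    revert x
    decide
  · exact (recover_boundary h h1 h2 h3 hw).symm

theorem ends_mem {N : ℕ} {h : Half} (hh : h ∈ halves N) :
    (0 ≤ (lft h).1 ∧ 0 ≤ (lft h).2 ∧ (lft h).1 + (lft h).2 ≤ N) ∧
      (0 ≤ (rgt h).1 ∧ 0 ≤ (rgt h).2 ∧ (rgt h).1 + (rgt h).2 ≤ N) := by
  obtain ⟨⟨p, i⟩, s⟩ := h
  rw [mem_halves] at hh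
  fin_cases i <;> cases s <;> simp [FaceIn, faceOf, lft, rgt, vert, corner] at hh ⊢ <;> omega

/-- Every configuration with boundary defects comes from a colouring. -/
theorem cfgOf_openPart {N : ℕ} {β : Site → ZMod 2} {ω : Finset Half}
    (h : Valid N (bdry N β) ω) : cfgOf N (colOf N β ↑(openPart N β ω)) = ω := by
  have key : ∀ x ∈ halves N, bit (cfgOf N (colOf N β ↑(openPart N β ω))) x = bit ω x := by
    intro x hx
    rw [bit_cfgOf hx]
    obtain ⟨l, r⟩ := ends_mem hx
    rw [recover_eq_colOf h l.1 l.2.1 l.2.2, recover_eq_colOf h r.1 r.2.1 r.2.2]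
    obtain ⟨e, s⟩ := x
    cases s
    · rw [lft_false, rgt_false, add_comm, recover_edge h (edge_mem_of_half hx), h.halves_eq hx]
    · exact recover_edge h (edge_mem_of_half hx)
  ext x
  by_cases hx : x ∈ halves N
  · rw [← bit_eq_one, ← bit_eq_one (S := ω), key x hx]
  · exact iff_of_false (fun h' => hx (Finset.mem_filter.1 h').1) fun h' => hx (h.1 h')

theorem cfgOf_injective {N : ℕ} {β : Site → ZMod 2} {s t : Finset Site} (hs : s ⊆ inner N)
    (ht : t ⊆ inner N) (he : cfgOf N (colOf N β ↑s) = cfgOf N (colOf N β ↑t)) : s = t := by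
  have key : ∀ (a : ℕ) (b : ℤ), 1 ≤ b → (a : ℤ) + b ≤ N →
      colOf N β ↑s ((a : ℤ), b) = colOf N β ↑t ((a : ℤ), b) := by
    intro a
    induction a with
    | zero => intro b _ _; simp [colOf, mem_inner]
    | succ a ih =>
      intro b hb hab
      push_cast at hab ⊢
      have hh : ((((a : ℤ), b), (2 : Fin 3)), true) ∈ halves N :=
        true_mem_halves (by simp [mem_edges]; omega)
      have e1 := bit_cfgOf (σ := colOf N β ↑s) hh
      have e2 := bit_cfgOf (σ := colOf N β ↑t) hh
      rw [he] at e1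
      simp [lft, rgt, vert, faceOf, corner] at e1 e2
      linear_combination e2 - e1 - ih b hb (by omega)
  ext w
  by_cases hw : w ∈ inner N
  · obtain ⟨a, b⟩ := w
    have hw' := mem_inner.1 hw
    simp only at hw'
    obtain ⟨k, rfl⟩ := Int.eq_ofNat_of_zero_le (by omega : 0 ≤ a)
    have := key k b hw'.2.1 (by omega)
    rw [colOf, colOf, if_pos hw, if_pos hw] at this
    simp only [Finset.mem_coe] at this
    split_ifs at this with h1 h2 h2 <;> simp_all
  · exact iff_of_false (fun h => hw (hs h)) fun h => hw (ht h)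

/-- Configurations with boundary defects are colourings. -/
theorem card_confSet_bdry (N : ℕ) (β : Site → ZMod 2) (P : Finset Half → Prop) :
    ((confSet N (bdry N β)).filter P).card =
      ((inner N).powerset.filter fun s : Finset Site =>
        P (cfgOf N (colOf N β (↑s : Set Site)))).card := by
  symm
  refine card_nbij (fun s => cfgOf N (colOf N β (↑s : Set Site))) (fun s hs => ?_)
    (fun s hs t ht e => ?_) fun ω hω => ?_
  · exact Finset.mem_filter.2 ⟨mem_confSet.2 (valid_cfgOf β _), (Finset.mem_filter.1 hs).2⟩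
  · exact cfgOf_injective (Finset.mem_powerset.1 (Finset.mem_filter.1 hs).1)
      (Finset.mem_powerset.1 (Finset.mem_filter.1 ht).1) e
  · obtain ⟨h1, h2⟩ := Finset.mem_filter.1 hω
    have e := cfgOf_openPart (mem_confSet.1 h1)
    exact ⟨openPart N β ω, Finset.mem_coe.2 (Finset.mem_filter.2
      ⟨Finset.mem_powerset.2 (filter_subset _ _), by rwa [e]⟩), e⟩

/-! ### Following a strand -/

/-- The other half in the same face. -/
def mate (ω : Finset Half) (h : Half) : Half :=
  if h ∈ ω then
    if halfAt (faceOf h) (h.1.2 + 1) ∈ ω then halfAt (faceOf h) (h.1.2 + 1)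
    else if halfAt (faceOf h) (h.1.2 + 2) ∈ ω then halfAt (faceOf h) (h.1.2 + 2)
    else h
  else h

/-- The other half of the same edge. -/
def across (ω : Finset Half) (h : Half) : Half :=
  if h ∈ ω ∧ (h.1, !h.2) ∈ ω then (h.1, !h.2) else h

theorem across_across (ω : Finset Half) (h : Half) : across ω (across ω h) = h := by
  unfold across
  split_ifs with h1 h2 <;> simp_all

theorem across_mem {ω : Finset Half} {h : Half} (hh : h ∈ ω) : across ω h ∈ ω := by
  unfold across
  split_ifs with h1
  exacts [h1.2, hh]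

theorem across_fst (ω : Finset Half) (h : Half) : (across ω h).1 = h.1 := by
  unfold across
  split_ifs <;> rfl

theorem faceOf_mate (ω : Finset Half) (h : Half) : faceOf (mate ω h) = faceOf h := by
  unfold mate
  split_ifs <;> simp [faceOf_halfAt]

theorem Valid.mate_cases {N : ℕ} {D : Finset Edge} {ω : Finset Half} (hv : Valid N D ω)
    {h : Half} (hh : h ∈ ω) :
    (halfAt (faceOf h) (h.1.2 + 1) ∈ ω ∧ halfAt (faceOf h) (h.1.2 + 2) ∉ ω ∧
      mate ω h = halfAt (faceOf h) (h.1.2 + 1)) ∨
    (halfAt (faceOf h) (h.1.2 + 1) ∉ ω ∧ halfAt (faceOf h) (h.1.2 + 2) ∈ ω ∧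
      mate ω h = halfAt (faceOf h) (h.1.2 + 2)) := by
  have e := hv.2.1 (faceOf h)
  have hs : bit ω h + bit ω (halfAt (faceOf h) (h.1.2 + 1)) +
      bit ω (halfAt (faceOf h) (h.1.2 + 2)) = 0 := by
    have perm : ∀ (g : Fin 3 → ZMod 2) (i : Fin 3),
        g i + g (i + 1) + g (i + 2) = g 0 + g 1 + g 2 := by decide
    nth_rewrite 1 [← halfAt_faceOf h]
    exact (perm (fun i => bit ω (halfAt (faceOf h) i)) h.1.2).trans e
  simp only [bit, hh, if_true] at hs
  by_cases h1 : halfAt (faceOf h) (h.1.2 + 1) ∈ ω <;>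
    by_cases h2 : halfAt (faceOf h) (h.1.2 + 2) ∈ ω <;> simp [h1, h2] at hs
  · exact absurd hs (by decide)
  · exact Or.inl ⟨h1, h2, by simp [mate, hh, h1]⟩
  · exact Or.inr ⟨h1, h2, by simp [mate, hh, h1, h2]⟩

theorem Valid.mate_mate {N : ℕ} {D : Finset Edge} {ω : Finset Half} (hv : Valid N D ω) (h : Half) :
    mate ω (mate ω h) = h := by
  by_cases hh : h ∈ ω
  swap
  · simp [mate, hh]
  have key : ∀ i : Fin 3, i + 1 + 1 = i + 2 ∧ i + 1 + 2 = i ∧ i + 2 + 1 = i := by decide
  obtain ⟨k1, k2, k3⟩ := key h.1.2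
  rcases hv.mate_cases hh with ⟨h1, h2, e⟩ | ⟨-, h2, e⟩ <;> rw [e]
  · have hi : (halfAt (faceOf h) (h.1.2 + 1)).1.2 = h.1.2 + 1 := rfl
    rw [mate, if_pos h1, hi, faceOf_halfAt, k1, k2, if_neg h2, halfAt_faceOf, if_pos hh]
  · have hi : (halfAt (faceOf h) (h.1.2 + 2)).1.2 = h.1.2 + 2 := rfl
    rw [mate, if_pos h2, hi, faceOf_halfAt, k3, halfAt_faceOf, if_pos hh]

theorem Valid.carries {N : ℕ} {D : Finset Edge} {ω : Finset Half} (hv : Valid N D ω) :
    Carries (mate ω) (across ω) ω := by
  refine ⟨fun h hh => ?_, fun h hh => across_mem hh, fun h hh => ?_⟩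
  · rcases hv.mate_cases hh with ⟨h1, -, e⟩ | ⟨-, h1, e⟩ <;> rwa [e]
  · have key : ∀ i : Fin 3, i + 1 ≠ i ∧ i + 2 ≠ i := by decide
    rcases hv.mate_cases hh with ⟨-, -, e⟩ | ⟨-, -, e⟩ <;> rw [e] <;> intro e'
    · exact (key h.1.2).1 (congrArg (fun x : Half => x.1.2) e')
    · exact (key h.1.2).2 (congrArg (fun x : Half => x.1.2) e')

theorem Valid.across_eq_self {N : ℕ} {D : Finset Edge} {ω : Finset Half} (hv : Valid N D ω)
    {h : Half} (hh : h ∈ ω) : across ω h = h ↔ h.1 ∈ D := by
  obtain ⟨e, s⟩ := h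
  have e1 := hv.2.2 e
  cases s
  · by_cases ho : (e, true) ∈ ω <;> by_cases hD : e ∈ D <;>
      simp_all [across, bit, CharTwo.add_self_eq_zero]
  · by_cases ho : (e, false) ∈ ω <;> by_cases hD : e ∈ D <;>
      simp_all [across, bit, CharTwo.add_self_eq_zero]

theorem Valid.exists_half {N : ℕ} {D : Finset Edge} {ω : Finset Half} (hv : Valid N D ω)
    {e : Edge} (he : e ∈ D) : ∃! s, (e, s) ∈ ω := by
  have h := hv.2.2 e
  by_cases ht : (e, true) ∈ ω <;> by_cases hf : (e, false) ∈ ω <;>
    simp [bit, ht, hf, he, CharTwo.add_self_eq_zero] at h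
  · exact ⟨true, ht, fun s hs => by cases s <;> simp_all⟩
  · exact ⟨false, hf, fun s hs => by cases s <;> simp_all⟩

/-- The half at a defect. -/
def defectHalf (ω : Finset Half) (e : Edge) : Half := (e, decide ((e, true) ∈ ω))

theorem Valid.defectHalf_mem {N : ℕ} {D : Finset Edge} {ω : Finset Half} (hv : Valid N D ω)
    {e : Edge} (he : e ∈ D) : defectHalf ω e ∈ ω := by
  obtain ⟨s, hs, -⟩ := hv.exists_half he
  by_cases ht : (e, true) ∈ ω
  · simp [defectHalf, ht]
  · cases s <;> simp_all [defectHalf]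

/-- The strand from one defect leads to the other. -/
def Joins (ω : Finset Half) (z x : Edge) : Prop :=
  ∃ t, EndsAt (mate ω) (across ω) (defectHalf ω z) t ∧ t.1 = x

theorem Valid.exists_joins {N : ℕ} {D : Finset Edge} {ω : Finset Half} (hv : Valid N D ω)
    {z : Edge} (hz : z ∈ D) : ∃ x ∈ D, x ≠ z ∧ Joins ω z x := by
  have hm := hv.defectHalf_mem hz
  obtain ⟨t, htm, ht, hne⟩ :=
    hv.carries.exists_endsAt hv.mate_mate (across_across ω) hm ((hv.across_eq_self hm).2 hz)
  have htD : t.1 ∈ D := (hv.across_eq_self htm).1 ht.fixed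
  refine ⟨t.1, htD, fun e => hne ?_, t, ht, rfl⟩
  obtain ⟨s, -, hu⟩ := hv.exists_half hz
  have h1 := hu t.2 (e ▸ htm)
  have h2 := hu (decide ((z, true) ∈ ω)) hm
  exact Prod.ext e (h1.trans h2.symm)

theorem Joins.unique {ω : Finset Half} {z x y : Edge} (h₁ : Joins ω z x) (h₂ : Joins ω z y) :
    x = y := by
  obtain ⟨t, ht, rfl⟩ := h₁
  obtain ⟨u, hu, rfl⟩ := h₂
  rw [ht.unique hu]

theorem Valid.strand_mem {N : ℕ} {D : Finset Edge} {ω : Finset Half} (hv : Valid N D ω)
    {z : Edge} (hz : z ∈ D) (k : ℕ) : (across ω ∘ mate ω)^[k] (defectHalf ω z) ∈ ω :=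
  hv.carries.strand_mem (hv.defectHalf_mem hz) k

theorem Valid.joins_symm {N : ℕ} {D : Finset Edge} {ω : Finset Half} (hv : Valid N D ω)
    {z x : Edge} (hz : z ∈ D) (h : Joins ω z x) : x ∈ D ∧ Joins ω x z := by
  obtain ⟨t, ht, rfl⟩ := h
  have hm := hv.defectHalf_mem hz
  obtain ⟨n, hn, hf, e⟩ := ht
  have htm : t ∈ ω := e ▸ hv.carries.mate_mem _ (hv.strand_mem hz n)
  have htD : t.1 ∈ D := (hv.across_eq_self htm).1 (e ▸ hf)
  have e' : defectHalf ω t.1 = t := by
    obtain ⟨s, -, hu⟩ := hv.exists_half htD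
    exact Prod.ext rfl ((hu _ (hv.defectHalf_mem htD)).trans (hu t.2 htm).symm)
  have hs := EndsAt.symm hv.mate_mate (across_across ω) ((hv.across_eq_self hm).2 hz)
    ⟨n, hn, hf, e⟩
  exact ⟨htD, defectHalf ω z, by rwa [e'], rfl⟩

end FA.Cardy
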