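import Fermat.Agent.Cardy.Limit
import Mathlib.Analysis.Complex.AbsMax
import Mathlib.Analysis.Complex.CauchyIntegral
import Mathlib.Analysis.Calculus.Deriv.Pow
import Mathlib.Analysis.SpecialFunctions.ExpDeriv

/-!
# The formula of Cardy

Vanishing contour integrals make the combined limit holomorphic. Its boundary values force it to be
affine, so the limits are barycentric coordinates, and on a side they are crossing chances.
-/

set_option autoImplicit false

noncomputable section

open Filter Complex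
open scoped Classical Topology

namespace FA.Cardy

/-- The direction of the second coordinate. -/
def zeta : ℂ := ⟨1 / 2, Real.sqrt 3 / 2⟩

theorem sqrt_three_sq : Real.sqrt 3 * Real.sqrt 3 = 3 := Real.mul_self_sqrt (by norm_num)

theorem sqrt_three_pos : 0 < Real.sqrt 3 := Real.sqrt_pos.2 (by norm_num)

theorem zeta_eq : zeta = -tau ^ 2 := by
  have h := sqrt_three_sq
  apply Complex.ext <;> simp [zeta, tau, pow_two] <;> linarith

theorem tau_cube : tau ^ 3 = 1 := by linear_combination (tau - 1) * tau_sq_add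

theorem re_tau_sub_sq : (tau - tau ^ 2).re = 0 := by
  have h := sqrt_three_sq
  simp [tau, pow_two]
  linarith

theorem norm_zeta : ‖zeta‖ = 1 := by rw [zeta_eq, norm_neg, norm_pow, norm_tau, one_pow]

/-- Oblique coordinates of a complex number. -/
def coord (w : ℂ) : ℝ × ℝ := (w.re - w.im / Real.sqrt 3, 2 * w.im / Real.sqrt 3)

/-- The complex number with given oblique coordinates. -/
def place (p : ℝ × ℝ) : ℂ := (p.1 : ℂ) + zeta * (p.2 : ℂ)

theorem place_coord (w : ℂ) : place (coord w) = w := by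
  have h := sqrt_three_pos
  apply Complex.ext <;> simp [place, coord, zeta]
  field_simp
  ring

theorem coord_place (p : ℝ × ℝ) : coord (place p) = p := by
  have h := sqrt_three_pos
  refine Prod.ext ?_ ?_ <;> simp [place, coord, zeta] <;> field_simp; ring

theorem continuous_coord : Continuous coord := by
  unfold coord
  fun_prop

theorem continuous_place : Continuous place := by
  unfold place
  fun_prop

theorem coord_sub_le (w w' : ℂ) :
    |(coord w').1 - (coord w).1| ≤ 2 * ‖w' - w‖ ∧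
      |(coord w').2 - (coord w).2| ≤ 2 * ‖w' - w‖ := by
  have h1 := Complex.abs_re_le_norm (w' - w)
  have h2 := Complex.abs_im_le_norm (w' - w)
  rw [Complex.sub_re] at h1
  rw [Complex.sub_im] at h2
  have hs : 1 ≤ Real.sqrt 3 := Real.one_le_sqrt.2 (by norm_num)
  have h3 : |(w'.im - w.im) / Real.sqrt 3| ≤ ‖w' - w‖ := by
    rw [abs_div, abs_of_pos sqrt_three_pos, div_le_iff₀ sqrt_three_pos]
    nlinarith [norm_nonneg (w' - w)]
  have e1 : (coord w').1 - (coord w).1 = (w'.re - w.re) - (w'.im - w.im) / Real.sqrt 3 := by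
    simp only [coord]
    ring
  have e2 : (coord w').2 - (coord w).2 = 2 * ((w'.im - w.im) / Real.sqrt 3) := by
    simp only [coord]
    ring
  rw [e1, e2]
  rw [abs_le] at h1 h3
  constructor <;> rw [abs_le] <;> constructor <;> linarith

/-- The open triangle. -/
def openTriangle : Set ℂ :=
  {w | 0 < (coord w).1 ∧ 0 < (coord w).2 ∧ (coord w).1 + (coord w).2 < 1}

theorem isOpen_openTriangle : IsOpen openTriangle := by
  have h1 : Continuous fun w => (coord w).1 := continuous_fst.comp continuous_coord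
  have h2 : Continuous fun w => (coord w).2 := continuous_snd.comp continuous_coord
  exact (isOpen_lt continuous_const h1).inter
    ((isOpen_lt continuous_const h2).inter (isOpen_lt (h1.add h2) continuous_const))

/-- The primitive along the coordinate directions. -/
def primitive (U : Ultrafilter ℕ) (w : ℂ) : ℂ :=
  (∫ s in (0 : ℝ)..(coord w).1, limC U (s, 0)) +
    zeta * ∫ s in (0 : ℝ)..(coord w).2, limC U ((coord w).1, s)

variable {U : Ultrafilter ℕ}

theorem hasDerivAt_primitive (hU : (U : Filter ℕ) ≤ atTop) {w : ℂ} (hw : w ∈ openTriangle) :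
    HasDerivAt (primitive U) (limC U (coord w)) w := by
  obtain ⟨hx, hy, hxy⟩ := hw
  have hc := continuous_limC hU
  have i1 : ∀ (y a b : ℝ), IntervalIntegrable (fun s => limC U (s, y))
      MeasureTheory.volume a b :=
    fun y a b => (hc.comp (by fun_prop : Continuous fun s : ℝ => (s, y))).intervalIntegrable a b
  have i2 : ∀ (x a b : ℝ), IntervalIntegrable (fun s => limC U (x, s))
      MeasureTheory.volume a b :=
    fun x a b => (hc.comp (by fun_prop : Continuous fun s : ℝ => (x, s))).intervalIntegrable a b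
  set x := (coord w).1 with hxdef
  set y := (coord w).2 with hydef
  rw [hasDerivAt_iff_isLittleO, Asymptotics.isLittleO_iff]
  intro c hc0
  obtain ⟨δ, hδ, hcl⟩ := Metric.continuous_iff.1 hc (coord w) (c / 4) (by positivity)
  have hgap : 0 < min (min x y) (1 - x - y) := lt_min (lt_min hx hy) (by linarith)
  obtain ⟨g, hg⟩ : ∃ g, g = min (min x y) (1 - x - y) := ⟨_, rfl⟩
  rw [← hg] at hgap
  have g1 : g ≤ x := hg ▸ (min_le_left _ _).trans (min_le_left _ _)
  have g2 : g ≤ y := hg ▸ (min_le_left _ _).trans (min_le_right _ _)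
  have g3 : g ≤ 1 - x - y := hg ▸ min_le_right _ _
  filter_upwards [Metric.ball_mem_nhds w (by positivity : 0 < min δ g / 5)] with w' hw'
  rw [Metric.mem_ball, dist_eq_norm] at hw'
  obtain ⟨b1, b2⟩ := coord_sub_le w w'
  rw [← hxdef] at b1
  rw [← hydef] at b2
  set X := (coord w').1 with hX
  set Y := (coord w').2 with hY
  have hm1 := min_le_left δ g
  have hm2 := min_le_right δ g
  have c1 := abs_le.1 b1
  have c2 := abs_le.1 b2
  have k1 := limC_contour hU (X := X) (Y := y) (by linarith) hy.le (by linarith)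
  have k2 := limC_contour hU (X := x) (Y := y) hx.le hy.le (by linarith)
  have e1 : (∫ s in x..X, limC U (s, y)) =
      (∫ s in (0 : ℝ)..X, limC U (s, y)) - ∫ s in (0 : ℝ)..x, limC U (s, y) :=
    (intervalIntegral.integral_interval_sub_left (i1 y 0 X) (i1 y 0 x)).symm
  have e2 : (∫ s in y..Y, limC U (X, s)) =
      (∫ s in (0 : ℝ)..Y, limC U (X, s)) - ∫ s in (0 : ℝ)..y, limC U (X, s) :=
    (intervalIntegral.integral_interval_sub_left (i2 X 0 Y) (i2 X 0 y)).symm
  have e : primitive U w' - primitive U w =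
      (∫ s in x..X, limC U (s, y)) + zeta * ∫ s in y..Y, limC U (X, s) := by
    simp only [primitive, ← hX, ← hY, ← hxdef, ← hydef, e1, e2, zeta_eq]
    linear_combination k1 - k2
  have hdw : w' - w = ((X - x : ℝ) : ℂ) + zeta * ((Y - y : ℝ) : ℂ) := by
    conv_lhs => rw [← place_coord w', ← place_coord w]
    simp only [place, ← hX, ← hY, ← hxdef, ← hydef]
    push_cast
    ring
  have near : ∀ p : ℝ × ℝ, |p.1 - x| ≤ 2 * ‖w' - w‖ → |p.2 - y| ≤ 2 * ‖w' - w‖ →
      ‖limC U p - limC U (coord w)‖ ≤ c / 4 := fun p hp1 hp2 => by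
    rw [← dist_eq_norm]
    refine (hcl p ?_).le
    rw [Prod.dist_eq, max_lt_iff, Real.dist_eq, Real.dist_eq, ← hxdef, ← hydef]
    exact ⟨by linarith, by linarith⟩
  have q1 : ‖(∫ s in x..X, limC U (s, y)) - ((X - x : ℝ) : ℂ) * limC U (coord w)‖ ≤
      c / 4 * |X - x| := by
    rw [show ((X - x : ℝ) : ℂ) * limC U (coord w) = ∫ _ in x..X, limC U (coord w) by
      rw [intervalIntegral.integral_const, Complex.real_smul],
      ← intervalIntegral.integral_sub (i1 y x X) intervalIntegrable_const]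
    refine intervalIntegral.norm_integral_le_of_norm_le_const fun s hs => near _ ?_ ?_
    · have := Set.abs_sub_left_of_mem_uIcc (Set.uIoc_subset_uIcc hs)
      linarith
    · simp
  have q2 : ‖(∫ s in y..Y, limC U (X, s)) - ((Y - y : ℝ) : ℂ) * limC U (coord w)‖ ≤
      c / 4 * |Y - y| := by
    rw [show ((Y - y : ℝ) : ℂ) * limC U (coord w) = ∫ _ in y..Y, limC U (coord w) by
      rw [intervalIntegral.integral_const, Complex.real_smul],
      ← intervalIntegral.integral_sub (i2 X y Y) intervalIntegrable_const]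
    refine intervalIntegral.norm_integral_le_of_norm_le_const fun s hs => near _ b1 ?_
    have := Set.abs_sub_left_of_mem_uIcc (Set.uIoc_subset_uIcc hs)
    linarith
  rw [smul_eq_mul, e, hdw]
  calc _ = ‖((∫ s in x..X, limC U (s, y)) - ((X - x : ℝ) : ℂ) * limC U (coord w)) +
        zeta * ((∫ s in y..Y, limC U (X, s)) - ((Y - y : ℝ) : ℂ) * limC U (coord w))‖ := by
        congr 1
        ring
    _ ≤ c / 4 * |X - x| + c / 4 * |Y - y| := by
        refine (norm_add_le _ _).trans ?_
        rw [norm_mul, norm_zeta, one_mul]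
        linarith
    _ ≤ c * ‖((X - x : ℝ) : ℂ) + zeta * ((Y - y : ℝ) : ℂ)‖ := by
        rw [← hdw]
        nlinarith [norm_nonneg (w' - w)]

theorem differentiableOn_limC (hU : (U : Filter ℕ) ≤ atTop) :
    DifferentiableOn ℂ (fun w => limC U (coord w)) openTriangle := by
  have h : DifferentiableOn ℂ (primitive U) openTriangle := fun w hw =>
    (hasDerivAt_primitive hU hw).differentiableAt.differentiableWithinAt
  exact (h.deriv isOpen_openTriangle).congr fun w hw => ((hasDerivAt_primitive hU hw).deriv).symm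

/-- The distance from the affine function. -/
def excess (U : Ultrafilter ℕ) (w : ℂ) : ℂ := limC U (coord w) - (1 + (tau - 1) * w)

theorem continuous_excess (hU : (U : Filter ℕ) ≤ atTop) : Continuous (excess U) :=
  ((continuous_limC hU).comp continuous_coord).sub (by fun_prop)

theorem excess_boundary (hU : (U : Filter ℕ) ≤ atTop) {w : ℂ} (hw : coord w ∈ triangle)
    (hb : (coord w).1 = 0 ∨ (coord w).2 = 0 ∨ (coord w).1 + (coord w).2 = 1) :
    (excess U w ^ 3).re = 0 := by
  have hz := zeta_eq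
  have hs := lim3_sum hU hw
  have key : ∀ (k : ℂ) (r : ℝ), k.re = 0 → ((r : ℂ) ^ 3 * k).re = 0 := fun k r hk => by
    rw [← Complex.ofReal_pow, Complex.re_ofReal_mul, hk, mul_zero]
  have hr : (3 * (tau - tau ^ 2)).re = 0 := by
    have := re_tau_sub_sq
    simp only [Complex.mul_re, Complex.re_ofNat, Complex.im_ofNat, this]
    ring
  have hr' : (3 * (tau ^ 2 - tau)).re = 0 := by
    rw [show 3 * (tau ^ 2 - tau) = -(3 * (tau - tau ^ 2)) by ring, Complex.neg_re, hr, neg_zero]
  obtain ⟨x, y, hxy⟩ : ∃ x y, coord w = (x, y) := ⟨_, _, rfl⟩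
  have hw' : w = (x : ℂ) + zeta * (y : ℂ) := by
    rw [← place_coord w, hxy]
    rfl
  rw [hxy] at hb hw hs
  obtain ⟨h0, h1, h2⟩ := hw
  simp only at hb h0 h1 h2
  unfold excess limC
  rw [hxy, hw', hz]
  have hs' : (lim3 U 0 (x, y) : ℂ) + (lim3 U 1 (x, y) : ℂ) + (lim3 U 2 (x, y) : ℂ) = 1 := by
    exact_mod_cast hs
  rcases hb with rfl | rfl | hb
  · have g : lim3 U 1 (0, y) = 0 := (lim3_boundary hU h1 (by linarith)).2.1
    rw [g] at hs' ⊢
    rw [show ((lim3 U 0 (0, y) : ℂ) + tau * ((0 : ℝ) : ℂ) + tau ^ 2 * (lim3 U 2 (0, y) : ℂ) -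
        (1 + (tau - 1) * (((0 : ℝ) : ℂ) + -tau ^ 2 * (y : ℂ)))) ^ 3 =
        ((lim3 U 2 (0, y) - y : ℝ) : ℂ) ^ 3 * (3 * (tau ^ 2 - tau)) by
      have e : (lim3 U 0 (0, y) : ℂ) + tau * ((0 : ℝ) : ℂ) + tau ^ 2 * (lim3 U 2 (0, y) : ℂ) -
          (1 + (tau - 1) * (((0 : ℝ) : ℂ) + -tau ^ 2 * (y : ℂ))) =
          ((lim3 U 2 (0, y) - y : ℝ) : ℂ) * (tau ^ 2 - 1) := by
        push_cast at hs' ⊢
        linear_combination hs' + (y : ℂ) * tau_cube
      rw [e, mul_pow]
      linear_combination ((lim3 U 2 (0, y) - y : ℝ) : ℂ) ^ 3 * (tau ^ 3 + 1 - 3 * tau) * tau_cube]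
    exact key _ _ hr'
  · have g : lim3 U 2 (x, 0) = 0 := by
      have := (lim3_boundary hU (by linarith : (0 : ℝ) ≤ 1 - x) (by linarith)).2.2
      rwa [sub_sub_cancel] at this
    rw [g] at hs' ⊢
    rw [show ((lim3 U 0 (x, 0) : ℂ) + tau * (lim3 U 1 (x, 0) : ℂ) + tau ^ 2 * ((0 : ℝ) : ℂ) -
        (1 + (tau - 1) * ((x : ℂ) + -tau ^ 2 * ((0 : ℝ) : ℂ)))) ^ 3 =
        ((lim3 U 1 (x, 0) - x : ℝ) : ℂ) ^ 3 * (3 * (tau - tau ^ 2)) by
      have e : (lim3 U 0 (x, 0) : ℂ) + tau * (lim3 U 1 (x, 0) : ℂ) + tau ^ 2 * ((0 : ℝ) : ℂ) -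
          (1 + (tau - 1) * ((x : ℂ) + -tau ^ 2 * ((0 : ℝ) : ℂ))) =
          ((lim3 U 1 (x, 0) - x : ℝ) : ℂ) * (tau - 1) := by
        push_cast at hs' ⊢
        linear_combination hs'
      rw [e, mul_pow]
      linear_combination ((lim3 U 1 (x, 0) - x : ℝ) : ℂ) ^ 3 * tau_cube]
    exact key _ _ hr
  · obtain rfl : y = 1 - x := by linarith
    have g : lim3 U 0 (x, 1 - x) = 0 := (lim3_boundary hU h0 (by linarith)).1
    rw [g] at hs' ⊢
    rw [show (((0 : ℝ) : ℂ) + tau * (lim3 U 1 (x, 1 - x) : ℂ) +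
        tau ^ 2 * (lim3 U 2 (x, 1 - x) : ℂ) -
        (1 + (tau - 1) * ((x : ℂ) + -tau ^ 2 * ((1 - x : ℝ) : ℂ)))) ^ 3 =
        ((lim3 U 1 (x, 1 - x) - x : ℝ) : ℂ) ^ 3 * (3 * (tau ^ 2 - tau)) by
      have e : ((0 : ℝ) : ℂ) + tau * (lim3 U 1 (x, 1 - x) : ℂ) +
          tau ^ 2 * (lim3 U 2 (x, 1 - x) : ℂ) -
          (1 + (tau - 1) * ((x : ℂ) + -tau ^ 2 * ((1 - x : ℝ) : ℂ))) =
          ((lim3 U 1 (x, 1 - x) - x : ℝ) : ℂ) * (tau - tau ^ 2) := by
        push_cast at hs' ⊢
        linear_combination tau ^ 2 * hs' + ((1 : ℂ) - x) * tau_cube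
      rw [e, mul_pow]
      linear_combination ((lim3 U 1 (x, 1 - x) - x : ℝ) : ℂ) ^ 3 *
        (-tau ^ 3 + 3 * tau ^ 2 - 3 * tau) * tau_cube]
    exact key _ _ hr'

/-- A continuous function vanishing on the open triangle vanishes on the closed one. -/
theorem eq_zero_of_interior {f : ℂ → ℂ} (hf : Continuous f) (h : ∀ w ∈ openTriangle, f w = 0)
    {p : ℝ × ℝ} (hp : p ∈ triangle) : f (place p) = 0 := by
  obtain ⟨h0, h1, h2⟩ := hp
  set γ : ℝ → ℝ × ℝ := fun e => ((1 - e) * p.1 + e / 3, (1 - e) * p.2 + e / 3) with hγ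
  have hin : ∀ e ∈ Set.Ioc (0 : ℝ) 1, place (γ e) ∈ openTriangle := by
    intro e he
    have h3 : 0 ≤ 1 - e := by linarith [he.2]
    refine ⟨?_, ?_, ?_⟩ <;> simp only [coord_place, hγ] <;>
      nlinarith [he.1, mul_nonneg h3 h0, mul_nonneg h3 h1]
  have ht : Tendsto (fun e => f (place (γ e))) (𝓝[>] (0 : ℝ)) (𝓝 (f (place p))) := by
    have hcont : Continuous fun e => f (place (γ e)) := by
      refine hf.comp (continuous_place.comp ?_)
      fun_prop
    have := hcont.tendsto 0
    simp only [hγ, sub_zero, one_mul, zero_div, add_zero] at this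
    exact this.mono_left nhdsWithin_le_nhds
  refine tendsto_nhds_unique ht (tendsto_const_nhds.congr' ?_)
  filter_upwards [Ioc_mem_nhdsGT zero_lt_one] with e he
  exact (h _ (hin e he)).symm

/-- The combined limit is affine. -/
theorem excess_eq_zero (hU : (U : Filter ℕ) ≤ atTop) {p : ℝ × ℝ} (hp : p ∈ triangle) :
    excess U (place p) = 0 := by
  set F : ℂ → ℂ := fun w => excess U w ^ 3 with hF
  have hFc : Continuous F := (continuous_excess hU).pow 3
  have hd : DifferentiableOn ℂ F openTriangle :=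
    ((differentiableOn_limC hU).sub (by fun_prop)).pow 3
  have hbdd : Bornology.IsBounded openTriangle := by
    refine (Metric.isBounded_closedBall (x := (0 : ℂ)) (r := 3)).subset fun w ⟨a, b, c⟩ => ?_
    rw [Metric.mem_closedBall, dist_zero_right, ← place_coord w]
    refine (norm_add_le _ _).trans ?_
    rw [norm_mul, norm_zeta, one_mul, Complex.norm_real, Complex.norm_real, Real.norm_eq_abs,
      Real.norm_eq_abs, abs_of_pos a, abs_of_pos b]
    linarith
  have hclos : closure openTriangle ⊆ coord ⁻¹' triangle := by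
    refine closure_minimal (fun w ⟨a, b, c⟩ => ⟨a.le, b.le, c.le⟩)
      (IsClosed.preimage continuous_coord ?_)
    exact (isClosed_le continuous_const continuous_fst).inter
      ((isClosed_le continuous_const continuous_snd).inter
        (isClosed_le (continuous_fst.add continuous_snd) continuous_const))
  have hbound : ∀ s : ℂ, s.im = 0 → ∀ w ∈ openTriangle, (s * F w).re ≤ 0 := by
    intro s hs w hw
    have h := Complex.norm_le_of_forall_mem_frontier_norm_le (f := fun w => Complex.exp (s * F w))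
      (C := 1) hbdd ⟨((differentiable_exp.differentiableOn.comp (hd.const_mul s)
        (Set.mapsTo_univ _ _))), ((Complex.continuous_exp.comp
          (continuous_const.mul hFc))).continuousOn⟩ (fun z hz => ?_) (subset_closure hw)
    · rw [Complex.norm_exp] at h
      exact Real.exp_le_one_iff.1 h
    · rw [frontier, isOpen_openTriangle.interior_eq] at hz
      obtain ⟨hz1, hz2⟩ := hz
      obtain ⟨a, b, c⟩ := hclos hz1
      have hb : (coord z).1 = 0 ∨ (coord z).2 = 0 ∨ (coord z).1 + (coord z).2 = 1 := by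
        by_contra hcon
        simp only [not_or] at hcon
        exact hz2 ⟨lt_of_le_of_ne a (Ne.symm hcon.1), lt_of_le_of_ne b (Ne.symm hcon.2.1),
          lt_of_le_of_ne c hcon.2.2⟩
      rw [Complex.norm_exp, Real.exp_le_one_iff, Complex.mul_re, hs,
        show (F z).re = 0 from excess_boundary hU ⟨a, b, c⟩ hb]
      simp
  have hre : ∀ w ∈ openTriangle, (F w).re = 0 := fun w hw => by
    have a := hbound 1 (by simp) w hw
    have b := hbound (-1) (by simp) w hw
    simp at a b
    linarith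
  have hderiv : Set.EqOn (deriv F) 0 openTriangle := by
    intro w hw
    have hF' : HasDerivAt F (deriv F w) w :=
      (hd.differentiableAt (isOpen_openTriangle.mem_nhds hw)).hasDerivAt
    have line : ∀ v : ℂ, (v * deriv F w).re = 0 := by
      intro v
      have h1 : HasDerivAt (fun z : ℂ => w + z * v) v ((0 : ℝ) : ℂ) := by
        simpa using ((hasDerivAt_id ((0 : ℝ) : ℂ)).mul_const v).const_add w
      have h1' : HasDerivAt (fun t : ℝ => F (w + (t : ℂ) * v)) (v * deriv F w) 0 := by
        have := hF'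
        rw [show w = w + ((0 : ℝ) : ℂ) * v by simp] at this
        have h2 := (this.comp ((0 : ℝ) : ℂ) h1).comp_ofReal
        simpa [mul_comm] using h2
      have h3 := Complex.reCLM.hasFDerivAt.comp_hasDerivAt (0 : ℝ) h1'
      have hnear : (fun t : ℝ => (F (w + (t : ℂ) * v)).re) =ᶠ[𝓝 0] fun _ => (0 : ℝ) := by
        have hcont : Continuous fun t : ℝ => w + (t : ℂ) * v := by fun_prop
        filter_upwards [hcont.continuousAt.preimage_mem_nhds
          (isOpen_openTriangle.mem_nhds (by simpa using hw))] with t ht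
        exact hre _ ht
      have h4 := h3.congr_of_eventuallyEq hnear.symm
      exact (h4.unique (hasDerivAt_const 0 (0 : ℝ)))
    refine Complex.ext ?_ ?_
    · simpa using line 1
    · simpa using line Complex.I
  have hconn : IsPreconnected openTriangle := by
    refine Convex.isPreconnected ?_
    intro u hu v hv a b ha hb hab
    obtain ⟨u1, u2, u3⟩ := hu
    obtain ⟨v1, v2, v3⟩ := hv
    have e : coord (a • u + b • v) =
        (a * (coord u).1 + b * (coord v).1, a * (coord u).2 + b * (coord v).2) := by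
      simp only [coord, Prod.mk.injEq, Complex.add_re, Complex.add_im, Complex.real_smul,
        Complex.re_ofReal_mul, Complex.im_ofReal_mul]
      constructor <;> ring
    simp only [openTriangle, Set.mem_ofPred_eq, e]
    rcases ha.eq_or_lt with rfl | ha'
    · rw [zero_add] at hab
      subst hab
      exact ⟨by linarith, by linarith, by linarith⟩
    · refine ⟨?_, ?_, ?_⟩
      · nlinarith [mul_pos ha' u1, mul_nonneg hb v1.le]
      · nlinarith [mul_pos ha' u2, mul_nonneg hb v2.le]
      · have h1 : a * ((coord u).1 + (coord u).2) < a * 1 := mul_lt_mul_of_pos_left u3 ha'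
        have h2 : b * ((coord v).1 + (coord v).2) ≤ b * 1 := mul_le_mul_of_nonneg_left v3.le hb
        linarith
  set c₀ : ℂ := ⟨1 / 4 + 1 / 2 * (1 / 4), Real.sqrt 3 / 2 * (1 / 4)⟩ with hc₀
  have hc₀' : place ((1 / 4 : ℝ), (1 / 4 : ℝ)) = c₀ := by
    apply Complex.ext <;> simp [hc₀, place, zeta]
  have hc₀mem : c₀ ∈ openTriangle := by
    rw [← hc₀']
    simp only [openTriangle, Set.mem_ofPred_eq, coord_place]
    norm_num
  have hconst : ∀ w ∈ openTriangle, F w = F c₀ := fun w hw =>
    isOpen_openTriangle.is_const_of_deriv_eq_zero hconn hd hderiv hw hc₀mem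
  have hvert : excess U (place (0, 0)) = 0 := by
    have h00 : ((0 : ℝ), (0 : ℝ)) ∈ triangle := ⟨le_rfl, le_rfl, by norm_num⟩
    obtain ⟨-, g1, -⟩ := lim3_boundary hU le_rfl (zero_le_one' ℝ)
    have g2 : lim3 U 2 ((0 : ℝ), 0) = 0 := by
      have := (lim3_boundary hU zero_le_one (le_refl (1 : ℝ))).2.2
      rwa [sub_self] at this
    have hs := lim3_sum hU h00
    rw [g1, g2] at hs
    simp only [add_zero] at hs
    rw [excess, coord_place]
    simp [limC, g1, g2, hs, place]
  have hval : F c₀ = 0 := by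
    have h0 := eq_zero_of_interior (f := fun w => F w - F c₀) (hFc.sub continuous_const)
      (fun w hw => sub_eq_zero.2 (hconst w hw)) (p := (0, 0)) ⟨le_rfl, le_rfl, by norm_num⟩
    simp only [hF, hvert] at h0
    simpa [hF] using h0
  exact eq_zero_of_interior (continuous_excess hU)
    (fun w hw => eq_zero_of_pow_eq_zero ((hconst w hw).trans hval)) hp

/-- The limits are barycentric coordinates. -/
theorem lim3_eq (hU : (U : Filter ℕ) ≤ atTop) {p : ℝ × ℝ} (hp : p ∈ triangle) :
    lim3 U 2 p = p.2 := by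
  have h := excess_eq_zero hU hp
  have hs := lim3_sum hU hp
  rw [excess, coord_place, sub_eq_zero] at h
  have hre := congrArg Complex.re h
  have him := congrArg Complex.im h
  have h3 := sqrt_three_sq
  simp [limC, place, zeta, tau, pow_two] at hre him
  have h3p := sqrt_three_pos
  have e1 : lim3 U 1 p - lim3 U 2 p = p.1 - p.2 := by
    refine mul_left_cancel₀ h3p.ne' ?_
    nlinarith
  nlinarith

/-- The sites of the triangle of side `n`. -/
def triSites (n : ℕ) : Finset Site :=
  (par 0 n 0 n).filter fun v => v.1 + v.2 ≤ (n : ℤ)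

theorem mem_triSites {n : ℕ} {v : Site} :
    v ∈ triSites n ↔ 0 ≤ v.1 ∧ 0 ≤ v.2 ∧ v.1 + v.2 ≤ (n : ℤ) := by
  simp only [triSites, Finset.mem_filter, mem_par]
  omega

/-- An open path joins the left side to the part of the opposite side beyond `k`. -/
def sideCross (n k : ℕ) : Set (Set Site) :=
  {η | ∃ u v, Conn (η ∩ ↑(triSites n)) u v ∧ u.1 = 0 ∧ v.1 + v.2 = (n : ℤ) ∧ (k : ℤ) ≤ v.1}

/-- The crossing is the observable on the boundary, exactly. -/
theorem pr_sideCross {n k : ℕ} (hk : k ≤ n) :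
    pr (triSites n) (sideCross n k) = obs (n + 3) 2 (sidePoint (n + 3) (k + 1)) := by
  rw [(obs_eq_pr (by omega : 1 ≤ k + 1) (by omega)).1]
  set A : Set (Set Site) := {η | ∃ u v, Conn (η ∩ ↑(inner (n + 3))) u v ∧ u.1 = 1 ∧
    v.1 + v.2 = ((n + 3 : ℕ) : ℤ) - 1 ∧ ((k + 1 : ℕ) : ℤ) ≤ v.1} with hA
  have e : pr (inner (n + 3)) (closedCross (n + 3) (k + 1)) = pr (inner (n + 3)) A := by
    rw [← pr_flip (inner (n + 3)) A]
    refine pr_congr fun s _ => ?_
    have : ((↑(inner (n + 3)) : Set Site) \ ↑s) ∩ ↑(inner (n + 3)) =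
        (↑s : Set Site)ᶜ ∩ ↑(inner (n + 3)) := by
      ext x
      simp only [Set.mem_inter_iff, Set.mem_sdiff, Set.mem_compl_iff]
      tauto
    simp only [closedCross, hA, Set.mem_ofPred_eq, this]
  have hD : ∀ x, x ∈ triSites n ↔ shift (1, 1) x ∈ inner (n + 3) := fun x => by
    simp only [mem_triSites, mem_inner, shift, Equiv.coe_addLeft, Prod.fst_add, Prod.snd_add]
    omega
  rw [e]
  refine le_antisymm (pr_le_map (shift (1, 1)) hD fun s _ ⟨u, v, h, hu, hv, hvk⟩ => ?_)
    (pr_le_map (shift (1, 1)).symm (fun x => ?_) fun s _ ⟨u, v, h, hu, hv, hvk⟩ => ?_)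
  · refine ⟨_, _, h.map (S' := shift (1, 1) '' ↑s ∩ ↑(inner (n + 3))) (fun _ _ => adj_shift)
      fun x hx => ⟨Set.mem_image_of_mem _ hx.1, (hD x).1 hx.2⟩, ?_, ?_, ?_⟩ <;>
      simp only [shift, Equiv.coe_addLeft, Prod.fst_add, Prod.snd_add] <;> omega
  · rw [hD, Equiv.apply_symm_apply]
  · refine ⟨_, _, h.map (S' := (shift (1, 1)).symm '' ↑s ∩ ↑(triSites n))
      (f := (shift (1, 1)).symm) (fun p q hpq => ?_) fun x hx => ⟨Set.mem_image_of_mem _ hx.1,
        (hD _).2 (by rw [Equiv.apply_symm_apply]; exact hx.2)⟩, ?_, ?_, ?_⟩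
    · simp only [Adj, shift, Equiv.addLeft_symm_apply, Prod.fst_add, Prod.snd_add, Prod.fst_neg,
        Prod.snd_neg] at hpq ⊢
      omega
    all_goals
      simp only [shift, Equiv.addLeft_symm_apply, Prod.fst_add, Prod.snd_add, Prod.fst_neg,
        Prod.snd_neg]
      omega

/-- **The formula of Cardy.** -/
theorem tendsto_sideCross {k : ℕ → ℕ} (hk : ∀ n, k n ≤ n) {t : ℝ}
    (ht : Tendsto (fun n => (k n : ℝ) / n) atTop (𝓝 t)) :
    Tendsto (fun n => pr (triSites n) (sideCross n (k n))) atTop (𝓝 (1 - t)) := by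
  have h0 : 0 ≤ t := ge_of_tendsto' ht fun n => by positivity
  have h1 : t ≤ 1 := le_of_tendsto' ht fun n =>
    div_le_one_of_le₀ (by exact_mod_cast hk n) (Nat.cast_nonneg n)
  rw [tendsto_iff_ultrafilter]
  intro g hg
  set U : Ultrafilter ℕ := g.map (· + 3) with hUdef
  have hU : (U : Filter ℕ) ≤ atTop := by
    rw [hUdef, Ultrafilter.coe_map]
    exact le_trans (Filter.map_mono hg) (tendsto_add_atTop_nat 3)
  set e : ℕ → Edge := fun N => sidePoint N (k (N - 3) + 1) with he
  have hreg : ∀ᶠ N in (U : Filter ℕ), Regular N (e N) :=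
    Filter.Eventually.mono (hU (eventually_ge_atTop 3) : ∀ᶠ N in (U : Filter ℕ), 3 ≤ N)
      fun N hN => regular_sidePoint (by
      have := hk (N - 3)
      omega)
  have ta : Tendsto (fun n : ℕ => ((k n : ℝ) + 1) / ((n : ℝ) + 3)) atTop (𝓝 t) := by
    have hr : Tendsto (fun n : ℕ => (n : ℝ) / ((n : ℝ) + 3)) atTop (𝓝 1) :=
      tendsto_natCast_div_add_atTop 3
    have h3 : Tendsto (fun n : ℕ => (1 : ℝ) / ((n : ℝ) + 3)) atTop (𝓝 0) :=
      tendsto_const_nhds.div_atTop (tendsto_atTop_add_const_right _ _ tendsto_natCast_atTop_atTop)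
    have := (ht.mul hr).add h3
    rw [mul_one, add_zero] at this
    refine this.congr' ((eventually_ge_atTop 1).mono fun n hn => ?_)
    have : (0 : ℝ) < n := by exact_mod_cast hn
    field_simp
  have tb : Tendsto (fun n : ℕ => ((n : ℝ) + 3 - 1 - ((k n : ℝ) + 1)) / ((n : ℝ) + 3)) atTop
      (𝓝 (1 - t)) := by
    have hq : Tendsto (fun n : ℕ => (1 : ℝ) - 1 / ((n : ℝ) + 3)) atTop (𝓝 (1 - 0)) :=
      tendsto_const_nhds.sub (tendsto_const_nhds.div_atTop
        (tendsto_atTop_add_const_right _ _ tendsto_natCast_atTop_atTop))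
    have := hq.sub ta
    rw [sub_zero] at this
    refine this.congr fun n => ?_
    have : (0 : ℝ) < (n : ℝ) + 3 := by positivity
    field_simp
  have hpos : Tendsto (fun N => pos N (e N)) U (𝓝 (t, 1 - t)) := by
    rw [hUdef, Ultrafilter.coe_map, tendsto_map'_iff]
    refine (((ta.prodMk_nhds tb).mono_left hg)).congr fun n => ?_
    simp [he, pos, sidePoint]
  have h := tendsto_obs hU 2 hreg hpos
  rw [lim3_eq hU ⟨h0, by linarith, by simp⟩, hUdef, Ultrafilter.coe_map, tendsto_map'_iff] at h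
  refine h.congr fun n => ?_
  simp [he, pr_sideCross (hk n)]

end FA.Cardy
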