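import Fermat.Agent.Cardy.Loops
import Mathlib.Logic.Equiv.Prod
import Mathlib.Algebra.BigOperators.Field

/-!
# The observable

A configuration with defects at an edge and at the three corners joins the edge to exactly one
corner; the observable is the chance of each. Removing the strand to a corner leaves a colouring.
-/

set_option autoImplicit false

noncomputable section

open Finset
open scoped Classical symmDiff

namespace FA.Cardy

/-- The edges at the three corners. -/
def cornerEdge (N : ℕ) : Fin 3 → Edge :=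
  ![(((0 : ℤ), (0 : ℤ)), 2), (((N : ℤ) - 1, 0), 0), ((0, (N : ℤ) - 1), 1)]

/-- The defects for the observable at `z`. -/
def defects (N : ℕ) (z : Edge) : Finset Edge :=
  {z, cornerEdge N 0, cornerEdge N 1, cornerEdge N 2}

/-- An edge of the big triangle other than the corners. -/
def Regular (N : ℕ) (z : Edge) : Prop := z ∈ edges N ∧ ∀ k, z ≠ cornerEdge N k

/-- The chance that the edge is joined to a corner. -/
def obs (N : ℕ) (k : Fin 3) (z : Edge) : ℝ :=
  (((confSet N (defects N z)).filter fun ω => Joins ω (cornerEdge N k) z).card : ℝ) /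
    2 ^ (inner N).card

/-- The colours of the boundary when the opposite side of the first corner is closed. -/
def plainCol (N : ℕ) (w : Site) : ZMod 2 := if 1 ≤ w.2 ∧ w.1 + w.2 = N then 0 else 1

theorem cornerEdge_ne {N : ℕ} {i j : Fin 3} (h : i ≠ j) :
    cornerEdge N i ≠ cornerEdge N j := by
  fin_cases i <;> fin_cases j <;> simp_all [cornerEdge]

theorem cornerEdge_mem_edges {N : ℕ} (hN : 1 ≤ N) (k : Fin 3) : cornerEdge N k ∈ edges N := by
  fin_cases k <;> simp [cornerEdge, mem_edges] <;> omega

theorem mem_defects {N : ℕ} {z e : Edge} :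
    e ∈ defects N z ↔ e = z ∨ ∃ k, e = cornerEdge N k := by
  simp [defects, Fin.exists_fin_succ]

theorem bdry_plainCol {N : ℕ} (hN : 3 ≤ N) :
    bdry N (plainCol N) = {cornerEdge N 1, cornerEdge N 2} := by
  ext ⟨⟨a, b⟩, i⟩
  simp only [bdry, Finset.mem_filter, mem_edges, mem_halves, FaceIn, Finset.mem_insert,
    Finset.mem_singleton, cornerEdge, plainCol]
  fin_cases i <;>
    simp [faceOf, lft, rgt, vert, corner] <;> split_ifs <;>
    simp [CharTwo.add_self_eq_zero] <;> omega

/-! ### Linked edges -/

/-- A pair of halves in one face moves a defect. -/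
theorem valid_pair {N : ℕ} {F : Face} (hF : FaceIn N F) {i j : Fin 3} (hij : i ≠ j) :
    Valid N {(halfAt F i).1, (halfAt F j).1} {halfAt F i, halfAt F j} := by
  refine ⟨?_, fun G => ?_, fun e => ?_⟩
  · intro x hx
    simp only [Finset.mem_insert, Finset.mem_singleton] at hx
    rcases hx with rfl | rfl <;> exact halfAt_mem_halves hF _
  · by_cases hG : G = F
    · subst hG
      have e : ∀ k, bit ({halfAt G i, halfAt G j} : Finset Half) (halfAt G k) =
          bit ({i, j} : Finset (Fin 3)) k := fun k => by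
        simp [bit, (halfAt_injective G).eq_iff]
      rw [e, e, e]
      fin_cases i <;> fin_cases j <;> simp [bit, CharTwo.add_self_eq_zero] at hij ⊢
    · have e : ∀ k, halfAt G k ∉ ({halfAt F i, halfAt F j} : Finset Half) := fun k hk => hG (by
        simp only [Finset.mem_insert, Finset.mem_singleton] at hk
        rcases hk with hk | hk <;> rw [← faceOf_halfAt G k, hk, faceOf_halfAt])
      simp [bit, e]
  · have hne : (halfAt F i).1 ≠ (halfAt F j).1 := fun h => hij (congrArg (fun x : Edge => x.2) h)
    by_cases hi : e = (halfAt F i).1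
    · subst hi
      have hj : ∀ s, ((halfAt F i).1, s) ≠ halfAt F j := fun s h => hne (congrArg Prod.fst h :)
      have hii : ∀ s, ((halfAt F i).1, s) = halfAt F i ↔ s = F.2 := fun s =>
        ⟨fun h => congrArg Prod.snd h, fun h => by rw [h]; rfl⟩
      cases hs : F.2 <;> simp [bit, hj, hii, hs]
    by_cases hj : e = (halfAt F j).1
    · subst hj
      have hj' : ∀ s, ((halfAt F j).1, s) ≠ halfAt F i := fun s h => hi (congrArg Prod.fst h :)
      have hii : ∀ s, ((halfAt F j).1, s) = halfAt F j ↔ s = F.2 := fun s =>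
        ⟨fun h => congrArg Prod.snd h, fun h => by rw [h]; rfl⟩
      cases hs : F.2 <;> simp [bit, hj', hii, hs]
    · have e1 : ∀ s, (e, s) ≠ halfAt F i ∧ (e, s) ≠ halfAt F j := fun s =>
        ⟨fun h => hi (congrArg Prod.fst h), fun h => hj (congrArg Prod.fst h)⟩
      simp [bit, e1, hi, hj]

/-- Some configuration has just these two defects, or the two are equal. -/
def Linked (N : ℕ) (z z' : Edge) : Prop := ∃ P, Valid N ({z} ∆ {z'}) P

theorem Linked.trans {N : ℕ} {x y z : Edge} (h : Linked N x y) (h' : Linked N y z) :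
    Linked N x z := by
  obtain ⟨P, hP⟩ := h
  obtain ⟨Q, hQ⟩ := h'
  refine ⟨P ∆ Q, ?_⟩
  have := hP.symmDiff hQ
  rwa [symmDiff_assoc, symmDiff_symmDiff_cancel_left] at this

theorem linked_refl {N : ℕ} (x : Edge) : Linked N x x :=
  ⟨∅, by rw [symmDiff_self]; exact valid_empty N⟩

theorem linked_of_face {N : ℕ} {F : Face} (hF : FaceIn N F) (i j : Fin 3) :
    Linked N (halfAt F i).1 (halfAt F j).1 := by
  by_cases hij : i = j
  · subst hij
    exact linked_refl _
  refine ⟨{halfAt F i, halfAt F j}, ?_⟩
  have hne : (halfAt F i).1 ≠ (halfAt F j).1 := fun h => hij (congrArg (fun x : Edge => x.2) h)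
  have e : ({(halfAt F i).1} : Finset Edge) ∆ {(halfAt F j).1} =
      {(halfAt F i).1, (halfAt F j).1} := by
    ext x
    simp only [Finset.mem_symmDiff, Finset.mem_singleton, Finset.mem_insert]
    constructor
    · rintro (⟨h, -⟩ | ⟨h, -⟩)
      exacts [Or.inl h, Or.inr h]
    · rintro (h | h)
      exacts [Or.inl ⟨h, h ▸ hne⟩, Or.inr ⟨h, h ▸ hne.symm⟩]
  rw [e]
  exact valid_pair hF hij

theorem linked_origin {N : ℕ} : ∀ (n : ℕ) (e : Edge), e ∈ edges N →
    (e.1.1 + e.1.2).toNat = n → Linked N e (((0 : ℤ), (0 : ℤ)), 2) := by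
  intro n
  induction n with
  | zero =>
    rintro ⟨⟨a, b⟩, i⟩ he hn
    rw [mem_edges] at he
    obtain rfl : a = 0 := by simp at he hn; omega
    obtain rfl : b = 0 := by simp at he hn; omega
    simpa [halfAt] using linked_of_face (F := (((0 : ℤ), (0 : ℤ)), true))
      (by simpa [FaceIn] using he) i 2
  | succ n ih =>
    rintro ⟨⟨a, b⟩, i⟩ he hn
    rw [mem_edges] at he
    simp only at he hn
    have h1 : Linked N ((a, b), i) ((a, b), 2) := by
      simpa [halfAt] using linked_of_face (F := ((a, b), true)) (by simpa [FaceIn] using he) i 2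
    rcases (by omega : 1 ≤ a ∨ 1 ≤ b) with ha | hb
    · have h2 : Linked N ((a, b), 2) ((a, b), 1) := by
        simpa [halfAt] using linked_of_face (F := ((a, b), true)) (by simpa [FaceIn] using he) 2 1
      have h3 : Linked N ((a, b), 1) ((a - 1, b), 0) := by
        simpa [halfAt, corner] using linked_of_face (F := ((a - 1, b), false))
          (by simp [FaceIn]; omega) 1 0
      exact (h1.trans (h2.trans h3)).trans
        (ih _ (by simp [mem_edges]; omega) (by simp only; omega))
    · have h3 : Linked N ((a, b), 2) ((a, b - 1), 0) := by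
        simpa [halfAt, corner] using linked_of_face (F := ((a, b - 1), false))
          (by simp [FaceIn]; omega) 2 0
      exact (h1.trans h3).trans (ih _ (by simp [mem_edges]; omega) (by simp only; omega))

theorem defects_symmDiff {N : ℕ} (hN : 3 ≤ N) {z : Edge} (hz : Regular N z) :
    defects N z ∆ ({z} ∆ {cornerEdge N 0}) = bdry N (plainCol N) := by
  rw [bdry_plainCol hN]
  ext e
  simp only [Finset.mem_symmDiff, defects, Finset.mem_insert, Finset.mem_singleton]
  have h0 := hz.2 0
  have h1 := hz.2 1
  have h2 := hz.2 2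
  have c1 := cornerEdge_ne (N := N) (show (0 : Fin 3) ≠ 1 by decide)
  have c2 := cornerEdge_ne (N := N) (show (0 : Fin 3) ≠ 2 by decide)
  by_cases e0 : e = z
  · subst e0
    simp [h0, h1, h2]
  by_cases e1 : e = cornerEdge N 0
  · subst e1
    simp [Ne.symm h0, c1, c2]
  simp [e0, e1]

theorem card_defects {N : ℕ} (hN : 3 ≤ N) {z : Edge} (hz : Regular N z) :
    (confSet N (defects N z)).card = 2 ^ (inner N).card := by
  obtain ⟨P, hP⟩ := linked_origin _ z hz.1 rfl
  have hP' : Valid N ({z} ∆ {cornerEdge N 0}) P := hP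
  rw [← card_confSet_symmDiff hP', defects_symmDiff hN hz]
  have := card_confSet_bdry N (plainCol N) fun _ => True
  simpa using this

theorem obs_nonneg (N : ℕ) (k : Fin 3) (z : Edge) : 0 ≤ obs N k z := by
  unfold obs
  positivity

theorem obs_le_one {N : ℕ} (hN : 3 ≤ N) (k : Fin 3) {z : Edge} (hz : Regular N z) :
    obs N k z ≤ 1 := by
  rw [obs, div_le_one (by positivity)]
  calc (((confSet N (defects N z)).filter fun ω => Joins ω (cornerEdge N k) z).card : ℝ)
      ≤ (confSet N (defects N z)).card := by exact_mod_cast card_filter_le _ _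
    _ = _ := by rw [card_defects hN hz]; norm_num

theorem existsUnique_joins {N : ℕ} {z : Edge} {ω : Finset Half}
    (hv : Valid N (defects N z) ω) : ∃! k, Joins ω (cornerEdge N k) z := by
  have hzD : z ∈ defects N z := mem_defects.2 (Or.inl rfl)
  have hkD : ∀ k, cornerEdge N k ∈ defects N z := fun k => mem_defects.2 (Or.inr ⟨k, rfl⟩)
  obtain ⟨x, hxD, hxz, hx⟩ := hv.exists_joins hzD
  obtain ⟨k, rfl⟩ := (mem_defects.1 hxD).resolve_left hxz
  refine ⟨k, (hv.joins_symm hzD hx).2, fun j hj => ?_⟩
  have h' := (hv.joins_symm (hkD j) hj).2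
  by_contra hne
  exact cornerEdge_ne hne (h'.unique hx)

/-- The three chances add to one. -/
theorem obs_sum {N : ℕ} (hN : 3 ≤ N) {z : Edge} (hz : Regular N z) :
    obs N 0 z + obs N 1 z + obs N 2 z = 1 := by
  have e : ∑ k : Fin 3,
      ((confSet N (defects N z)).filter fun ω => Joins ω (cornerEdge N k) z).card =
        (confSet N (defects N z)).card := by
    simp only [card_eq_sum_ones, sum_filter]
    rw [sum_comm]
    refine sum_congr rfl fun ω hω => ?_
    obtain ⟨k, hk, hu⟩ := existsUnique_joins (mem_confSet.1 hω)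
    rw [sum_eq_single k (fun j _ hj => if_neg fun h => hj (hu j h)) (by simp), if_pos hk]
  rw [card_defects hN hz, Fin.sum_univ_three] at e
  simp only [obs]
  rw [← add_div, ← add_div, div_eq_one_iff_eq (by positivity)]
  exact_mod_cast e

/-! ### Removing a strand -/

/-- The halves of the first `n` steps of a strand. -/
def strandSet (ω : Finset Half) (h : Half) (n : ℕ) : Finset Half :=
  (Finset.range (n + 1)).image (fun k => (across ω ∘ mate ω)^[k] h) ∪
    (Finset.range (n + 1)).image fun k => mate ω ((across ω ∘ mate ω)^[k] h)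

theorem mem_strandSet {ω : Finset Half} {h x : Half} {n : ℕ} : x ∈ strandSet ω h n ↔
    ∃ k ≤ n, x = (across ω ∘ mate ω)^[k] h ∨ x = mate ω ((across ω ∘ mate ω)^[k] h) := by
  simp only [strandSet, Finset.mem_union, Finset.mem_image, Finset.mem_range, Nat.lt_succ_iff]
  constructor
  · rintro (⟨k, hk, rfl⟩ | ⟨k, hk, rfl⟩)
    exacts [⟨k, hk, Or.inl rfl⟩, ⟨k, hk, Or.inr rfl⟩]
  · rintro ⟨k, hk, rfl | rfl⟩
    exacts [Or.inl ⟨k, hk, rfl⟩, Or.inr ⟨k, hk, rfl⟩]

/-- A closed part of a configuration with two defects. -/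
structure Strip (N : ℕ) (ω S : Finset Half) (e f : Edge) : Prop where
  subset : S ⊆ ω
  mate_mem : ∀ x ∈ S, mate ω x ∈ S
  across_mem : ∀ x ∈ S, across ω x ∈ S
  valid : Valid N {e, f} S

/-- The strand from a corner splits off. -/
theorem Valid.exists_strip {N : ℕ} {D : Finset Edge} {ω : Finset Half} (hv : Valid N D ω)
    {e f : Edge} (he : e ∈ D) (hj : Joins ω e f) :
    ∃ n, Runs (mate ω) (across ω) (defectHalf ω e) n ∧
      (mate ω ((across ω ∘ mate ω)^[n] (defectHalf ω e))).1 = f ∧
      Strip N ω (strandSet ω (defectHalf ω e) n) e f := by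
  obtain ⟨t, ⟨n, hn, hf, rfl⟩, rfl⟩ := hj
  set h := defectHalf ω e with hh
  set S := strandSet ω h n with hS
  have hm := hv.defectHalf_mem he
  have hsub : S ⊆ ω := fun x hx => by
    obtain ⟨k, -, rfl | rfl⟩ := mem_strandSet.1 hx
    exacts [hv.strand_mem he k, hv.carries.mate_mem _ (hv.strand_mem he k)]
  have hmate : ∀ x ∈ S, mate ω x ∈ S := fun x hx => by
    obtain ⟨k, hk, rfl | rfl⟩ := mem_strandSet.1 hx
    · exact mem_strandSet.2 ⟨k, hk, Or.inr rfl⟩
    · exact mem_strandSet.2 ⟨k, hk, Or.inl (hv.mate_mate _)⟩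
  have hfix0 : across ω h = h := (hv.across_eq_self hm).2 he
  have hac : ∀ x ∈ S, across ω x ∈ S := fun x hx => by
    obtain ⟨k, hk, rfl | rfl⟩ := mem_strandSet.1 hx
    · cases k with
      | zero => exact mem_strandSet.2 ⟨0, hk, Or.inl hfix0⟩
      | succ k =>
        refine mem_strandSet.2 ⟨k, by omega, Or.inr ?_⟩
        rw [strand_succ, across_across]
    · rcases hk.lt_or_eq with hk | rfl
      · exact mem_strandSet.2 ⟨k + 1, hk, Or.inl (strand_succ _ _ _ _).symm⟩
      · exact mem_strandSet.2 ⟨k, le_rfl, Or.inr hf⟩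
  have hfixed : ∀ x ∈ S, across ω x = x →
      x = h ∨ x = mate ω ((across ω ∘ mate ω)^[n] h) := fun x hx hxf => by
    obtain ⟨k, hk, rfl | rfl⟩ := mem_strandSet.1 hx
    · cases k with
      | zero => exact Or.inl rfl
      | succ k =>
        rw [strand_succ, across_across] at hxf
        exact absurd hxf.symm (hn k (by omega))
    · rcases hk.lt_or_eq with hk | rfl
      · exact absurd hxf (hn k hk)
      · exact Or.inr rfl
  refine ⟨n, hn, rfl, hsub, hmate, hac, hsub.trans hv.1, fun F => ?_, fun d => ?_⟩ <;> rw [← hS]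
  · by_cases hex : ∃ i, halfAt F i ∈ S
    · obtain ⟨i, hi⟩ := hex
      have key : ∀ j, bit S (halfAt F j) = bit ω (halfAt F j) := fun j => by
        by_cases hjS : halfAt F j ∈ S
        · simp [bit, hjS, hsub hjS]
        · have hjw : halfAt F j ∉ ω := by
            intro hjw
            have hij : i ≠ j := fun h => hjS (h ▸ hi)
            have hthird : ∀ i j : Fin 3, i ≠ j → j = i + 1 ∨ j = i + 2 := by decide
            have hside : (halfAt F i).1.2 = i := rfl
            rcases hv.mate_cases (hsub hi) with ⟨h1, h2, e⟩ | ⟨h1, h2, e⟩ <;>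
              rw [hside, faceOf_halfAt] at h1 h2 e <;>
              rcases hthird i j hij with rfl | rfl
            · exact hjS (e ▸ hmate _ hi)
            · exact h2 hjw
            · exact h1 hjw
            · exact hjS (e ▸ hmate _ hi)
          simp [bit, hjS, hjw]
      rw [key, key, key]
      exact hv.2.1 F
    · rw [not_exists] at hex
      simp only [bit, hex, if_false, add_zero]
  · by_cases hex : ∃ s, (d, s) ∈ S
    · obtain ⟨s, hs⟩ := hex
      have key : ∀ u, bit S (d, u) = bit ω (d, u) := fun u => by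
        by_cases huS : (d, u) ∈ S
        · simp [bit, huS, hsub huS]
        · have huw : (d, u) ∉ ω := by
            intro huw
            have hus : u = !s := by
              cases u <;> cases s <;> simp_all
            subst hus
            exact huS (by simpa [across, hsub hs, huw] using hac _ hs)
          simp [bit, huS, huw]
      rw [key, key, hv.2.2 d]
      by_cases hdD : d ∈ D
      · rcases hfixed _ hs ((hv.across_eq_self (hsub hs)).2 hdD) with h1 | h1
        · obtain rfl : d = e := congrArg Prod.fst h1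
          simp [bit, hdD]
        · obtain rfl : d = (mate ω ((across ω ∘ mate ω)^[n] h)).1 := congrArg Prod.fst h1
          simp [bit, hdD]
      · have h1 : d ≠ e := fun h => hdD (h ▸ he)
        have h2 : d ≠ (mate ω ((across ω ∘ mate ω)^[n] h)).1 := fun h => hdD (h ▸
          (hv.across_eq_self (hsub (mem_strandSet.2 ⟨n, le_rfl, Or.inr rfl⟩))).1 hf)
        simp [bit, hdD, h1, h2]
    · rw [not_exists] at hex
      have h1 : d ≠ e := fun he' =>
        hex h.2 (by rw [he']; exact mem_strandSet.2 ⟨0, Nat.zero_le _, Or.inl rfl⟩)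
      have h2 : d ≠ (mate ω ((across ω ∘ mate ω)^[n] h)).1 := fun he' =>
        hex (mate ω ((across ω ∘ mate ω)^[n] h)).2
          (by rw [he']; exact mem_strandSet.2 ⟨n, le_rfl, Or.inr rfl⟩)
      simp only [bit, hex, if_false, add_zero, Finset.mem_insert, Finset.mem_singleton, h1, h2,
        or_self]

theorem Strip.sdiff_valid {N : ℕ} {D : Finset Edge} {ω S : Finset Half} {e f : Edge}
    (hS : Strip N ω S e f) (hv : Valid N D ω) : Valid N (D ∆ {e, f}) (ω \ S) := by
  have e' : ω ∆ S = ω \ S := by
    ext x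
    simp only [Finset.mem_symmDiff, Finset.mem_sdiff]
    exact ⟨fun h => h.elim id fun h => absurd (hS.subset h.1) h.2, Or.inl⟩
  exact e' ▸ hv.symmDiff hS.valid

/-- Removing the strand at a corner leaves a colouring that is open all along the strand. -/
theorem Valid.strip_colour {N : ℕ} {β : Site → ZMod 2} {D : Finset Edge} {ω : Finset Half}
    (hv : Valid N D ω) {e f : Edge} (he : e ∈ D) (hj : Joins ω e f)
    (hD : D ∆ {e, f} = bdry N β) (hr : β (rgt (e, true)) = 1)
    (heb : (e, false) ∉ halves N) :
    ∃ n, Runs (mate ω) (across ω) (defectHalf ω e) n ∧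
      (mate ω ((across ω ∘ mate ω)^[n] (defectHalf ω e))).1 = f ∧
      Strip N ω (strandSet ω (defectHalf ω e) n) e f ∧
      ∃ s ⊆ inner N, cfgOf N (colOf N β ↑s) = ω \ strandSet ω (defectHalf ω e) n ∧
        ∀ x ∈ strandSet ω (defectHalf ω e) n, ∀ i,
          colOf N β ↑s (vert (faceOf x) i) = 1 := by
  obtain ⟨n, hn, hlast, hstrip⟩ := hv.exists_strip he hj
  set S := strandSet ω (defectHalf ω e) n with hS
  set s := openPart N β (ω \ S) with hs
  have hv' := hstrip.sdiff_valid hv
  rw [hD] at hv'
  have hcfg := cfgOf_openPart hv'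
  refine ⟨n, hn, hlast, hstrip, s, filter_subset _ _, hcfg, ?_⟩
  set σ := colOf N β ↑s with hσ
  have hface : ∀ x ∈ S, ∀ i, σ (vert (faceOf x) (i + 1)) = σ (vert (faceOf x) (i + 2)) := by
    intro x hx i
    have hin : halfAt (faceOf x) i ∈ halves N := by
      refine halfAt_mem_halves ?_ i
      rw [← mem_halves]
      exact hv.1 (hstrip.subset hx)
    have hnot : halfAt (faceOf x) i ∉ ω \ S := by
      intro h
      obtain ⟨hw, hnS⟩ := Finset.mem_sdiff.1 h
      refine hnS ?_
      have hthird : ∀ i j : Fin 3, i = j ∨ i = j + 1 ∨ i = j + 2 := by decide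
      rcases hthird i x.1.2 with rfl | rfl | rfl
      · rwa [halfAt_faceOf]
      all_goals rcases hv.mate_cases (hstrip.subset hx) with ⟨h1, h2, e'⟩ | ⟨h1, h2, e'⟩
      · exact e' ▸ hstrip.mate_mem x hx
      · exact absurd hw h1
      · exact absurd hw h2
      · exact e' ▸ hstrip.mate_mem x hx
    have h0 : bit (cfgOf N σ) (halfAt (faceOf x) i) = 0 := by rw [hσ, hcfg, bit, if_neg hnot]
    rw [bit_cfgOf hin, lft, rgt, faceOf_halfAt, CharTwo.add_eq_zero] at h0
    exact h0
  have hall : ∀ x ∈ S, ∀ i, σ (vert (faceOf x) i) = σ (rgt x) := by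
    intro x hx i
    have h0 := hface x hx 0
    have h1 := hface x hx 1
    simp only [Fin.reduceAdd] at h0 h1
    have all : ∀ j, σ (vert (faceOf x) j) = σ (vert (faceOf x) 2) := fun j => by
      fin_cases j
      · exact h1.symm
      · exact h0
      · rfl
    rw [all i, rgt, all (x.1.2 + 2)]
  have hstep : ∀ k ≤ n, σ (rgt ((across ω ∘ mate ω)^[k] (defectHalf ω e))) = 1 := by
    intro k hk
    induction k with
    | zero =>
      have hm := hv.defectHalf_mem he
      have h2 : (defectHalf ω e).2 = true := by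
        by_contra h
        have : defectHalf ω e = (e, false) := Prod.ext rfl (by simpa using h)
        exact heb (this ▸ hv.1 hm)
      have : defectHalf ω e = (e, true) := Prod.ext rfl h2
      obtain ⟨-, hr'⟩ := ends_not_inner (e := e) (edge_mem_of_half (hv.1 hm) :) heb
      rw [Function.iterate_zero, id_eq, this, hσ, colOf, if_neg hr', hr]
    | succ k ih =>
      have hxk : (across ω ∘ mate ω)^[k] (defectHalf ω e) ∈ S :=
        mem_strandSet.2 ⟨k, by omega, Or.inl rfl⟩
      have hmk := hstrip.mate_mem _ hxk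
      have h1 : σ (lft (mate ω ((across ω ∘ mate ω)^[k] (defectHalf ω e)))) = 1 := by
        rw [lft, faceOf_mate, hall _ hxk, ih (by omega)]
      rw [strand_succ]
      generalize hy : mate ω ((across ω ∘ mate ω)^[k] (defectHalf ω e)) = y at h1 hmk ⊢
      have h2 : σ (rgt y) = 1 := by
        rw [← hall y hmk (y.1.2 + 1)]
        exact h1
      obtain ⟨d, u⟩ := y
      unfold across
      split_ifs with hc
      · cases u
        · simpa [rgt_false, lft_false] using h1
        · simpa [rgt_false] using h1
      · exact h2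
  intro x hx i
  obtain ⟨k, hk, rfl | rfl⟩ := mem_strandSet.1 hx
  · rw [hall _ hx, hstep k hk]
  · rw [faceOf_mate, hall _ (mem_strandSet.2 ⟨k, hk, Or.inl rfl⟩), hstep k hk]

/-- On the side opposite a corner the corner is never joined. -/
theorem obs_zero_opposite {N : ℕ} (hN : 3 ≤ N) {z : Edge} (hz : Regular N z) (h2 : z.2 = 0)
    (hs : z.1.1 + z.1.2 + 1 = (N : ℤ)) : obs N 0 z = 0 := by
  rw [obs, Finset.card_eq_zero.2, Nat.cast_zero, zero_div]
  rw [Finset.filter_eq_empty_iff]
  intro ω hω hj
  have hv := mem_confSet.1 hω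
  have hD : defects N z ∆ {cornerEdge N 0, z} = bdry N (plainCol N) := by
    rw [← defects_symmDiff hN hz]
    congr 1
    ext e
    simp only [Finset.mem_insert, Finset.mem_singleton, Finset.mem_symmDiff]
    have := hz.2 0
    constructor
    · rintro (rfl | rfl)
      exacts [Or.inr ⟨rfl, Ne.symm this⟩, Or.inl ⟨rfl, this⟩]
    · tauto
  obtain ⟨n, hn, hlast, hstrip, s, -, -, hopen⟩ := hv.strip_colour
    (mem_defects.2 (Or.inr ⟨0, rfl⟩)) hj hD
    (by simp [cornerEdge, plainCol, rgt, vert, faceOf, corner])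
    (by simp [cornerEdge, mem_halves, FaceIn, faceOf, corner])
  obtain ⟨t, ht⟩ : ∃ t, t = mate ω ((across ω ∘ mate ω)^[n] (defectHalf ω (cornerEdge N 0))) :=
    ⟨_, rfl⟩
  have htS : t ∈ strandSet ω (defectHalf ω (cornerEdge N 0)) n :=
    mem_strandSet.2 ⟨n, le_rfl, Or.inr ht⟩
  have htz : t.1 = z := ht ▸ hlast
  obtain ⟨⟨⟨a, b⟩, i⟩, u⟩ := t
  obtain rfl : z = ((a, b), i) := htz.symm
  obtain rfl : i = 0 := h2
  simp only at hs
  have hu : u = true := by
    by_contra h
    have := mem_halves.1 (hv.1 (hstrip.subset htS))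
    simp only [Bool.not_eq_true] at h
    subst h
    simp [FaceIn, faceOf, corner] at this
    omega
  subst hu
  have := hopen _ htS (2 : Fin 3)
  have he := mem_edges.1 hz.1
  simp only at he
  have hv2 : vert (faceOf (((a, b), (0 : Fin 3)), true)) 2 = (a, b + 1) := by
    simp [vert, faceOf, corner]
  rw [hv2, colOf, if_neg (by simp only [mem_inner]; omega), plainCol,
    if_pos (by simp only; omega)] at this
  exact absurd this (by decide)

end FA.Cardy
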