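import Fermat.Agent.Cardy.Trapezoid

/-!
# The theorem of Russo, Seymour and Welsh

At the critical point a parallelogram of any fixed shape is crossed with a chance bounded below.
-/

set_option autoImplicit false

noncomputable section

open Finset
open scoped Classical

namespace FA.Cardy

/-- The trapezoid is crossed from side to side. -/
def trapCross (m : ℕ) : Set (Set Site) :=
  {η | ∃ u v, Conn (η ∩ ↑(trap m)) u v ∧ u.1 = 0 ∧ v.1 + v.2 = 4 * (m : ℤ)}

/-- Joined from the right side to the far left. -/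
def sideLeft (m : ℕ) : Set (Set Site) :=
  {η | ∃ u v, Conn (η ∩ ↑(trap m)) u v ∧ u.1 + u.2 = 4 * (m : ℤ) ∧ FarLeft m v}

theorem pr_sideLeft (m : ℕ) : pr (trap m) (sideRight m) ≤ pr (trap m) (sideLeft m) := by
  refine pr_le_map (refl m) (fun x => ⟨refl_mem_trap, fun h => ?_⟩) ?_
  · simpa [refl_refl] using refl_mem_trap h
  rintro s - ⟨u, v, h, hu, hv⟩
  refine ⟨_, _, h.map (S' := refl m '' ↑s ∩ ↑(trap m)) (fun _ _ => adj_refl) fun x hx =>
    ⟨Set.mem_image_of_mem _ hx.1, refl_mem_trap hx.2⟩, ?_, farLeft_refl.2 hv⟩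
  rw [refl_fst, refl_snd, hu]
  ring

theorem sideRight_inter_sideLeft {m : ℕ} {η : Set Site} (h₁ : η ∈ sideRight m)
    (h₂ : η ∈ sideLeft m) : η ∈ trapCross m := by
  obtain ⟨u, v, h, hu, hv⟩ := h₁
  obtain ⟨u', v', h', hu', hv'⟩ := h₂
  by_cases hvr : v.1 + v.2 = 4 * (m : ℤ)
  · exact ⟨u, v, h, hu, hvr⟩
  by_cases hvl : v'.1 = 0
  · exact ⟨v', u', h'.symm, hvl, hu'⟩
  simp only [FarRight, FarLeft, hvr, hvl, false_or] at hv hv'
  have hvt := mem_trap.1 (Finset.mem_coe.1 h.right_mem.2)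
  have hut' := mem_trap.1 (Finset.mem_coe.1 h'.left_mem.2)
  have hvt' := mem_trap.1 (Finset.mem_coe.1 h'.right_mem.2)
  set row : Set Site := {x | x.2 = 2 * (m : ℤ) + 1 ∧ v.1 ≤ x.1 ∧ x.1 ≤ 4 * (m : ℤ) + 1} with hrow
  set diag : Set Site := {x | x.1 + x.2 = 4 * (m : ℤ) + 1 ∧ 0 ≤ x.2 ∧ x.2 ≤ u'.2} with hdiag
  have hS : Conn ({x | Conn (η ∩ ↑(trap m)) u x} ∪ row) u (4 * m + 1, 2 * m + 1) := by
    have hmem : (v.1, 2 * (m : ℤ) + 1) ∈ row := ⟨rfl, le_rfl, by dsimp only; omega⟩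
    refine ((h.cluster.mono Set.subset_union_left).step ?_ (Or.inr hmem)).trans
      ((conn_row _ (by omega)).mono fun x hx => Or.inr hx)
    simp only [Adj]
    omega
  have hD : ∀ d : ℕ, (d : ℤ) ≤ u'.2 →
      Conn diag (4 * (m : ℤ) + 1, 0) (4 * (m : ℤ) + 1 - d, (d : ℤ)) := by
    intro d hd
    induction d with
    | zero =>
      simp only [Nat.cast_zero, sub_zero]
      exact Conn.refl (S := diag) ⟨by simp, le_rfl, hut'.2.1⟩
    | succ d ih =>
      refine (ih (by push_cast at hd; omega)).step ?_ ⟨?_, ?_, hd⟩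
      · simp only [Adj]
        push_cast
        omega
      · dsimp only
        push_cast
        ring
      · dsimp only
        omega
  set far : Set Site := diag ∪ {x | Conn (η ∩ ↑(trap m)) u' x} ∪
    {(v'.1 - 1, 2 * (m : ℤ) + 1)} with hfar
  have hS' : Conn far (4 * m + 1, 0) (v'.1 - 1, 2 * m + 1) := by
    obtain ⟨d, hd⟩ : ∃ d : ℕ, (d : ℤ) = u'.2 := ⟨u'.2.toNat, by omega⟩
    refine ((((hD d hd.le).mono fun x hx => Or.inl (Or.inl hx)).step (w := u') ?_
      (Or.inl (Or.inr (Conn.refl h'.left_mem)))).trans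
      (h'.cluster.mono fun x hx => Or.inl (Or.inr hx))).step ?_ (Or.inr rfl)
    · simp only [Adj]
      omega
    · simp only [Adj]
      omega
  obtain ⟨x, hx, hx'⟩ := exists_meet (x₀ := 0) (x₁ := 4 * m + 1) (y₀ := 0) (y₁ := 2 * m + 1)
    (fun x hx => by
      rcases hx with hx | hx
      · have := mem_trap.1 (Finset.mem_coe.1 hx.right_mem.2)
        omega
      · simp only [hrow, Set.mem_ofPred_eq] at hx
        omega)
    (fun x hx => by
      rcases hx with (hx | hx) | hx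
      · simp only [hdiag, Set.mem_ofPred_eq] at hx
        omega
      · have := mem_trap.1 (Finset.mem_coe.1 hx.right_mem.2)
        omega
      · rw [Set.mem_singleton_iff] at hx
        subst hx
        dsimp only
        omega)
    hS hu.le le_rfl hS' le_rfl le_rfl
  rcases hx with hx | hx <;> rcases hx' with (hx' | hx') | hx'
  · simp only [hdiag, Set.mem_ofPred_eq] at hx'
    have := mem_trap.1 (Finset.mem_coe.1 hx.right_mem.2)
    omega
  · exact ⟨u, u', hx.trans hx'.symm, hu, hu'⟩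
  · rw [Set.mem_singleton_iff] at hx'
    have := mem_trap.1 (Finset.mem_coe.1 hx.right_mem.2)
    rw [hx'] at this
    omega
  · simp only [hrow, hdiag, Set.mem_ofPred_eq] at hx hx'
    omega
  · simp only [hrow, Set.mem_ofPred_eq] at hx
    have := mem_trap.1 (Finset.mem_coe.1 hx'.right_mem.2)
    omega
  · rw [Set.mem_singleton_iff] at hx'
    simp only [hrow, Set.mem_ofPred_eq, hx'] at hx
    omega

theorem isUpperSet_sideRight (m : ℕ) : IsUpperSet (sideRight m) :=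
  fun _ _ hle ⟨u, v, h, hu, hv⟩ => ⟨u, v, h.mono (Set.inter_subset_inter_left _ hle), hu, hv⟩

theorem isUpperSet_sideLeft (m : ℕ) : IsUpperSet (sideLeft m) :=
  fun _ _ hle ⟨u, v, h, hu, hv⟩ => ⟨u, v, h.mono (Set.inter_subset_inter_left _ hle), hu, hv⟩

theorem isUpperSet_trapCross (m : ℕ) : IsUpperSet (trapCross m) :=
  fun _ _ hle ⟨u, v, h, hu, hv⟩ => ⟨u, v, h.mono (Set.inter_subset_inter_left _ hle), hu, hv⟩

theorem depOn_trapCross (m : ℕ) : DepOn ↑(trap m) (trapCross m) :=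
  fun _ _ he ⟨u, v, h, hu, hv⟩ =>
    ⟨u, v, h.mono fun x hx => ⟨(he x hx.2).1 hx.1, hx.2⟩, hu, hv⟩

theorem le_trapCross {m : ℕ} (hm : 1 ≤ m) : 1 / 16 ≤ pr (trap m) (trapCross m) := by
  have h := pr_harris (D := trap m) (isUpperSet_sideRight m) (isUpperSet_sideLeft m)
  have h1 := quarter_le_sideRight hm
  have h2 := pr_sideLeft m
  have h3 : pr (trap m) (sideRight m ∩ sideLeft m) ≤ pr (trap m) (trapCross m) :=
    pr_mono fun s _ hs => sideRight_inter_sideLeft hs.1 hs.2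
  nlinarith

/-- The half turn of the parallelogram. -/
def turn (m : ℕ) : Site ≃ Site where
  toFun p := (4 * (m : ℤ) - p.1, 2 * (m : ℤ) - p.2)
  invFun p := (4 * (m : ℤ) - p.1, 2 * (m : ℤ) - p.2)
  left_inv p := by simp
  right_inv p := by simp

/-- The upright rhombus between the two trapezoids. -/
def slant (m : ℕ) : Site ≃ Site where
  toFun p := (p.1 + p.2, 2 * (m : ℤ) - p.2)
  invFun p := (p.1 + p.2 - 2 * (m : ℤ), 2 * (m : ℤ) - p.2)
  left_inv p := Prod.ext (by simp only; omega) (by simp only; omega)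
  right_inv p := Prod.ext (by simp only; omega) (by simp only; omega)

/-- The sites of the slanted middle rhombus. -/
def mid (m : ℕ) : Finset Site :=
  (par 0 (4 * m) 0 (2 * m)).filter fun v =>
    2 * (m : ℤ) ≤ v.1 + v.2 ∧ v.1 + v.2 ≤ 4 * (m : ℤ)

theorem mem_mid {m : ℕ} {v : Site} : v ∈ mid m ↔
    0 ≤ v.2 ∧ v.2 ≤ 2 * (m : ℤ) ∧ 2 * (m : ℤ) ≤ v.1 + v.2 ∧ v.1 + v.2 ≤ 4 * (m : ℤ) := by
  simp only [mid, Finset.mem_filter, mem_par]
  omega

theorem trap_subset_par (m : ℕ) : trap m ⊆ par 0 (4 * m) 0 (2 * m) := filter_subset _ _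

theorem le_lrCross_double {m : ℕ} (hm : 1 ≤ m) :
    1 / 512 ≤ pr (par 0 (4 * m) 0 (2 * m)) (lrCross 0 (4 * m) 0 (2 * m)) := by
  set R : Finset Site := par 0 (4 * m) 0 (2 * m) with hR
  set E₁ : Set (Set Site) := trapCross m with hE₁
  set E₂ : Set (Set Site) := {η | ∃ u v, Conn (η ∩ (↑R ∩ {x | 2 * (m : ℤ) ≤ x.1 + x.2})) u v ∧
    u.1 + u.2 = 2 * (m : ℤ) ∧ v.1 = 4 * (m : ℤ)} with hE₂
  set E₃ : Set (Set Site) := {η | ∃ u v, Conn (η ∩ ↑(mid m)) u v ∧ u.2 = 0 ∧
    v.2 = 2 * (m : ℤ)} with hE₃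
  have u₂ : IsUpperSet E₂ :=
    fun _ _ hle ⟨u, v, h, hu, hv⟩ => ⟨u, v, h.mono (Set.inter_subset_inter_left _ hle), hu, hv⟩
  have u₃ : IsUpperSet E₃ :=
    fun _ _ hle ⟨u, v, h, hu, hv⟩ => ⟨u, v, h.mono (Set.inter_subset_inter_left _ hle), hu, hv⟩
  have p₁ : 1 / 16 ≤ pr R E₁ := by
    rw [pr_mono_sites (trap_subset_par m) (depOn_trapCross m)]
    exact le_trapCross hm
  have p₂ : 1 / 16 ≤ pr R E₂ := by
    refine p₁.trans (pr_le_map (turn m) (fun x => ?_) fun s _ ⟨u, v, h, hu, hv⟩ => ?_)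
    · simp [hR, mem_par, turn]
      omega
    · refine ⟨turn m v, turn m u, (h.map (f := turn m)
        (S' := turn m '' ↑s ∩ (↑R ∩ {x | 2 * (m : ℤ) ≤ x.1 + x.2})) (fun x y hxy => ?_) fun x hx =>
        ⟨Set.mem_image_of_mem _ hx.1, ?_⟩).symm, ?_, ?_⟩
      · simp only [Adj, turn, Equiv.coe_fn_mk] at *
        omega
      · have := mem_trap.1 (Finset.mem_coe.1 hx.2)
        simp [hR, mem_par, turn]
        omega
      · simp [turn]
        omega
      · simp [turn, hu]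
  have p₃ : 1 / 2 ≤ pr R E₃ := by
    have hdep : DepOn ↑(mid m) E₃ := fun _ _ he ⟨u, v, h, hu, hv⟩ =>
      ⟨u, v, h.mono fun x hx => ⟨(he x hx.2).1 hx.1, hx.2⟩, hu, hv⟩
    rw [pr_mono_sites (filter_subset _ _) hdep]
    calc (1 : ℝ) / 2 = pr (par 0 (2 * m : ℤ) 0 (2 * m)) (btCross 0 (2 * m) 0 (2 * m)) := by
          rw [← pr_lrCross_eq_btCross]
          simpa using (pr_lrCross_rhombus 0 (2 * m)).symm
      _ ≤ pr (mid m) E₃ := by
          refine pr_le_map (slant m) (fun x => ?_) fun s _ ⟨u, v, h, hu, hv⟩ => ?_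
          · simp only [mem_mid, mem_par, slant, Equiv.coe_fn_mk]
            omega
          · refine ⟨slant m v, slant m u, (h.map (f := slant m)
              (S' := slant m '' ↑s ∩ ↑(mid m)) (fun x y hxy => ?_) fun x hx =>
              ⟨Set.mem_image_of_mem _ hx.1, ?_⟩).symm, ?_, ?_⟩
            · simp only [Adj, slant, Equiv.coe_fn_mk] at *
              omega
            · have := mem_par.1 (Finset.mem_coe.1 hx.2)
              simp only [Finset.mem_coe, mem_mid, slant, Equiv.coe_fn_mk]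
              omega
            · simp [slant, hv]
            · simp [slant, hu]
  have hsub : E₁ ∩ E₂ ∩ E₃ ⊆ lrCross 0 (4 * m) 0 (2 * m) := by
    rintro η ⟨⟨⟨a, b, h₁, ha, hb⟩, c, d, h₂, hc, hd⟩, e, f, h₃, he, hf⟩
    have hbt := mem_trap.1 (Finset.mem_coe.1 h₁.right_mem.2)
    have hct := mem_par.1 (Finset.mem_coe.1 h₂.left_mem.2.1)
    have key₁ : ∃ x, Conn (η ∩ ↑R) a x ∧ Conn (η ∩ ↑(mid m)) e x := by
      obtain ⟨x, hx, hx'⟩ := exists_meet (x₀ := 0) (x₁ := 4 * m) (y₀ := 0) (y₁ := 2 * m)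
        (S := {x | Conn (η ∩ ↑(trap m)) a x} ∪ {x | x.2 = b.2 ∧ b.1 ≤ x.1 ∧ x.1 ≤ 4 * (m : ℤ)})
        (S' := {x | Conn (η ∩ ↑(mid m)) e x})
        (fun x hx => by
          rcases hx with hx | hx
          · have := mem_trap.1 (Finset.mem_coe.1 hx.right_mem.2)
            omega
          · simp only [Set.mem_ofPred_eq] at hx
            omega)
        (fun x hx => by
          have := mem_mid.1 (Finset.mem_coe.1 hx.right_mem.2)
          omega)
        ((h₁.cluster.mono Set.subset_union_left).trans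
          ((conn_row (a' := 4 * (m : ℤ)) b.2 (by omega)).mono fun x hx => Or.inr hx))
        ha.le le_rfl h₃.cluster he.le hf.ge
      refine ⟨x, ?_, hx'⟩
      have hsub' : η ∩ ↑(trap m) ⊆ η ∩ ↑R :=
        Set.inter_subset_inter_right _ (Finset.coe_subset.2 (trap_subset_par m))
      rcases hx with hx | hx
      · exact hx.mono hsub'
      · by_cases hxb : x.1 = b.1
        · obtain rfl : x = b := Prod.ext hxb hx.1
          exact h₁.mono hsub'
        · have := mem_mid.1 (Finset.mem_coe.1 hx'.right_mem.2)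
          simp only [Set.mem_ofPred_eq] at hx
          omega
    have key₂ : ∃ x, Conn (η ∩ ↑R) x d ∧ Conn (η ∩ ↑(mid m)) e x := by
      obtain ⟨x, hx, hx'⟩ := exists_meet (x₀ := 0) (x₁ := 4 * m) (y₀ := 0) (y₁ := 2 * m)
        (S := {x | Conn (η ∩ (↑R ∩ {x | 2 * (m : ℤ) ≤ x.1 + x.2})) c x} ∪
          {x | x.2 = c.2 ∧ 0 ≤ x.1 ∧ x.1 ≤ c.1})
        (S' := {x | Conn (η ∩ ↑(mid m)) e x})
        (fun x hx => by
          rcases hx with hx | hx
          · have := mem_par.1 (Finset.mem_coe.1 hx.right_mem.2.1)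
            omega
          · simp only [Set.mem_ofPred_eq] at hx
            omega)
        (fun x hx => by
          have := mem_mid.1 (Finset.mem_coe.1 hx.right_mem.2)
          omega)
        (((conn_row (a := 0) c.2 hct.1.1).mono fun x hx => Or.inr hx).trans
          (h₂.cluster.mono Set.subset_union_left))
        le_rfl hd.ge h₃.cluster he.le hf.ge
      refine ⟨x, ?_, hx'⟩
      have hsub' : η ∩ (↑R ∩ {x | 2 * (m : ℤ) ≤ x.1 + x.2}) ⊆ η ∩ ↑R :=
        Set.inter_subset_inter_right _ Set.inter_subset_left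
      rcases hx with hx | hx
      · exact (hx.symm.trans h₂).mono hsub'
      · by_cases hxc : x.1 = c.1
        · obtain rfl : x = c := Prod.ext hxc hx.1
          exact h₂.mono hsub'
        · have := mem_mid.1 (Finset.mem_coe.1 hx'.right_mem.2)
          simp only [Set.mem_ofPred_eq] at hx
          omega
    obtain ⟨x, hax, hex⟩ := key₁
    obtain ⟨y, hyd, hey⟩ := key₂
    exact ⟨a, d, hax.trans (((hex.symm.trans hey).mono (Set.inter_subset_inter_right _
      (Finset.coe_subset.2 (filter_subset _ _)))).trans hyd), ha, hd⟩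
  have h12 := pr_harris (D := R) (isUpperSet_trapCross m) u₂
  have h123 := pr_harris (D := R) ((isUpperSet_trapCross m).inter u₂) u₃
  have h' := pr_mono (D := R) fun s _ hs => hsub hs
  calc (1 : ℝ) / 512 = 1 / 16 * (1 / 16) * (1 / 2) := by norm_num
    _ ≤ pr R E₁ * pr R E₂ * pr R E₃ :=
        mul_le_mul (mul_le_mul p₁ p₂ (by norm_num) (pr_nonneg _ _)) p₃ (by norm_num)
          (mul_nonneg (pr_nonneg _ _) (pr_nonneg _ _))
    _ ≤ _ := ((mul_le_mul_of_nonneg_right h12 (pr_nonneg _ _)).trans h123).trans h'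

/-- Crossings of overlapping parallelograms joined by an upright one. -/
theorem lrCross_glue {a b c d y₀ y₁ : ℤ} (hab : a ≤ b) (hcd : c ≤ d) :
    lrCross a c y₀ y₁ ∩ btCross b c y₀ y₁ ∩ lrCross b d y₀ y₁ ⊆ lrCross a d y₀ y₁ := by
  rintro η ⟨⟨⟨u, v, h, hu, hv⟩, e, f, h', he, hf⟩, u₂, v₂, h₂, hu₂, hv₂⟩
  obtain ⟨x, hx, hx'⟩ := exists_meet (x₀ := b) (x₁ := c) (fun x hx => (mem_par.1 hx.right_mem.2).2)
    (fun x hx => (mem_par.1 hx.right_mem.2).1) h.cluster (hu.le.trans hab) hv.ge h'.cluster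
    he.le hf.ge
  obtain ⟨y, hy, hy'⟩ := exists_meet (x₀ := b) (x₁ := c) (fun x hx => (mem_par.1 hx.right_mem.2).2)
    (fun x hx => (mem_par.1 hx.right_mem.2).1) h₂.cluster hu₂.le (hcd.trans hv₂.ge)
    h'.cluster he.le hf.ge
  have m₁ : η ∩ ↑(par a c y₀ y₁) ⊆ η ∩ ↑(par a d y₀ y₁) := fun z hz => ⟨hz.1, by
    have := mem_par.1 hz.2
    exact mem_par.2 (by omega)⟩
  have m₂ : η ∩ ↑(par b c y₀ y₁) ⊆ η ∩ ↑(par a d y₀ y₁) := fun z hz => ⟨hz.1, by
    have := mem_par.1 hz.2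
    exact mem_par.2 (by omega)⟩
  have m₃ : η ∩ ↑(par b d y₀ y₁) ⊆ η ∩ ↑(par a d y₀ y₁) := fun z hz => ⟨hz.1, by
    have := mem_par.1 hz.2
    exact mem_par.2 (by omega)⟩
  exact ⟨u, v₂, ((hx.mono m₁).trans ((hx'.symm.trans hy').mono m₂)).trans
    ((hy.symm.trans h₂).mono m₃), hu, hv₂⟩

/-- The translation by a site. -/
def shift (z : Site) : Site ≃ Site := Equiv.addLeft z

theorem adj_shift {z p q : Site} (h : Adj p q) : Adj (shift z p) (shift z q) := by
  simp only [Adj, shift, Equiv.coe_addLeft, Prod.fst_add, Prod.snd_add] at *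
  omega

theorem pr_lrCross_shift_le (z : Site) {a b c d : ℤ} :
    pr (par a b c d) (lrCross a b c d) ≤
      pr (par (z.1 + a) (z.1 + b) (z.2 + c) (z.2 + d))
        (lrCross (z.1 + a) (z.1 + b) (z.2 + c) (z.2 + d)) := by
  refine pr_le_map (shift z) (fun x => by simp [mem_par, shift]) fun s _ ⟨u, v, h, hu, hv⟩ => ?_
  refine ⟨_, _, h.map (fun _ _ => adj_shift) fun x hx => ⟨Set.mem_image_of_mem _ hx.1, ?_⟩,
    by simp [shift, hu], by simp [shift, hv]⟩
  have := mem_par.1 hx.2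
  simp only [Finset.mem_coe, mem_par, shift, Equiv.coe_addLeft, Prod.fst_add, Prod.snd_add]
  omega

theorem lrCross_shorter {a b b' c d c' d' : ℤ} (hab : a ≤ b) (hb : b ≤ b') (hc : c' ≤ c)
    (hd : d ≤ d') : lrCross a b' c d ⊆ lrCross a b c' d' := by
  rintro η ⟨u, v, h, hu, hv⟩
  obtain ⟨x, hux, hx, rfl | ⟨y, hyx, huy⟩⟩ :=
    h.first_visit (P := fun x => b ≤ x.1) (hv ▸ hb)
  · have := mem_par.1 hux.left_mem.2
    refine ⟨x, x, Conn.refl (S := η ∩ ↑(par a b c' d')) ⟨hux.left_mem.1, mem_par.2 ?_⟩, hu, ?_⟩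
    · omega
    · omega
  · have hx' := mem_par.1 hux.right_mem.2
    have hy' := huy.right_mem.2
    have e : x.1 = b := by
      simp only [Adj] at hyx
      omega
    refine ⟨u, x, (huy.mono (S' := η ∩ ↑(par a b c' d')) fun z hz =>
      ⟨hz.1.1, mem_par.2 ?_⟩).step hyx
      ⟨hux.right_mem.1, mem_par.2 ?_⟩, hu, e⟩
    · have := mem_par.1 hz.1.2
      have := hz.2
      omega
    · omega

theorem le_lrCross_long {m : ℕ} (hm : 1 ≤ m) (j : ℕ) :
    (1 / 512) * (1 / 1024) ^ j ≤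
      pr (par 0 (2 * m * (j + 2) : ℤ) 0 (2 * m)) (lrCross 0 (2 * m * (j + 2)) 0 (2 * m)) := by
  induction j with
  | zero =>
    have e : (2 * (m : ℤ) * ((0 : ℕ) + 2 : ℤ)) = 4 * m := by ring
    rw [e, pow_zero, mul_one]
    exact le_lrCross_double hm
  | succ j ih =>
    set b : ℤ := 2 * m * (j + 1) with hb
    set c : ℤ := 2 * m * (j + 2) with hc
    set d : ℤ := 2 * m * ((j + 1 : ℕ) + 2) with hd
    have h0 : (0 : ℤ) ≤ m * (j : ℤ) := by positivity
    have hbc : b + 2 * m = c := by rw [hb, hc]; ring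
    have hbd : b + 4 * m = d := by rw [hb, hd]; push_cast; ring
    have hb0 : 0 ≤ b := by rw [hb]; positivity
    have mono : ∀ {x y : ℤ}, 0 ≤ x → y ≤ d → par x y 0 (2 * m : ℤ) ⊆ par 0 d 0 (2 * m) :=
      fun hx hy z hz => by
        rw [mem_par] at hz ⊢
        omega
    have q₁ : (1 / 512) * (1 / 1024) ^ j ≤ pr (par 0 d 0 (2 * m)) (lrCross 0 c 0 (2 * m)) := by
      rw [pr_mono_sites (mono le_rfl (by omega)) depOn_lrCross]
      exact ih
    have q₂ : 1 / 2 ≤ pr (par 0 d 0 (2 * m)) (btCross b c 0 (2 * m)) := by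
      rw [pr_mono_sites (mono hb0 (by omega)) depOn_btCross, ← pr_lrCross_eq_btCross]
      have h := pr_lrCross_shift_le (0, b) (a := 0) (b := 2 * m) (c := 0) (d := 2 * m)
      simp only [zero_add, add_zero, hbc] at h
      refine le_trans (le_of_eq ?_) h
      simpa using (pr_lrCross_rhombus 0 (2 * m)).symm
    have q₃ : 1 / 512 ≤ pr (par 0 d 0 (2 * m)) (lrCross b d 0 (2 * m)) := by
      rw [pr_mono_sites (mono hb0 le_rfl) depOn_lrCross]
      have h := pr_lrCross_shift_le (b, 0) (a := 0) (b := 4 * m) (c := 0) (d := 2 * m)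
      simp only [zero_add, add_zero, hbd] at h
      exact (le_lrCross_double hm).trans h
    have h12 := pr_harris (D := par 0 d 0 (2 * m)) (isUpperSet_lrCross (x₀ := 0) (x₁ := c)
      (y₀ := 0) (y₁ := 2 * m)) (isUpperSet_btCross (x₀ := b) (x₁ := c) (y₀ := 0) (y₁ := 2 * m))
    have h123 := pr_harris (D := par 0 d 0 (2 * m))
      ((isUpperSet_lrCross (x₀ := 0) (x₁ := c) (y₀ := 0) (y₁ := 2 * m)).inter
      (isUpperSet_btCross (x₀ := b) (x₁ := c) (y₀ := 0) (y₁ := 2 * m)))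
      (isUpperSet_lrCross (x₀ := b) (x₁ := d) (y₀ := 0) (y₁ := 2 * m))
    have h' := pr_mono (D := par 0 d 0 (2 * m)) fun s _ hs =>
      lrCross_glue hb0 (by omega : c ≤ d) (y₀ := 0) (y₁ := 2 * m) hs
    calc (1 / 512 : ℝ) * (1 / 1024) ^ (j + 1) = (1 / 512) * (1 / 1024) ^ j * (1 / 2) * (1 / 512) :=
          by ring
      _ ≤ _ := mul_le_mul (mul_le_mul q₁ q₂ (by norm_num) (pr_nonneg _ _)) q₃ (by norm_num)
          (mul_nonneg (pr_nonneg _ _) (pr_nonneg _ _))
      _ ≤ _ := ((mul_le_mul_of_nonneg_right h12 (pr_nonneg _ _)).trans h123).trans h'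

theorem half_pow_le_lrCross (x₀ y₀ : ℤ) (N M : ℕ) :
    (1 / 2 : ℝ) ^ (N + 1) ≤
      pr (par x₀ (x₀ + N) y₀ (y₀ + M)) (lrCross x₀ (x₀ + N) y₀ (y₀ + M)) := by
  have hsub : par x₀ (x₀ + N) y₀ y₀ ⊆ par x₀ (x₀ + N) y₀ (y₀ + M) := fun z hz => by
    rw [mem_par] at hz ⊢
    omega
  set row := par x₀ (x₀ + N) y₀ y₀ with hrow
  have hcard : row.card = N + 1 := by
    simp [hrow, par, Int.card_Icc]
    omega
  calc (1 / 2 : ℝ) ^ (N + 1) = pr row {η : Set Site | (↑row : Set Site) ⊆ η} := by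
        have e : confs row {η : Set Site | (↑row : Set Site) ⊆ η} = {row} := by
          ext s
          simp only [mem_confs, Set.mem_ofPred_eq, Finset.coe_subset, Finset.mem_singleton]
          exact ⟨fun h => Subset.antisymm h.1 h.2, fun h => h ▸ ⟨subset_rfl, subset_rfl⟩⟩
        rw [pr, e, card_singleton, hcard, one_div_pow, Nat.cast_one]
    _ = pr (par x₀ (x₀ + N) y₀ (y₀ + M)) {η : Set Site | (↑row : Set Site) ⊆ η} :=
        (pr_mono_sites hsub (A := {η : Set Site | (↑row : Set Site) ⊆ η})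
          (fun η η' he (h : (↑row : Set Site) ⊆ η) x hx => (he x hx).1 (h hx))).symm
    _ ≤ pr (par x₀ (x₀ + N) y₀ (y₀ + M)) (lrCross x₀ (x₀ + N) y₀ (y₀ + M)) := by
        refine pr_mono fun s _ h => ⟨(x₀, y₀), (x₀ + N, y₀),
          (conn_row y₀ (by omega)).mono fun x hx => ?_, rfl, rfl⟩
        have hxr : x ∈ row := by
          simp only [Set.mem_ofPred_eq] at hx
          rw [hrow, mem_par]
          omega
        exact ⟨h (Finset.mem_coe.2 hxr), hsub hxr⟩

/-- **The theorem of Russo, Seymour and Welsh.** -/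
theorem exists_lrCross_lower (k : ℕ) : ∃ c : ℝ, 0 < c ∧ ∀ (x₀ y₀ : ℤ) (n : ℕ),
    c ≤ pr (par x₀ (x₀ + k * n) y₀ (y₀ + n)) (lrCross x₀ (x₀ + k * n) y₀ (y₀ + n)) := by
  refine ⟨min ((1 / 2) ^ (k + 1)) ((1 / 512) * (1 / 1024) ^ (2 * k)),
    lt_min (by positivity) (by positivity), fun x₀ y₀ n => ?_⟩
  rcases le_or_gt n 1 with hn | hn
  · refine le_trans (min_le_left _ _) (le_trans ?_
      (by exact_mod_cast half_pow_le_lrCross x₀ y₀ (k * n) n))
    exact pow_le_pow_of_le_one (by norm_num) (by norm_num) (by nlinarith)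
  obtain ⟨m, hm, hm₁, hm₂⟩ : ∃ m : ℕ, 1 ≤ m ∧ 2 * m ≤ n ∧ n ≤ 2 * m + 1 :=
    ⟨n / 2, by omega, by omega, by omega⟩
  have hk : (k : ℤ) * n ≤ 2 * m * ((2 * k : ℕ) + 2) := by
    push_cast
    nlinarith
  have hmn : (2 * (m : ℤ)) ≤ n := by omega
  have hlong := (le_lrCross_long hm (2 * k)).trans
    (pr_lrCross_shift_le (x₀, y₀) (a := 0) (b := 2 * m * ((2 * k : ℕ) + 2)) (c := 0) (d := 2 * m))
  simp only [add_zero] at hlong
  set B : ℤ := x₀ + 2 * m * ((2 * k : ℕ) + 2) with hB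
  set big := par x₀ B y₀ (y₀ + n) with hbig
  refine (min_le_right _ _).trans (hlong.trans ?_)
  have hkn : (0 : ℤ) ≤ k * n := by positivity
  rw [← pr_mono_sites (D' := big) (fun z hz => by
      rw [hbig, mem_par] at *
      omega) depOn_lrCross,
    ← pr_mono_sites (D := par x₀ (x₀ + k * n) y₀ (y₀ + n)) (D' := big) (fun z hz => by
      rw [hbig, mem_par] at *
      omega) depOn_lrCross]
  exact pr_mono fun s _ hs =>
    lrCross_shorter (by omega) (by omega) le_rfl (by omega) hs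

end FA.Cardy
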