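import Fermat.Agent.Cardy.Observable

/-!
# The rotation of the triangle

A third of a turn carries configurations to configurations and corners to corners.
-/

set_option autoImplicit false

noncomputable section

open Finset
open scoped Classical

namespace FA.Cardy

/-- The rotation of sites. -/
def rotSite (N : ℕ) : Site ≃ Site where
  toFun w := ((N : ℤ) - w.1 - w.2, w.1)
  invFun w := (w.2, (N : ℤ) - w.1 - w.2)
  left_inv w := Prod.ext rfl (by simp only; omega)
  right_inv w := Prod.ext (by simp only; omega) rfl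

/-- The rotation of edges. -/
def rotEdge (N : ℕ) : Edge ≃ Edge where
  toFun e := (((N : ℤ) - 1 - e.1.1 - e.1.2, e.1.1), e.2 + 1)
  invFun e := ((e.1.2, (N : ℤ) - 1 - e.1.1 - e.1.2), e.2 - 1)
  left_inv e := by
    obtain ⟨⟨a, b⟩, i⟩ := e
    simp only [add_sub_cancel_right, Prod.mk.injEq, true_and, and_true]
    omega
  right_inv e := by
    obtain ⟨⟨a, b⟩, i⟩ := e
    simp only [sub_add_cancel, Prod.mk.injEq, and_true]
    omega

/-- The rotation of halves. -/
def rotHalf (N : ℕ) : Half ≃ Half := (rotEdge N).prodCongr (Equiv.refl Bool)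

/-- The rotation of faces. -/
def rotFace (N : ℕ) : Face ≃ Face where
  toFun F := (((N : ℤ) - (if F.2 then 1 else 2) - F.1.1 - F.1.2, F.1.1), F.2)
  invFun F := ((F.1.2, (N : ℤ) - (if F.2 then 1 else 2) - F.1.1 - F.1.2), F.2)
  left_inv F := by
    obtain ⟨⟨a, b⟩, s⟩ := F
    simp only [Prod.mk.injEq, true_and, and_true]
    omega
  right_inv F := by
    obtain ⟨⟨a, b⟩, s⟩ := F
    simp only [Prod.mk.injEq, and_true]
    omega

theorem rotHalf_mk (N : ℕ) (e : Edge) (s : Bool) : rotHalf N (e, s) = (rotEdge N e, s) := rfl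

theorem rot_faceOf (N : ℕ) (h : Half) : faceOf (rotHalf N h) = rotFace N (faceOf h) := by
  obtain ⟨⟨⟨a, b⟩, i⟩, s⟩ := h
  fin_cases i <;> cases s <;>
    simp [faceOf, rotHalf, rotEdge, rotFace, corner] <;> omega

theorem rot_halfAt (N : ℕ) (F : Face) (i : Fin 3) :
    rotHalf N (halfAt F i) = halfAt (rotFace N F) (i + 1) := by
  obtain ⟨⟨a, b⟩, s⟩ := F
  fin_cases i <;> cases s <;>
    simp [halfAt, rotHalf, rotEdge, rotFace, corner] <;> omega

theorem rot_vert (N : ℕ) (F : Face) (i : Fin 3) :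
    rotSite N (vert F i) = vert (rotFace N F) (i + 1) := by
  obtain ⟨⟨a, b⟩, s⟩ := F
  fin_cases i <;> cases s <;>
    simp [vert, rotSite, rotFace, corner] <;> omega

theorem rot_mem_edges {N : ℕ} {e : Edge} : rotEdge N e ∈ edges N ↔ e ∈ edges N := by
  simp only [mem_edges, rotEdge, Equiv.coe_fn_mk]
  omega

theorem rot_faceIn {N : ℕ} {F : Face} : FaceIn N (rotFace N F) ↔ FaceIn N F := by
  obtain ⟨⟨a, b⟩, s⟩ := F
  cases s <;> simp [FaceIn, rotFace] <;> omega

theorem rot_mem_halves {N : ℕ} {h : Half} : rotHalf N h ∈ halves N ↔ h ∈ halves N := by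
  rw [mem_halves, mem_halves, rot_faceOf, rot_faceIn]

theorem rot_mem_inner {N : ℕ} {w : Site} : rotSite N w ∈ inner N ↔ w ∈ inner N := by
  simp only [mem_inner, rotSite, Equiv.coe_fn_mk]
  omega

theorem rot_cornerEdge (N : ℕ) (k : Fin 3) :
    rotEdge N (cornerEdge N k) = cornerEdge N (k + 1) := by
  fin_cases k <;> simp [cornerEdge, rotEdge]

/-- A configuration turned. -/
def rotConf (N : ℕ) (ω : Finset Half) : Finset Half := ω.map (rotHalf N).toEmbedding

theorem mem_rotConf {N : ℕ} {ω : Finset Half} {h : Half} :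
    rotHalf N h ∈ rotConf N ω ↔ h ∈ ω := by
  simp [rotConf]

theorem rot_defects (N : ℕ) (z : Edge) :
    (defects N z).map (rotEdge N).toEmbedding = defects N (rotEdge N z) := by
  have h2 : (2 : Fin 3) + 1 = 0 := by decide
  ext e
  simp only [defects, Finset.map_insert, Finset.map_singleton, Equiv.toEmbedding_apply,
    rot_cornerEdge, zero_add, h2, show (1 : Fin 3) + 1 = 2 from rfl, Finset.mem_insert,
    Finset.mem_singleton]
  tauto

theorem valid_rot {N : ℕ} {D : Finset Edge} {ω : Finset Half} :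
    Valid N (D.map (rotEdge N).toEmbedding) (rotConf N ω) ↔ Valid N D ω := by
  have hb : ∀ h, bit (rotConf N ω) (rotHalf N h) = bit ω h := fun h => by
    simp [bit, mem_rotConf]
  have hD : ∀ e, bit (D.map (rotEdge N).toEmbedding) (rotEdge N e) = bit D e := fun e => by
    simp [bit]
  refine and_congr ⟨fun h x hx => ?_, fun h x hx => ?_⟩ (and_congr ?_ ?_)
  · exact rot_mem_halves.1 (h (mem_rotConf.2 hx))
  · obtain ⟨y, hy, rfl⟩ := Finset.mem_map.1 hx
    exact rot_mem_halves.2 (h hy)
  · refine (Equiv.forall_congr (rotFace N) fun F => ?_).symm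
    have e : ∀ i, bit (rotConf N ω) (halfAt (rotFace N F) (i + 1)) = bit ω (halfAt F i) :=
      fun i => by rw [← rot_halfAt, hb]
    rw [← e 0, ← e 1, ← e 2]
    have h2 : (2 : Fin 3) + 1 = 0 := by decide
    simp only [zero_add, h2, show (1 : Fin 3) + 1 = 2 from rfl]
    constructor <;> intro h <;> linear_combination h
  · refine (Equiv.forall_congr (rotEdge N) fun e => ?_).symm
    rw [← rotHalf_mk, ← rotHalf_mk, hb, hb, hD]

theorem mate_rot (N : ℕ) (ω : Finset Half) (h : Half) :
    mate (rotConf N ω) (rotHalf N h) = rotHalf N (mate ω h) := by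
  have e : ∀ j, halfAt (faceOf (rotHalf N h)) ((rotHalf N h).1.2 + j) =
      rotHalf N (halfAt (faceOf h) (h.1.2 + j)) := fun j => by
    rw [rot_faceOf, rot_halfAt, add_right_comm]
    rfl
  unfold mate
  simp only [e, mem_rotConf]
  split_ifs <;> rfl

theorem across_rot (N : ℕ) (ω : Finset Half) (h : Half) :
    across (rotConf N ω) (rotHalf N h) = rotHalf N (across ω h) := by
  obtain ⟨e, s⟩ := h
  have h' : ∀ u, (rotEdge N e, u) ∈ rotConf N ω ↔ (e, u) ∈ ω := fun u =>
    mem_rotConf (h := (e, u))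
  by_cases hc : (e, s) ∈ ω ∧ (e, !s) ∈ ω
  · simp [across, rotHalf_mk, h', hc]
  · simp [across, rotHalf_mk, h', hc]

theorem EndsAt.map {α β : Type*} {m r : α → α} {m' r' : β → β} {f : α → β}
    (hf : Function.Injective f) (hm : ∀ x, m' (f x) = f (m x)) (hr : ∀ x, r' (f x) = f (r x))
    {h t : α} (h₁ : EndsAt m r h t) : EndsAt m' r' (f h) (f t) := by
  have e : ∀ k, (r' ∘ m')^[k] (f h) = f ((r ∘ m)^[k] h) := fun k => by
    induction k with
    | zero => rfl
    | succ k ih => rw [strand_succ, ih, hm, hr, strand_succ]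
  obtain ⟨n, hn, hfix, rfl⟩ := h₁
  refine ⟨n, fun k hk => ?_, ?_, ?_⟩
  · rw [e, hm, hr]
    exact fun he => hn k hk (hf he)
  · rw [e, hm, hr, hfix]
  · rw [e, hm]

theorem joins_rot {N : ℕ} {ω : Finset Half} {x y : Edge} (h : Joins ω x y) :
    Joins (rotConf N ω) (rotEdge N x) (rotEdge N y) := by
  obtain ⟨t, ht, rfl⟩ := h
  refine ⟨rotHalf N t, ?_, rfl⟩
  have hd : defectHalf (rotConf N ω) (rotEdge N x) = rotHalf N (defectHalf ω x) := by
    simp [defectHalf, ← rotHalf_mk, mem_rotConf]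
  rw [hd]
  exact ht.map (rotHalf N).injective (mate_rot N ω) (across_rot N ω)

theorem regular_rot {N : ℕ} {z : Edge} (hz : Regular N z) : Regular N (rotEdge N z) := by
  refine ⟨rot_mem_edges.2 hz.1, fun k h => hz.2 (k - 1) ((rotEdge N).injective ?_)⟩
  rw [h, rot_cornerEdge, sub_add_cancel]

/-- The observable turns with the triangle. -/
theorem obs_rot (N : ℕ) (k : Fin 3) {z : Edge} :
    obs N (k + 1) (rotEdge N z) = obs N k z := by
  rw [obs, obs]
  congr 2
  symm
  refine card_bij (fun ω _ => rotConf N ω) (fun ω hω => ?_) (fun a _ b _ h => ?_) fun ω hω => ?_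
  · obtain ⟨h1, h2⟩ := Finset.mem_filter.1 hω
    refine Finset.mem_filter.2 ⟨mem_confSet.2 ?_, ?_⟩
    · rw [← rot_defects]
      exact valid_rot.2 (mem_confSet.1 h1)
    · rw [← rot_cornerEdge]
      exact joins_rot h2
  · exact Finset.map_injective _ h
  · obtain ⟨h1, h2⟩ := Finset.mem_filter.1 hω
    obtain ⟨ω₀, rfl⟩ : ∃ ω₀, rotConf N ω₀ = ω := ⟨ω.map (rotHalf N).symm.toEmbedding, by
      simp [rotConf, Finset.map_map]⟩
    have hv : Valid N (defects N z) ω₀ := valid_rot.1 (by
      rw [rot_defects]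
      exact mem_confSet.1 h1)
    obtain ⟨j, hj, -⟩ := existsUnique_joins hv
    have hj' := joins_rot (N := N) hj
    rw [rot_cornerEdge] at hj'
    obtain rfl : j = k :=
      add_right_cancel ((existsUnique_joins (mem_confSet.1 h1)).unique hj' h2)
    exact ⟨ω₀, Finset.mem_filter.2 ⟨mem_confSet.2 hv, hj⟩, rfl⟩

end FA.Cardy
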