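import Mathlib.Combinatorics.SetFamily.FourFunctions
import Mathlib.Logic.Relation
import Mathlib.Data.Real.Basic
import Mathlib.Data.Finset.Image
import Mathlib.Algebra.BigOperators.Field
import Mathlib.Algebra.BigOperators.Ring.Finset
import Mathlib.Algebra.Order.BigOperators.Group.Finset
import Mathlib.Tactic.Ring
import Mathlib.Tactic.Linarith

/-!
# Sites of the triangular lattice

The triangular lattice in oblique coordinates, connections inside a set of sites, and critical
site percolation on a finite set of sites: every configuration has the same weight.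
-/

set_option autoImplicit false

noncomputable section

open Finset
open scoped Classical FinsetFamily

namespace FA.Cardy

/-- A site of the triangular lattice, in oblique coordinates. -/
abbrev Site : Type := ℤ × ℤ

/-- The six neighbours of a site. -/
def Adj (u v : Site) : Prop :=
  (u.1 ≠ v.1 ∨ u.2 ≠ v.2) ∧ u.1 ≤ v.1 + 1 ∧ v.1 ≤ u.1 + 1 ∧ u.2 ≤ v.2 + 1 ∧ v.2 ≤ u.2 + 1 ∧
    u.1 + u.2 ≤ v.1 + v.2 + 1 ∧ v.1 + v.2 ≤ u.1 + u.2 + 1

theorem adj_comm {u v : Site} : Adj u v ↔ Adj v u := by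
  simp only [Adj]
  omega

theorem Adj.symm {u v : Site} (h : Adj u v) : Adj v u := adj_comm.1 h

/-- `v` is joined to `u` by a walk inside `S`. -/
def Conn (S : Set Site) (u v : Site) : Prop :=
  u ∈ S ∧ Relation.ReflTransGen (fun x y => Adj x y ∧ y ∈ S) u v

variable {S S' : Set Site} {u v w : Site}

theorem Conn.refl (h : u ∈ S) : Conn S u u := ⟨h, Relation.ReflTransGen.refl⟩

theorem Conn.left_mem (h : Conn S u v) : u ∈ S := h.1

theorem Conn.trans (h : Conn S u v) (h' : Conn S v w) : Conn S u w := ⟨h.1, h.2.trans h'.2⟩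

/-- Induction along a walk. -/
theorem Conn.induction {P : Site → Prop} (h : Conn S u v) (h0 : P u)
    (step : ∀ x y, Conn S u x → Adj x y → y ∈ S → P x → P y) : P v := by
  obtain ⟨hu, h⟩ := h
  induction h with
  | refl => exact h0
  | tail hab hbc ih => exact step _ _ ⟨hu, hab⟩ hbc.1 hbc.2 ih

theorem Conn.right_mem (h : Conn S u v) : v ∈ S :=
  h.induction (P := fun x => x ∈ S) h.1 fun _ _ _ _ hy _ => hy

theorem Conn.step (h : Conn S u v) (ha : Adj v w) (hw : w ∈ S) : Conn S u w :=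
  ⟨h.1, h.2.tail ⟨ha, hw⟩⟩

theorem Conn.single (hu : u ∈ S) (ha : Adj u v) (hv : v ∈ S) : Conn S u v :=
  (Conn.refl hu).step ha hv

theorem Conn.symm (h : Conn S u v) : Conn S v u :=
  h.induction (P := fun x => Conn S x u) (Conn.refl h.1) fun _ _ hux ha hy ih =>
    (Conn.single hy ha.symm hux.right_mem).trans ih

theorem Conn.mono (h : Conn S u v) (hS : S ⊆ S') : Conn S' u v :=
  h.induction (P := fun x => Conn S' u x) (Conn.refl (hS h.1)) fun _ _ _ ha hy ih =>
    ih.step ha (hS hy)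

/-- A walk stays inside the set of sites joined to its start. -/
theorem Conn.cluster (h : Conn S u v) : Conn {x | Conn S u x} u v :=
  h.induction (P := fun x => Conn {x | Conn S u x} u x)
    (Conn.refl (S := {x | Conn S u x}) (Conn.refl h.1)) fun _ _ hux ha hy ih =>
    ih.step ha (hux.step ha hy)

/-- The image of a walk. -/
theorem Conn.map {f : Site → Site} (h : Conn S u v)
    (hf : ∀ x y, Adj x y → Adj (f x) (f y)) (hS : ∀ x ∈ S, f x ∈ S') : Conn S' (f u) (f v) :=
  h.induction (P := fun x => Conn S' (f u) (f x)) (Conn.refl (hS u h.1)) fun x y _ ha hy ih =>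
    ih.step (hf x y ha) (hS y hy)

/-- The part of a walk after its last visit to `P`. -/
theorem Conn.last_visit {P : Site → Prop} (h : Conn S u v) (hu : P u) :
    ∃ w, Conn S u w ∧ P w ∧ (w = v ∨ ∃ z, Adj w z ∧ Conn {x ∈ S | ¬ P x} z v) :=
  h.induction
    (P := fun x => ∃ w, Conn S u w ∧ P w ∧ (w = x ∨ ∃ z, Adj w z ∧ Conn {x ∈ S | ¬ P x} z x))
    ⟨u, Conn.refl h.1, hu, Or.inl rfl⟩ fun x y hux ha hy ih => by
    obtain ⟨w, huw, hw, hrest⟩ := ih
    by_cases hPy : P y
    · exact ⟨y, hux.step ha hy, hPy, Or.inl rfl⟩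
    refine ⟨w, huw, hw, Or.inr ?_⟩
    rcases hrest with rfl | ⟨z, hz, hzx⟩
    · exact ⟨y, ha, Conn.refl (S := {x ∈ S | ¬ P x}) ⟨hy, hPy⟩⟩
    · exact ⟨z, hz, hzx.step ha ⟨hy, hPy⟩⟩

/-- The part of a walk before its first visit to `P`. -/
theorem Conn.first_visit {P : Site → Prop} (h : Conn S u v) (hv : P v) :
    ∃ w, Conn S u w ∧ P w ∧ (w = u ∨ ∃ z, Adj z w ∧ Conn {x ∈ S | ¬ P x} u z) := by
  obtain ⟨w, hw, hPw, hrest⟩ := h.symm.last_visit hv
  refine ⟨w, h.trans hw, hPw, hrest.imp id fun ⟨z, hz, hzv⟩ => ⟨z, hz.symm, hzv.symm⟩⟩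

/-! ### Critical percolation on a finite set of sites -/

variable {D D' : Finset Site} {A B : Set (Set Site)}

/-- The configurations of `D` in an event. -/
def confs (D : Finset Site) (A : Set (Set Site)) : Finset (Finset Site) :=
  D.powerset.filter fun s => (↑s : Set Site) ∈ A

/-- The chance of an event when each site of `D` is open or closed with equal chances. -/
def pr (D : Finset Site) (A : Set (Set Site)) : ℝ := ((confs D A).card : ℝ) / 2 ^ D.card

theorem mem_confs {s : Finset Site} : s ∈ confs D A ↔ s ⊆ D ∧ (↑s : Set Site) ∈ A := by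
  simp [confs]

/-- An event depends only on the sites of a set. -/
def DepOn (F : Set Site) (A : Set (Set Site)) : Prop :=
  ∀ ⦃η η' : Set Site⦄, (∀ e ∈ F, (e ∈ η ↔ e ∈ η')) → η ∈ A → η' ∈ A

theorem DepOn.mono {F G : Set Site} (h : DepOn F A) (hFG : F ⊆ G) : DepOn G A :=
  fun _ _ he => h fun e h' => he e (hFG h')

theorem DepOn.iff {F : Set Site} (h : DepOn F A) {η η' : Set Site}
    (he : ∀ e ∈ F, (e ∈ η ↔ e ∈ η')) : η ∈ A ↔ η' ∈ A :=
  ⟨h he, h fun e h' => (he e h').symm⟩

theorem DepOn.compl {F : Set Site} (h : DepOn F A) : DepOn F Aᶜ :=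
  fun _ _ he ha hb => ha (h (fun e h' => (he e h').symm) hb)

theorem DepOn.inter {F : Set Site} (hA : DepOn F A) (hB : DepOn F B) : DepOn F (A ∩ B) :=
  fun _ _ he h => ⟨hA he h.1, hB he h.2⟩

theorem depOn_univ (F : Set Site) : DepOn F Set.univ := fun _ _ _ _ => trivial

theorem pr_nonneg (D : Finset Site) (A : Set (Set Site)) : 0 ≤ pr D A := by
  unfold pr
  positivity

theorem pr_mono (h : ∀ s ⊆ D, (↑s : Set Site) ∈ A → (↑s : Set Site) ∈ B) :
    pr D A ≤ pr D B := by
  refine div_le_div_of_nonneg_right (Nat.cast_le.2 (card_le_card fun s hs => ?_)) (by positivity)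
  exact mem_confs.2 ⟨(mem_confs.1 hs).1, h _ (mem_confs.1 hs).1 (mem_confs.1 hs).2⟩

theorem pr_congr (h : ∀ s ⊆ D, ((↑s : Set Site) ∈ A ↔ (↑s : Set Site) ∈ B)) :
    pr D A = pr D B :=
  le_antisymm (pr_mono fun s hs => (h s hs).1) (pr_mono fun s hs => (h s hs).2)

theorem pr_univ (D : Finset Site) : pr D Set.univ = 1 := by
  simp [pr, confs]

theorem pr_empty (D : Finset Site) : pr D ∅ = 0 := by simp [pr, confs]

theorem pr_compl (D : Finset Site) (A : Set (Set Site)) : pr D Aᶜ = 1 - pr D A := by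
  rw [eq_sub_iff_add_eq, ← pr_univ D, pr, pr, pr, ← add_div, confs, confs, confs, add_comm]
  congr 1
  simp only [Set.mem_compl_iff, Set.mem_univ, filter_true]
  exact_mod_cast card_filter_add_card_filter_not (s := D.powerset) _

theorem pr_le_one (D : Finset Site) (A : Set (Set Site)) : pr D A ≤ 1 := by
  linarith [pr_nonneg D Aᶜ, pr_compl D A]

theorem pr_union_le (D : Finset Site) (A B : Set (Set Site)) :
    pr D (A ∪ B) ≤ pr D A + pr D B := by
  rw [pr, pr, pr, ← add_div]
  refine div_le_div_of_nonneg_right ?_ (by positivity)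
  have h : confs D (A ∪ B) = confs D A ∪ confs D B := by
    ext s
    simp [mem_confs, and_or_left]
  rw [h]
  exact_mod_cast card_union_le _ _

theorem pr_biUnion_le {ι : Type*} (t : Finset ι) (f : ι → Set (Set Site)) :
    pr D (⋃ i ∈ t, f i) ≤ ∑ i ∈ t, pr D (f i) := by
  induction t using Finset.induction with
  | empty => simp [pr_empty]
  | insert a t ha ih =>
    rw [Finset.set_biUnion_insert, sum_insert ha]
    exact (pr_union_le _ _ _).trans (by linarith)

/-- Disjoint events. -/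
theorem sum_pr_le {ι : Type*} (t : Finset ι) (f : ι → Set (Set Site))
    (hd : ∀ i ∈ t, ∀ j ∈ t, ∀ s : Set Site, s ∈ f i → s ∈ f j → i = j)
    (hf : ∀ i ∈ t, f i ⊆ A) : ∑ i ∈ t, pr D (f i) ≤ pr D A := by
  simp only [pr, ← Finset.sum_div, ← Nat.cast_sum]
  refine div_le_div_of_nonneg_right (Nat.cast_le.2 ?_) (by positivity)
  rw [← card_biUnion fun i hi j hj hij => Finset.disjoint_left.2 fun s hs hs' =>
    hij (hd i hi j hj _ (mem_confs.1 hs).2 (mem_confs.1 hs').2)]
  refine card_le_card fun s hs => ?_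
  obtain ⟨i, hi, hs⟩ := Finset.mem_biUnion.1 hs
  exact mem_confs.2 ⟨(mem_confs.1 hs).1, hf i hi (mem_confs.1 hs).2⟩

/-- **Independence.** -/
theorem pr_union_mul (hd : Disjoint D D') (hA : DepOn (↑D) A) (hB : DepOn (↑D') B) :
    pr (D ∪ D') (A ∩ B) = pr D A * pr D' B := by
  have hsub : ∀ {s t : Finset Site}, s ⊆ D → t ⊆ D' →
      ((↑(s ∪ t) : Set Site) ∈ A ↔ (↑s : Set Site) ∈ A) ∧
      ((↑(s ∪ t) : Set Site) ∈ B ↔ (↑t : Set Site) ∈ B) := fun hs ht =>
    ⟨hA.iff fun e he => by
      have hn : e ∉ D' := Finset.disjoint_left.1 hd (Finset.mem_coe.1 he)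
      simp [mt (@ht e) hn],
    hB.iff fun e he => by
      have hn : e ∉ D := Finset.disjoint_right.1 hd (Finset.mem_coe.1 he)
      simp [mt (@hs e) hn]⟩
  rw [pr, pr, pr, div_mul_div_comm, card_union_of_disjoint hd, pow_add, ← Nat.cast_mul,
    ← card_product]
  congr 2
  refine card_nbij' (fun u => (u ∩ D, u ∩ D')) (fun z => z.1 ∪ z.2) (fun u hu => ?_)
    (fun z hz => ?_) (fun u hu => ?_) fun z hz => ?_
  · obtain ⟨h1, h2⟩ := mem_confs.1 hu
    have he : u ∩ D ∪ u ∩ D' = u := by rw [← inter_union_distrib_left, inter_eq_left.2 h1]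
    obtain ⟨a1, a2⟩ := hsub (inter_subset_right (s₁ := u) (s₂ := D))
      (inter_subset_right (s₁ := u) (s₂ := D'))
    rw [he] at a1 a2
    exact mem_product.2 ⟨mem_confs.2 ⟨inter_subset_right, a1.1 h2.1⟩,
      mem_confs.2 ⟨inter_subset_right, a2.1 h2.2⟩⟩
  · obtain ⟨h1, h2⟩ := mem_product.1 hz
    obtain ⟨a1, a2⟩ := hsub (mem_confs.1 h1).1 (mem_confs.1 h2).1
    exact mem_confs.2 ⟨union_subset_union (mem_confs.1 h1).1 (mem_confs.1 h2).1,
      a1.2 (mem_confs.1 h1).2, a2.2 (mem_confs.1 h2).2⟩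
  · show u ∩ D ∪ u ∩ D' = u
    rw [← inter_union_distrib_left, inter_eq_left.2 (mem_confs.1 hu).1]
  · obtain ⟨h1, h2⟩ := mem_product.1 hz
    have e1 := (mem_confs.1 h1).1
    have e2 := (mem_confs.1 h2).1
    refine Prod.ext ?_ ?_ <;> ext e <;> simp only [Finset.mem_inter, Finset.mem_union]
    · exact ⟨fun h => h.1.resolve_right fun h' => Finset.disjoint_left.1 hd h.2 (e2 h'),
        fun h => ⟨Or.inl h, e1 h⟩⟩
    · exact ⟨fun h => h.1.resolve_left fun h' => Finset.disjoint_left.1 hd (e1 h') h.2,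
        fun h => ⟨Or.inr h, e2 h⟩⟩

/-- An event of fewer sites. -/
theorem pr_mono_sites (hD : D ⊆ D') (hA : DepOn (↑D) A) : pr D' A = pr D A := by
  have h := pr_union_mul (Finset.disjoint_sdiff (s := D) (t := D')) hA
    (depOn_univ (↑(D' \ D)))
  rwa [union_sdiff_of_subset hD, Set.inter_univ, pr_univ, mul_one] at h

/-- Independence inside a larger set of sites. -/
theorem pr_inter_mul {E F : Finset Site} (hE : E ⊆ D) (hF : F ⊆ D) (hd : Disjoint E F)
    (hA : DepOn (↑E) A) (hB : DepOn (↑F) B) : pr D (A ∩ B) = pr D A * pr D B := by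
  rw [pr_mono_sites (union_subset hE hF)
      ((hA.mono (coe_subset.2 subset_union_left)).inter
        (hB.mono (coe_subset.2 subset_union_right))),
    pr_union_mul hd hA hB, pr_mono_sites hE hA, pr_mono_sites hF hB]

/-- Comparison by an injective map of configurations. -/
theorem pr_le_of_injOn (hc : D.card = D'.card) (φ : Finset Site → Finset Site)
    (hφ : ∀ s ⊆ D, (↑s : Set Site) ∈ A → φ s ⊆ D' ∧ (↑(φ s) : Set Site) ∈ B)
    (hinj : ∀ s ⊆ D, ∀ t ⊆ D, φ s = φ t → s = t) : pr D A ≤ pr D' B := by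
  rw [pr, pr, hc]
  refine div_le_div_of_nonneg_right (Nat.cast_le.2 ?_) (by positivity)
  refine card_le_card_of_injOn φ (fun s hs => ?_) fun s hs t ht h => ?_
  · exact mem_confs.2 (hφ s (mem_confs.1 hs).1 (mem_confs.1 hs).2)
  · exact hinj s (mem_confs.1 (mem_coe.1 hs)).1 t (mem_confs.1 (mem_coe.1 ht)).1 h

/-- Open and closed exchanged. -/
theorem pr_flip (D : Finset Site) (A : Set (Set Site)) : pr D {η | ↑D \ η ∈ A} = pr D A := by
  apply le_antisymm
  · refine pr_le_of_injOn rfl (fun s => D \ s) (fun s _ h => ⟨sdiff_subset, by simpa using h⟩)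
      fun s hs t ht h => ?_
    rw [← Finset.sdiff_sdiff_eq_self hs, ← Finset.sdiff_sdiff_eq_self ht, h]
  · refine pr_le_of_injOn rfl (fun s => D \ s) (fun s hs h => ⟨sdiff_subset, ?_⟩)
      fun s hs t ht h => ?_
    · show ↑D \ (↑(D \ s) : Set Site) ∈ A
      rw [← Finset.coe_sdiff, Finset.sdiff_sdiff_eq_self hs]
      exact h
    · rw [← Finset.sdiff_sdiff_eq_self hs, ← Finset.sdiff_sdiff_eq_self ht, h]

/-- A relabelling of the sites. -/
theorem pr_le_map (f : Site ≃ Site) (hD : ∀ x, x ∈ D ↔ f x ∈ D')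
    (hA : ∀ s ⊆ D, (↑s : Set Site) ∈ A → f '' (↑s : Set Site) ∈ B) : pr D A ≤ pr D' B := by
  have hmap : D.map f.toEmbedding = D' := by
    ext x
    rw [Finset.mem_map_equiv, hD, Equiv.apply_symm_apply]
  refine pr_le_of_injOn (by rw [← hmap, card_map]) (fun s => s.map f.toEmbedding)
    (fun s hs h => ⟨hmap ▸ Finset.map_subset_map.2 hs, ?_⟩) fun s _ t _ h => ?_
  · rw [Finset.coe_map]
    exact hA s hs h
  · exact Finset.map_injective _ h

/-- **Harris's inequality.** -/
theorem pr_harris (hA : IsUpperSet A) (hB : IsUpperSet B) :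
    pr D A * pr D B ≤ pr D (A ∩ B) := by
  have h := Finset.four_functions_theorem D (f₁ := (1 : Finset Site → ℝ)) (f₂ := 1) (f₃ := 1)
    (f₄ := 1) zero_le_one zero_le_one zero_le_one zero_le_one (fun s _ t _ => le_rfl)
    (𝒜 := confs D A) (ℬ := confs D B) (filter_subset _ _) (filter_subset _ _)
  simp only [Pi.one_apply, sum_const, nsmul_eq_mul, mul_one] at h
  have h1 : ((confs D A ⊼ confs D B).card : ℝ) ≤ 2 ^ D.card := by
    have : (confs D A ⊼ confs D B).card ≤ D.powerset.card := by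
      refine card_le_card fun s hs => ?_
      obtain ⟨a, ha, b, -, rfl⟩ := Finset.mem_infs.1 hs
      exact mem_powerset.2 (inter_subset_left.trans (mem_confs.1 ha).1)
    rw [card_powerset] at this
    exact_mod_cast this
  have h2 : ((confs D A ⊻ confs D B).card : ℝ) ≤ (confs D (A ∩ B)).card := by
    refine Nat.cast_le.2 (card_le_card fun s hs => ?_)
    obtain ⟨a, ha, b, hb, rfl⟩ := Finset.mem_sups.1 hs
    exact mem_confs.2 ⟨union_subset (mem_confs.1 ha).1 (mem_confs.1 hb).1,
      hA (by simp) (mem_confs.1 ha).2, hB (by simp) (mem_confs.1 hb).2⟩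
  rw [pr, pr, pr, div_mul_div_comm, div_le_div_iff₀ (by positivity) (by positivity)]
  calc _ ≤ 2 ^ D.card * ((confs D (A ∩ B)).card : ℝ) * 2 ^ D.card :=
        mul_le_mul_of_nonneg_right (h.trans (mul_le_mul h1 h2 (by positivity) (by positivity)))
          (by positivity)
    _ = _ := by ring

/-- Harris's inequality for decreasing events. -/
theorem pr_harris_lower (hA : IsLowerSet A) (hB : IsLowerSet B) :
    pr D A * pr D B ≤ pr D (A ∩ B) := by
  have hup : ∀ {C : Set (Set Site)}, IsLowerSet C →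
      IsUpperSet {η : Set Site | ↑D \ η ∈ C} :=
    fun hC _ _ hle h => hC (Set.sdiff_subset_sdiff_right hle) h
  have h := pr_harris (D := D) (hup hA) (hup hB)
  rw [pr_flip, pr_flip] at h
  exact h.trans_eq (pr_flip D (A ∩ B))

end FA.Cardy
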