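import Fermat.Agent.Cardy.Hex

/-!
# Crossing a trapezoid

The left half of a trapezoid is crossed to its axis with chance one half; given the lowest such
crossing, reflection and the lemma of Hex continue it to the far sides with chance one half.
-/

set_option autoImplicit false

noncomputable section

open Finset
open scoped Classical

namespace FA.Cardy

/-- The reflection in the axis `2a + b = 4m`. -/
def refl (m : ℕ) : Site ≃ Site where
  toFun p := (4 * (m : ℤ) - p.1 - p.2, p.2)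
  invFun p := (4 * (m : ℤ) - p.1 - p.2, p.2)
  left_inv p := Prod.ext (by simp only; omega) rfl
  right_inv p := Prod.ext (by simp only; omega) rfl

theorem refl_fst (m : ℕ) (p : Site) : (refl m p).1 = 4 * (m : ℤ) - p.1 - p.2 := rfl

theorem refl_snd (m : ℕ) (p : Site) : (refl m p).2 = p.2 := rfl

theorem refl_refl (m : ℕ) (p : Site) : refl m (refl m p) = p := (refl m).left_inv p

theorem adj_refl {m : ℕ} {p q : Site} (h : Adj p q) : Adj (refl m p) (refl m q) := by
  simp only [Adj, refl_fst, refl_snd] at *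
  omega

/-- The trapezoid. -/
def trap (m : ℕ) : Finset Site :=
  (par 0 (4 * m) 0 (2 * m)).filter fun v => v.1 + v.2 ≤ 4 * (m : ℤ)

theorem mem_trap {m : ℕ} {v : Site} :
    v ∈ trap m ↔ 0 ≤ v.1 ∧ 0 ≤ v.2 ∧ v.2 ≤ 2 * (m : ℤ) ∧ v.1 + v.2 ≤ 4 * (m : ℤ) := by
  simp only [trap, Finset.mem_filter, mem_par]
  omega

theorem refl_mem_trap {m : ℕ} {v : Site} (h : v ∈ trap m) : refl m v ∈ trap m := by
  simp only [mem_trap, refl_fst, refl_snd] at *
  omega

/-- Its left half, with the axis. -/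
def halfTrap (m : ℕ) : Finset Site :=
  (trap m).filter fun v => 2 * v.1 + v.2 ≤ 4 * (m : ℤ)

theorem mem_halfTrap {m : ℕ} {v : Site} :
    v ∈ halfTrap m ↔ 0 ≤ v.1 ∧ 0 ≤ v.2 ∧ v.2 ≤ 2 * (m : ℤ) ∧ 2 * v.1 + v.2 ≤ 4 * (m : ℤ) := by
  simp only [halfTrap, Finset.mem_filter, mem_trap]
  omega

/-- The right side and the right half of the top. -/
def FarRight (m : ℕ) (v : Site) : Prop :=
  v.1 + v.2 = 4 * (m : ℤ) ∨ (v.2 = 2 * (m : ℤ) ∧ (m : ℤ) ≤ v.1)

/-- The left side and the left half of the top. -/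
def FarLeft (m : ℕ) (v : Site) : Prop := v.1 = 0 ∨ (v.2 = 2 * (m : ℤ) ∧ v.1 ≤ (m : ℤ))

theorem farRight_refl {m : ℕ} {v : Site} : FarRight m (refl m v) ↔ FarLeft m v := by
  simp only [FarRight, FarLeft, refl_fst, refl_snd]
  omega

theorem farLeft_refl {m : ℕ} {v : Site} : FarLeft m (refl m v) ↔ FarRight m v := by
  simp only [FarRight, FarLeft, refl_fst, refl_snd]
  omega

/-- Joined from the left half of the bottom to the far right. -/
def joinRight (m : ℕ) : Set (Set Site) :=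
  {η | ∃ u v, Conn (η ∩ ↑(trap m)) u v ∧ (u.2 = 0 ∧ u.1 ≤ 2 * (m : ℤ)) ∧ FarRight m v}

/-- Joined from the right half of the bottom to the far left. -/
def joinLeft (m : ℕ) : Set (Set Site) :=
  {η | ∃ u v, Conn (η ∩ ↑(trap m)) u v ∧ (u.2 = 0 ∧ 2 * (m : ℤ) ≤ u.1) ∧ FarLeft m v}

theorem joinRight_or_joinLeft {m : ℕ} (hm : 1 ≤ m) (η : Set Site) :
    η ∈ joinRight m ∨ ηᶜ ∈ joinLeft m := by
  set OB : Site → Prop := fun w => w.2 < 0 ∧ w.1 ≤ 2 * (m : ℤ) with hOB
  set OR : Site → Prop := fun w => 0 ≤ w.2 ∧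
    ((w.2 ≤ 2 * (m : ℤ) ∧ 4 * (m : ℤ) < w.1 + w.2) ∨ (2 * (m : ℤ) < w.2 ∧ (m : ℤ) ≤ w.1))
    with hOR
  set ξ : Set Site := (η ∩ ↑(trap m)) ∪ {w | OB w ∨ OR w} with hξ
  rcases lrCross_or_btCross (x₀ := -1) (x₁ := 4 * m + 1) (y₀ := -1) (y₁ := 2 * m + 1)
    (by omega) (by omega) ξ with ⟨u, v, h, hu, hv⟩ | ⟨u, v, h, hu, hv⟩
  · refine Or.inl ?_
    have hu' : OB u := by
      rcases h.left_mem.1 with ⟨-, h'⟩ | h' | h'
      · have := mem_trap.1 h'
        omega
      · exact h'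
      · have := mem_par.1 h.left_mem.2
        simp only [hOR] at h'
        omega
    obtain ⟨w, -, hw, rfl | ⟨z, hwz, hzv⟩⟩ := h.last_visit hu'
    · simp only [hOB] at hw
      omega
    have hv' : OR v := by
      rcases hzv.right_mem.1.1 with ⟨-, h'⟩ | h' | h'
      · have := mem_trap.1 h'
        omega
      · exact absurd h' hzv.right_mem.2
      · exact h'
    have hz := hzv.left_mem
    have hzb := mem_par.1 hz.1.2
    have hzR : ¬OR z := by
      simp only [hOB, hOR, Adj] at hw hwz ⊢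
      omega
    obtain ⟨x, -, hx, rfl | ⟨y, hyx, hzy⟩⟩ := hzv.first_visit hv'
    · exact absurd hx hzR
    have hsub : ∀ a ∈ {a ∈ {a ∈ ξ ∩ ↑(par (-1) (4 * m + 1) (-1) (2 * m + 1)) | ¬OB a} | ¬OR a},
        a ∈ η ∩ ↑(trap m) := by
      rintro a ⟨⟨⟨ha | ha | ha, -⟩, h1⟩, h2⟩
      exacts [ha, absurd ha h1, absurd ha h2]
    have hzt := mem_trap.1 (hsub z hzy.left_mem).2
    have hyt := mem_trap.1 (hsub y hzy.right_mem).2
    refine ⟨z, y, hzy.mono hsub, ?_, ?_⟩
    · simp only [hOB, Adj] at hw hwz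
      omega
    · simp only [hOR, Adj, FarRight] at hx hyx ⊢
      omega
  · refine Or.inr ?_
    set CB : Site → Prop := fun w => w.2 < 0 ∧ 2 * (m : ℤ) < w.1 with hCB
    set CL : Site → Prop := fun w => 0 ≤ w.2 ∧
      ((w.2 ≤ 2 * (m : ℤ) ∧ w.1 < 0) ∨ (2 * (m : ℤ) < w.2 ∧ w.1 < (m : ℤ))) with hCL
    have hout : ∀ a, a ∈ ξᶜ → a ∉ ηᶜ ∩ ↑(trap m) → CB a ∨ CL a := by
      intro a ha hat
      simp only [hξ, Set.mem_compl_iff, Set.mem_union, Set.mem_inter_iff, Set.mem_ofPred_eq,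
        Finset.mem_coe, hOB, hOR, hCB, hCL, mem_trap] at ha hat ⊢
      by_cases hη : a ∈ η <;>
        simp only [hη, true_and, false_and, not_true, not_false_iff] at ha hat <;>
        omega
    have hu' : CB u := by
      have := mem_par.1 h.left_mem.2
      rcases hout u h.left_mem.1 (fun h' => by
        have := mem_trap.1 h'.2
        omega) with h' | h'
      · exact h'
      · simp only [hCL] at h'
        omega
    obtain ⟨w, -, hw, rfl | ⟨z, hwz, hzv⟩⟩ := h.last_visit hu'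
    · simp only [hCB] at hw
      omega
    have hv' : CL v := by
      refine (hout v hzv.right_mem.1.1 (fun h' => ?_)).resolve_left hzv.right_mem.2
      have := mem_trap.1 h'.2
      omega
    have hz := hzv.left_mem
    have hzb := mem_par.1 hz.1.2
    have hzR : ¬CL z := by
      simp only [hCB, hCL, Adj] at hw hwz ⊢
      omega
    obtain ⟨x, -, hx, rfl | ⟨y, hyx, hzy⟩⟩ := hzv.first_visit hv'
    · exact absurd hx hzR
    have hsub : ∀ a ∈ {a ∈ {a ∈ ξᶜ ∩ ↑(par (-1) (4 * m + 1) (-1) (2 * m + 1)) | ¬CB a} | ¬CL a},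
        a ∈ ηᶜ ∩ ↑(trap m) := by
      rintro a ⟨⟨⟨ha, -⟩, h1⟩, h2⟩
      by_contra hat
      exact (hout a ha hat).elim h1 h2
    have hzt := mem_trap.1 (hsub z hzy.left_mem).2
    have hyt := mem_trap.1 (hsub y hzy.right_mem).2
    refine ⟨z, y, hzy.mono hsub, ?_, ?_⟩
    · simp only [hCB, Adj] at hw hwz
      omega
    · simp only [hCL, Adj, FarLeft] at hx hyx ⊢
      omega

/-! ### The lowest crossing of the left half -/

/-- The closed sites of the left half joined to the bottom. -/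
def closedBase (m : ℕ) (η : Set Site) : Finset Site :=
  (halfTrap m).filter fun v => ∃ u, Conn (ηᶜ ∩ ↑(halfTrap m)) u v ∧ u.2 = 0

/-- The sites next to such a set. -/
def rim (m : ℕ) (k : Finset Site) : Finset Site :=
  (halfTrap m).filter fun v => v ∉ k ∧ (v.2 = 0 ∨ ∃ y ∈ k, Adj y v)

/-- Seen from the top without meeting the explored sites. -/
def SeesTop (m : ℕ) (k : Finset Site) (v : Site) : Prop :=
  ∃ t, Conn (↑(halfTrap m) \ ↑(k ∪ rim m k)) v t ∧ t.2 = 2 * (m : ℤ)

/-- Below the lowest crossing. -/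
def below (m : ℕ) (k : Finset Site) : Finset Site :=
  (halfTrap m).filter fun v => ¬SeesTop m k v

/-- The sites left random. -/
def rest (m : ℕ) (k : Finset Site) : Finset Site :=
  (trap m).filter fun v => v ∉ below m k ∧ refl m v ∉ below m k

theorem explored_subset_below {m : ℕ} {k : Finset Site} (hk : k ⊆ halfTrap m) :
    k ∪ rim m k ⊆ below m k := by
  intro v hv
  refine Finset.mem_filter.2 ⟨?_, fun ⟨t, ht, _⟩ => ht.left_mem.2 (Finset.mem_coe.2 hv)⟩
  rcases Finset.mem_union.1 hv with h | h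
  · exact hk h
  · exact (Finset.mem_filter.1 h).1

theorem closedBase_subset (m : ℕ) (η : Set Site) : closedBase m η ⊆ halfTrap m :=
  filter_subset _ _

theorem closedBase_conn {m : ℕ} {η : Set Site} {v : Site} (hv : v ∈ closedBase m η) :
    ∃ u, Conn (↑(closedBase m η) : Set Site) u v ∧ u.2 = 0 := by
  obtain ⟨u, hu, hu0⟩ := (Finset.mem_filter.1 hv).2
  exact ⟨u, hu.cluster.mono fun x hx =>
    Finset.mem_coe.2 (Finset.mem_filter.2 ⟨hx.right_mem.2, u, hx, hu0⟩), hu0⟩

theorem closedBase_closed {m : ℕ} {η : Set Site} {v : Site} (hv : v ∈ closedBase m η) : v ∉ η := by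
  obtain ⟨u, hu, -⟩ := (Finset.mem_filter.1 hv).2
  exact hu.right_mem.1

theorem rim_open {m : ℕ} {η : Set Site} {v : Site} (hv : v ∈ rim m (closedBase m η)) : v ∈ η := by
  obtain ⟨hv1, hv2, hv3⟩ := Finset.mem_filter.1 hv
  by_contra hη
  refine hv2 (Finset.mem_filter.2 ⟨hv1, ?_⟩)
  rcases hv3 with h0 | ⟨y, hy, hyv⟩
  · exact ⟨v, Conn.refl (S := ηᶜ ∩ ↑(halfTrap m)) ⟨hη, hv1⟩, h0⟩
  · obtain ⟨u, hu, hu0⟩ := (Finset.mem_filter.1 hy).2
    exact ⟨u, hu.step hyv ⟨hη, hv1⟩, hu0⟩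

theorem depOn_closedBase (m : ℕ) (k : Finset Site) :
    DepOn ↑(k ∪ rim m k) {η | closedBase m η = k} := by
  intro η η' he h
  have hk : ∀ x ∈ k, x ∉ η' := fun x hx hx' =>
    closedBase_closed (h ▸ hx : x ∈ closedBase m η)
      ((he x (Finset.mem_coe.2 (Finset.mem_union_left _ hx))).2 hx')
  have hr : ∀ x ∈ rim m k, x ∈ η' := fun x hx =>
    (he x (Finset.mem_coe.2 (Finset.mem_union_right _ hx))).1
      (rim_open (h ▸ hx : x ∈ rim m (closedBase m η)))
  show closedBase m η' = k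
  refine Subset.antisymm (fun v hv => ?_) fun v hv => ?_
  · obtain ⟨u, hu, hu0⟩ := (Finset.mem_filter.1 hv).2
    refine hu.induction (P := fun x => x ∈ k) ?_ fun x y hux ha hy hx => ?_
    · by_contra hku
      exact hu.left_mem.1 (hr u (Finset.mem_filter.2 ⟨hu.left_mem.2, hku, Or.inl hu0⟩))
    · by_contra hky
      exact hy.1 (hr y (Finset.mem_filter.2 ⟨hy.2, hky, Or.inr ⟨x, hx, ha⟩⟩))
  · obtain ⟨u, hu, hu0⟩ := closedBase_conn (h ▸ hv : v ∈ closedBase m η)
    rw [show closedBase m η = k from h] at hu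
    refine Finset.mem_filter.2 ⟨(show closedBase m η = k from h) ▸ closedBase_subset m η <| hv, u,
      hu.mono fun x hx => ⟨hk x hx, ?_⟩, hu0⟩
    exact (show closedBase m η = k from h) ▸ closedBase_subset m η <| hx

/-- A straight row. -/
theorem conn_row {a a' : ℤ} (b : ℤ) (h : a ≤ a') :
    Conn {x : Site | x.2 = b ∧ a ≤ x.1 ∧ x.1 ≤ a'} (a, b) (a', b) := by
  obtain ⟨d, rfl⟩ : ∃ d : ℕ, a' = a + d := ⟨(a' - a).toNat, by omega⟩
  clear h
  induction d with
  | zero =>
    simpa using Conn.refl (S := {x : Site | x.2 = b ∧ a ≤ x.1 ∧ x.1 ≤ a}) ⟨rfl, le_rfl, le_rfl⟩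
  | succ d ih =>
    have ih' := ih.mono (S' := {x : Site | x.2 = b ∧ a ≤ x.1 ∧ x.1 ≤ a + ((d + 1 : ℕ) : ℤ)})
      fun x hx => ⟨hx.1, hx.2.1, by have := hx.2.2; push_cast; omega⟩
    refine ih'.step ?_ ⟨rfl, ?_, le_rfl⟩
    · simp only [Adj]
      push_cast
      omega
    · show a ≤ a + ((d + 1 : ℕ) : ℤ)
      omega

/-- A site under the top seen from below is joined to the left. -/
theorem mem_lowest {m : ℕ} {η : Set Site}
    (hgood : ∀ x ∈ closedBase m η, x.2 < 2 * (m : ℤ)) {w : Site}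
    (hw : w ∈ below m (closedBase m η))
    (htop : w.2 = 2 * (m : ℤ) ∨ ∃ z, Adj w z ∧ SeesTop m (closedBase m η) z) :
    ∃ u, Conn (η ∩ ↑(trap m)) u w ∧ u.1 = 0 := by
  set k := closedBase m η with hk
  have hwH : w ∈ halfTrap m := (Finset.mem_filter.1 hw).1
  have hwnS : ¬SeesTop m k w := (Finset.mem_filter.1 hw).2
  have hwk : w ∉ k := by
    intro hwk
    rcases htop with h | ⟨z, hwz, t, ht, -⟩
    · exact absurd h (hgood w hwk).ne
    · have hz := ht.left_mem
      by_cases hzk : z ∈ k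
      · exact hz.2 (Finset.mem_coe.2 (Finset.mem_union_left _ hzk))
      · exact hz.2 (Finset.mem_coe.2 (Finset.mem_union_right _
          (Finset.mem_filter.2 ⟨hz.1, hzk, Or.inr ⟨w, hwk, hwz⟩⟩)))
  have hwr : w ∈ rim m k := by
    by_contra hwr
    have hmem : w ∈ ((↑(halfTrap m) : Set Site) \ ↑(k ∪ rim m k)) := by
      simp [hwH, hwk, hwr]
    refine hwnS ?_
    rcases htop with h | ⟨z, hwz, t, ht, ht'⟩
    · exact ⟨w, Conn.refl hmem, h⟩
    · exact ⟨t, (Conn.single hmem hwz ht.left_mem).trans ht, ht'⟩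
  obtain ⟨u, v, hcr, hu0, hv0⟩ :
      ((↑(rim m k) : Set Site) ∪ (↑(halfTrap m))ᶜ) ∈ lrCross 0 (2 * m) 0 (2 * m) := by
    refine (lrCross_or_btCross (by omega) (by omega) _).resolve_right ?_
    rintro ⟨u, v, h, hu, hv⟩
    have hsub : ∀ x, x ∈ ((↑(rim m k) : Set Site) ∪ (↑(halfTrap m))ᶜ)ᶜ →
        x ∈ halfTrap m ∧ x ∉ rim m k := fun x hx => by
      simp only [Set.compl_union, compl_compl, Set.mem_inter_iff, Set.mem_compl_iff] at hx
      exact ⟨hx.2, hx.1⟩
    have hvk : v ∈ k := h.induction (P := fun x => x ∈ k)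
      (by
        by_contra hc
        exact (hsub u h.left_mem.1).2
          (Finset.mem_filter.2 ⟨(hsub u h.left_mem.1).1, hc, Or.inl hu⟩))
      fun x y _ ha hy hx => by
        by_contra hc
        exact (hsub y hy.1).2 (Finset.mem_filter.2 ⟨(hsub y hy.1).1, hc, Or.inr ⟨x, hx, ha⟩⟩)
    exact absurd hv (hgood v hvk).ne
  have huH : u ∈ halfTrap m := by
    have := mem_par.1 hcr.left_mem.2
    rw [mem_halfTrap]
    omega
  obtain ⟨p, hup, hp⟩ : ∃ p, Conn (↑(rim m k) : Set Site) u p ∧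
      4 * (m : ℤ) - 1 ≤ 2 * p.1 + p.2 := by
    have hsub : ∀ x, x ∈ (↑(rim m k) : Set Site) ∪ (↑(halfTrap m))ᶜ → x ∈ halfTrap m →
        x ∈ rim m k := fun x hx hx' => hx.elim id fun h => absurd hx' h
    obtain ⟨x, hux, hx, rfl | ⟨y, hyx, huy⟩⟩ :=
      hcr.first_visit (P := fun x => x ∉ halfTrap m ∨ x = v) (Or.inr rfl)
    · rcases hx with hx | rfl
      · exact absurd huH hx
      · exact ⟨x, Conn.refl (hsub x hux.left_mem.1 huH), by
          have := (mem_halfTrap.1 huH)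
          omega⟩
    · have hy : Conn (↑(rim m k) : Set Site) u y := huy.mono fun a ha =>
        hsub a ha.1.1 (not_not.1 fun h => ha.2 (Or.inl h))
      by_cases hxH : x ∈ halfTrap m
      · obtain rfl : x = v := hx.resolve_left (not_not.2 hxH)
        refine ⟨x, hy.step hyx (hsub x hux.right_mem.1 hxH), ?_⟩
        have := (mem_halfTrap.1 hxH)
        omega
      · refine ⟨y, hy, ?_⟩
        have := mem_par.1 hux.right_mem.2
        rw [mem_halfTrap] at hxH
        simp only [Adj] at hyx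
        omega
  have hpH := mem_halfTrap.1 (Finset.mem_filter.1 (Finset.mem_coe.1 hup.right_mem)).1
  set ext : Set Site := {x | x.2 = p.2 ∧ p.1 ≤ x.1 ∧ x.1 ≤ 2 * (m : ℤ)} with hext
  set S : Set Site := {x | Conn (↑(rim m k) : Set Site) u x} ∪ ext with hS
  set S' : Set Site := insert w (↑(halfTrap m) \ ↑(rim m k)) with hS'
  have hSc : Conn S u (2 * m, p.2) :=
    (hup.cluster.mono Set.subset_union_left).trans
      ((conn_row p.2 (by omega)).mono fun x hx => Or.inr hx)
  obtain ⟨u', hu', hu'0⟩ : ∃ u', Conn S' u' w ∧ u'.2 = 0 := by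
    rcases (Finset.mem_filter.1 hwr).2.2 with h | ⟨y, hy, hyw⟩
    · exact ⟨w, Conn.refl (Set.mem_insert _ _), h⟩
    · obtain ⟨u', hu', hu'0⟩ := closedBase_conn (hk ▸ hy : y ∈ closedBase m η)
      rw [← hk] at hu'
      refine ⟨u', (hu'.mono fun x hx => Or.inr ?_).step hyw (Set.mem_insert _ _), hu'0⟩
      exact ⟨Finset.mem_coe.2 (closedBase_subset m η (hk ▸ hx)), fun hr =>
        (Finset.mem_filter.1 (Finset.mem_coe.1 hr)).2.1 hx⟩
  obtain ⟨t, ht, htt⟩ : ∃ t, Conn S' u' t ∧ t.2 = 2 * (m : ℤ) := by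
    rcases htop with h | ⟨z, hwz, t, ht, ht'⟩
    · exact ⟨w, hu', h⟩
    · have hz : ((↑(halfTrap m) : Set Site) \ ↑(k ∪ rim m k)) ⊆ S' := fun x hx =>
        Or.inr ⟨hx.1, fun h => hx.2 (Finset.mem_coe.2 (Finset.mem_union_right _ h))⟩
      exact ⟨t, (hu'.step hwz (hz ht.left_mem)).trans (ht.mono hz), ht'⟩
  have hS'H : ∀ x ∈ S', x ∈ halfTrap m := by
    rintro x (rfl | hx)
    exacts [hwH, hx.1]
  obtain ⟨x, hxS, hxS'⟩ := exists_meet (S := S) (S' := S') (x₀ := 0) (x₁ := 2 * m) (y₀ := 0)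
    (y₁ := 2 * m) (by
      rintro x (hx | hx)
      · have := mem_halfTrap.1 (Finset.mem_filter.1 (Finset.mem_coe.1 hx.right_mem)).1
        omega
      · simp only [hext, Set.mem_ofPred_eq] at hx
        omega)
    (fun x hx => by
      have := mem_halfTrap.1 (hS'H x hx)
      omega)
    hSc hu0.le le_rfl ht hu'0.le htt.ge
  have hxw : x = w ∧ Conn (↑(rim m k) : Set Site) u x := by
    rcases hxS with hx | hx
    · exact ⟨hxS'.resolve_right fun h => h.2 hx.right_mem, hx⟩
    · by_cases hxp : x.1 = p.1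
      · have : x = p := Prod.ext hxp hx.1
        subst this
        exact ⟨hxS'.resolve_right fun h => h.2 hup.right_mem, hup⟩
      · have := mem_halfTrap.1 (hS'H x hxS')
        simp only [hext, Set.mem_ofPred_eq] at hx
        omega
  obtain ⟨rfl, hux⟩ := hxw
  refine ⟨u, hux.mono fun y hy => ⟨rim_open (hk ▸ Finset.mem_coe.1 hy : y ∈ rim m _), ?_⟩, hu0⟩
  exact Finset.mem_coe.2 (Finset.mem_filter.1 (Finset.mem_filter.1 (Finset.mem_coe.1 hy)).1).1

/-- Joined from the left side to the far right. -/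
def sideRight (m : ℕ) : Set (Set Site) :=
  {η | ∃ u v, Conn (η ∩ ↑(trap m)) u v ∧ u.1 = 0 ∧ FarRight m v}

/-- The random part completed by the sites below the crossing. -/
def completed (m : ℕ) (k : Finset Site) : Set (Set Site) :=
  {η | (η ∩ ↑(rest m k)) ∪ ↑(below m k) ∈ joinRight m}

theorem depOn_completed (m : ℕ) (k : Finset Site) :
    DepOn ↑(rest m k) (completed m k) := by
  intro η η' he h
  have e : η ∩ ↑(rest m k) = η' ∩ ↑(rest m k) := by
    ext x
    exact and_congr_left (he x)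
  rwa [completed, Set.mem_ofPred_eq, ← e]

theorem half_le_completed {m : ℕ} (hm : 1 ≤ m) (k : Finset Site) :
    1 / 2 ≤ pr (rest m k) (completed m k) := by
  have hrest : ∀ x, x ∈ rest m k → refl m x ∈ rest m k := fun x hx => by
    obtain ⟨h1, h2, h3⟩ := Finset.mem_filter.1 hx
    exact Finset.mem_filter.2 ⟨refl_mem_trap h1, h3, by rwa [refl_refl]⟩
  have hle : pr (rest m k) (completed m k)ᶜ ≤ pr (rest m k) (completed m k) := by
    refine pr_le_of_injOn rfl (fun s => (rest m k \ s).map (refl m).toEmbedding)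
      (fun s _ hno => ⟨fun x hx => ?_, ?_⟩) fun s hs t ht h => ?_
    · obtain ⟨y, hy, rfl⟩ := Finset.mem_map.1 hx
      exact hrest y (Finset.mem_sdiff.1 hy).1
    · obtain ⟨u, v, hc, ⟨hu1, hu2⟩, hv⟩ := (joinRight_or_joinLeft hm _).resolve_left hno
      refine ⟨_, _, hc.map (fun _ _ => adj_refl) fun x hx => ?_, ⟨?_, ?_⟩,
        farRight_refl.2 hv⟩
      · obtain ⟨hx1, hx2⟩ := hx
        simp only [Set.mem_compl_iff, Set.mem_union, Set.mem_inter_iff, Finset.mem_coe,
          not_or, not_and] at hx1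
        refine ⟨?_, Finset.mem_coe.2 (refl_mem_trap hx2)⟩
        by_cases hxr : x ∈ rest m k
        · exact Or.inl ⟨Finset.mem_coe.2 (Finset.mem_map.2
            ⟨x, Finset.mem_sdiff.2 ⟨hxr, fun hs => hx1.1 hs hxr⟩, rfl⟩),
            Finset.mem_coe.2 (hrest x hxr)⟩
        · refine Or.inr (Finset.mem_coe.2 ?_)
          by_contra hb
          exact hxr (Finset.mem_filter.2 ⟨hx2, hx1.2, hb⟩)
      · rw [refl_snd, hu1]
      · rw [refl_fst, hu1]
        omega
    · rw [← Finset.sdiff_sdiff_eq_self hs, ← Finset.sdiff_sdiff_eq_self ht,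
        Finset.map_injective _ h]
  rw [pr_compl] at hle
  linarith

theorem completed_subset {m : ℕ} {η : Set Site}
    (hgood : ∀ x ∈ closedBase m η, x.2 < 2 * (m : ℤ))
    (h : η ∈ completed m (closedBase m η)) : η ∈ sideRight m := by
  set k := closedBase m η with hk
  obtain ⟨u, v, hc, ⟨hu1, hu2⟩, hv⟩ := h
  have huX : u ∈ below m k := by
    have h' := mem_trap.1 (Finset.mem_coe.1 hc.left_mem.2)
    have huH : u ∈ halfTrap m := by
      rw [mem_halfTrap]
      omega
    refine explored_subset_below (closedBase_subset m η) (Finset.mem_union.2 ?_)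
    by_cases huk : u ∈ k
    · exact Or.inl huk
    · exact Or.inr (Finset.mem_filter.2 ⟨huH, huk, Or.inl hu1⟩)
  obtain ⟨w, -, hw, hrest⟩ := hc.last_visit (P := fun x => x ∈ below m k) huX
  have hwH := mem_halfTrap.1 (Finset.mem_filter.1 hw).1
  rcases hrest with rfl | ⟨z, hwz, hzv⟩
  · obtain ⟨u0, hu0, hu0'⟩ := mem_lowest hgood hw (Or.inl (by
      simp only [FarRight] at hv
      omega))
    exact ⟨u0, w, hu0, hu0', hv⟩
  have hsub : ∀ x ∈ {x ∈ ((η ∩ ↑(rest m k)) ∪ ↑(below m k)) ∩ ↑(trap m) | ¬ x ∈ below m k},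
      x ∈ η ∩ ↑(trap m) ∧ x ∈ rest m k := by
    rintro x ⟨⟨⟨hx1, hx2⟩ | hx, hx3⟩, hx4⟩
    exacts [⟨⟨hx1, hx3⟩, hx2⟩, absurd hx hx4]
  obtain ⟨-, hz2⟩ := hsub z hzv.left_mem
  obtain ⟨hz2, hz3, hz4⟩ := Finset.mem_filter.1 hz2
  have hztop : ∃ z', Adj w z' ∧ SeesTop m k z' := by
    by_cases hzH : z ∈ halfTrap m
    · exact ⟨z, hwz, not_not.1 fun hn => hz3 (Finset.mem_filter.2 ⟨hzH, hn⟩)⟩
    have hzt := mem_trap.1 hz2
    rw [mem_halfTrap] at hzH
    have hrH : refl m z ∈ halfTrap m := by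
      rw [mem_halfTrap, refl_fst, refl_snd]
      omega
    have hsee : SeesTop m k (refl m z) :=
      not_not.1 fun hn => hz4 (Finset.mem_filter.2 ⟨hrH, hn⟩)
    have hwz' := hwz
    simp only [Adj] at hwz'
    by_cases hax : 2 * w.1 + w.2 = 4 * (m : ℤ)
    · refine ⟨refl m z, ?_, hsee⟩
      have e : refl m w = w := Prod.ext (by rw [refl_fst]; omega) rfl
      simpa only [e] using adj_refl (m := m) hwz
    · have e : refl m z = w := Prod.ext (by rw [refl_fst]; omega) (by rw [refl_snd]; omega)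
      exact absurd (e.symm ▸ hw) hz4
  obtain ⟨u0, hu0, hu0'⟩ := mem_lowest hgood hw (Or.inr hztop)
  exact ⟨u0, v, (hu0.step hwz (hsub z hzv.left_mem).1).trans (hzv.mono fun x hx => (hsub x hx).1),
    hu0', hv⟩

theorem quarter_le_sideRight {m : ℕ} (hm : 1 ≤ m) : 1 / 4 ≤ pr (trap m) (sideRight m) := by
  set good : Finset Site → Prop := fun k => ∀ x ∈ k, x.2 < 2 * (m : ℤ) with hgood
  set t := (halfTrap m).powerset.filter good with ht
  set f : Finset Site → Set (Set Site) := fun k => {η | closedBase m η = k} with hf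
  have hprod : ∀ k ∈ t, pr (trap m) (f k) * (1 / 2) ≤ pr (trap m) (f k ∩ completed m k) := by
    intro k hk
    have hk' : k ⊆ halfTrap m := Finset.mem_powerset.1 (Finset.mem_filter.1 hk).1
    have hE : k ∪ rim m k ⊆ trap m :=
      (explored_subset_below hk').trans ((filter_subset _ _).trans (filter_subset _ _))
    have hd : Disjoint (k ∪ rim m k) (rest m k) := Finset.disjoint_left.2 fun x hx hx' =>
      (Finset.mem_filter.1 hx').2.1 (explored_subset_below hk' hx)
    rw [pr_inter_mul hE (filter_subset _ _) hd (depOn_closedBase m k) (depOn_completed m k)]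
    refine mul_le_mul_of_nonneg_left ?_ (pr_nonneg _ _)
    rw [pr_mono_sites (D := rest m k) (filter_subset _ _) (depOn_completed m k)]
    exact half_le_completed hm k
  have hbad : pr (trap m) {η | ¬good (closedBase m η)} ≤ 1 / 2 := by
    have hsub : par 0 (2 * m : ℤ) 0 (2 * m) ⊆ trap m := fun x hx => by
      rw [mem_par] at hx
      rw [mem_trap]
      omega
    calc pr (trap m) {η | ¬good (closedBase m η)}
        ≤ pr (trap m) {η | ↑(trap m) \ η ∈ btCross 0 (2 * m) 0 (2 * m)} := by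
          refine pr_mono fun s _ hbad => ?_
          simp only [Set.mem_ofPred_eq, hgood, not_forall, not_lt, exists_prop] at hbad ⊢
          obtain ⟨x, hx, hx2⟩ := hbad
          obtain ⟨u, hu, hu0⟩ := (Finset.mem_filter.1 hx).2
          have hxH := mem_halfTrap.1 (Finset.mem_filter.1 hx).1
          refine ⟨u, x, hu.mono fun y hy => ?_, hu0, by omega⟩
          have hyH := mem_halfTrap.1 (Finset.mem_coe.1 hy.2)
          refine ⟨⟨Finset.mem_coe.2 (Finset.mem_filter.1 (Finset.mem_coe.1 hy.2)).1, hy.1⟩,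
            Finset.mem_coe.2 (mem_par.2 ?_)⟩
          omega
      _ = pr (par 0 (2 * m : ℤ) 0 (2 * m)) (btCross 0 (2 * m) 0 (2 * m)) := by
          rw [pr_flip, pr_mono_sites hsub depOn_btCross]
      _ = 1 / 2 := by
          rw [← pr_lrCross_eq_btCross]
          simpa using pr_lrCross_rhombus 0 (2 * m)
  have hsum : 1 / 2 ≤ ∑ k ∈ t, pr (trap m) (f k) := by
    refine le_trans ?_ (pr_biUnion_le t f)
    have h1 : 1 / 2 ≤ pr (trap m) {η | ¬good (closedBase m η)}ᶜ := by
      rw [pr_compl]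
      linarith
    refine h1.trans (pr_mono fun s _ hs => ?_)
    exact Set.mem_iUnion₂.2 ⟨closedBase m _, Finset.mem_filter.2
      ⟨Finset.mem_powerset.2 (closedBase_subset _ _), not_not.1 hs⟩, rfl⟩
  calc (1 : ℝ) / 4 ≤ (∑ k ∈ t, pr (trap m) (f k)) * (1 / 2) := by linarith
    _ = ∑ k ∈ t, pr (trap m) (f k) * (1 / 2) := Finset.sum_mul _ _ _
    _ ≤ ∑ k ∈ t, pr (trap m) (f k ∩ completed m k) := sum_le_sum hprod
    _ ≤ pr (trap m) (sideRight m) := by
        refine sum_pr_le t _ (fun i _ j _ s hi hj => hi.1.symm.trans hj.1) ?_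
        rintro k hk η ⟨hηk, hη⟩
        obtain rfl : closedBase m η = k := hηk
        exact completed_subset (Finset.mem_filter.1 hk).2 hη

end FA.Cardy
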