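import Fermat.Agent.Cardy.Hand

/-!
# The identity at a face

Moving the defect among the three sides of a face either leaves the corner joined to it unchanged
or sends it round the three corners in anticlockwise order.
-/

set_option autoImplicit false

noncomputable section

open Finset
open scoped Classical symmDiff

namespace FA.Cardy

/-- Walking forward from `h` reaches `x`. -/
def Leads {α : Type*} (m r : α → α) (h x : α) : Prop :=
  ∃ n, Runs m r h n ∧ (r ∘ m)^[n] h = x

theorem Leads.step {α : Type*} {m r : α → α} {h x : α} (h₁ : Leads m r h x)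
    (hne : r (m x) ≠ m x) : Leads m r h (r (m x)) := by
  obtain ⟨n, hn, rfl⟩ := h₁
  refine ⟨n + 1, fun k hk => ?_, strand_succ _ _ _ _⟩
  rcases Nat.lt_succ_iff_lt_or_eq.1 hk with hk | rfl
  exacts [hn k hk, hne]

theorem Leads.endsAt {α : Type*} {m r : α → α} {h x : α} (h₁ : Leads m r h x)
    (hfix : r (m x) = m x) : EndsAt m r h (m x) := by
  obtain ⟨n, hn, rfl⟩ := h₁
  exact ⟨n, hn, hfix, rfl⟩

theorem mate_extend {N : ℕ} {D D' : Finset Edge} {η ω : Finset Half} {F : Face}
    (hη : Valid N D η) (hω : Valid N D' ω) (hsub : η ⊆ ω) (hnot : ∀ x ∈ η, faceOf x ≠ F)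
    (hout : ∀ x ∈ ω, x ∉ η → faceOf x = F) {x : Half} (hx : x ∈ η) :
    mate ω x = mate η x := by
  have hback : ∀ j, halfAt (faceOf x) j ∈ ω → halfAt (faceOf x) j ∈ η := fun j hj => by
    by_contra h
    exact hnot x hx (by rw [← faceOf_halfAt (faceOf x) j, hout _ hj h])
  rcases hη.mate_cases hx with ⟨h1, h2, e⟩ | ⟨h1, h2, e⟩ <;>
    rcases hω.mate_cases (hsub hx) with ⟨g1, g2, e'⟩ | ⟨g1, g2, e'⟩
  · rw [e, e']
  · exact absurd (hback _ g2) h2
  · exact absurd (hback _ g1) h1
  · rw [e, e']

/-- A strand of a smaller configuration is walked in a larger one. -/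
theorem leads_extend {N : ℕ} {D D' : Finset Edge} {η ω : Finset Half} {F : Face}
    (hη : Valid N D η) (hω : Valid N D' ω) (hsub : η ⊆ ω) (hnot : ∀ x ∈ η, faceOf x ≠ F)
    (hout : ∀ x ∈ ω, x ∉ η → faceOf x = F) {e : Edge} (he : e ∈ D) {t : Half}
    (ht : EndsAt (mate η) (across η) (defectHalf η e) t) :
    t ∈ η ∧ ∃ x, Leads (mate ω) (across ω) (defectHalf η e) x ∧ mate ω x = t := by
  obtain ⟨n, hn, -, rfl⟩ := ht
  set h := defectHalf η e with hh
  have hmem : ∀ k, (across η ∘ mate η)^[k] h ∈ η := hη.strand_mem he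
  have hm : ∀ k, mate ω ((across η ∘ mate η)^[k] h) = mate η ((across η ∘ mate η)^[k] h) :=
    fun k => mate_extend hη hω hsub hnot hout (hmem k)
  have hr : ∀ k < n, across ω (mate η ((across η ∘ mate η)^[k] h)) =
      across η (mate η ((across η ∘ mate η)^[k] h)) := fun k hk => by
    have hne := hn k hk
    generalize mate η ((across η ∘ mate η)^[k] h) = y at hne
    unfold across at hne ⊢
    split_ifs at hne with hc
    · rw [if_pos ⟨hsub hc.1, hsub hc.2⟩, if_pos hc]
    · exact absurd rfl hne
  have heq : ∀ k ≤ n, (across ω ∘ mate ω)^[k] h = (across η ∘ mate η)^[k] h := fun k hk =>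
    strand_congr k fun j hj => ⟨hm j, hr j (by omega)⟩
  refine ⟨hη.carries.mate_mem _ (hmem n), _, ⟨n, fun k hk => ?_, rfl⟩, ?_⟩
  · rw [heq k hk.le, hm k, hr k hk]
    exact hn k hk
  · rw [heq n le_rfl, hm n]

/-- A side of a face, as an edge. -/
def sideEdge (F : Face) (i : Fin 3) : Edge := (halfAt F i).1

theorem sideEdge_injective (F : Face) : Function.Injective (sideEdge F) := fun _ _ h =>
  congrArg (fun e : Edge => e.2) h

theorem outer_face_ne (F : Face) (i : Fin 3) : faceOf (sideEdge F i, !F.2) ≠ F := fun h => by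
  have := congrArg Prod.snd h
  simp [faceOf] at this

theorem half_eq (F : Face) (i : Fin 3) {x : Half} (hx : x.1 = sideEdge F i) :
    x = halfAt F i ∨ x = (sideEdge F i, !F.2) := by
  obtain ⟨e, s⟩ := x
  obtain rfl : e = sideEdge F i := hx
  by_cases hs : s = F.2
  · exact Or.inl (Prod.ext rfl hs)
  · exact Or.inr (Prod.ext rfl (by cases s <;> cases hF : F.2 <;> simp_all))

theorem symmDiff_defects {N : ℕ} {x y : Edge} (hx : Regular N x) (hy : Regular N y) (hne : x ≠ y) :
    defects N x ∆ {x, y} = defects N y := by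
  ext e
  simp only [Finset.mem_symmDiff, defects, Finset.mem_insert, Finset.mem_singleton]
  have := hx.2 0
  have := hx.2 1
  have := hx.2 2
  have := hy.2 0
  have := hy.2 1
  have := hy.2 2
  by_cases e0 : e = x
  · subst e0
    simp_all
  by_cases e1 : e = y
  · subst e1
    simp_all [eq_comm]
  simp [e0, e1]

/-- The defect moved to another side of the face. -/
def moveTo (F : Face) (j : Fin 3) (ω : Finset Half) : Finset Half :=
  if j = 0 then ω else ω ∆ {halfAt F 0, halfAt F j}

theorem moveTo_valid {N : ℕ} {F : Face} (hF : FaceIn N F) (hreg : ∀ i, Regular N (sideEdge F i))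
    {ω : Finset Half} (hv : Valid N (defects N (sideEdge F 0)) ω) (j : Fin 3) :
    Valid N (defects N (sideEdge F j)) (moveTo F j ω) := by
  unfold moveTo
  split_ifs with hj
  · rw [hj]
    exact hv
  · have := hv.symmDiff (valid_pair hF (fun h => hj h.symm : (0 : Fin 3) ≠ j))
    rwa [show ({(halfAt F 0).1, (halfAt F j).1} : Finset Edge) = {sideEdge F 0, sideEdge F j} from
      rfl, symmDiff_defects (hreg 0) (hreg j) fun h => hj (sideEdge_injective F h).symm] at this

theorem mem_moveTo_outside {F : Face} {j : Fin 3} {ω : Finset Half} {x : Half}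
    (hx : faceOf x ≠ F) : x ∈ moveTo F j ω ↔ x ∈ ω := by
  have h : x ∉ ({halfAt F 0, halfAt F j} : Finset Half) := fun h => by
    simp only [Finset.mem_insert, Finset.mem_singleton] at h
    rcases h with rfl | rfl <;> exact hx (faceOf_halfAt _ _)
  unfold moveTo
  split_ifs
  · rfl
  · simp [Finset.mem_symmDiff, h]

theorem mem_moveTo_inside {F : Face} {j i : Fin 3} {ω : Finset Half} :
    halfAt F i ∈ moveTo F j ω ↔
      if j = 0 then halfAt F i ∈ ω else (halfAt F i ∈ ω ↔ ¬(i = 0 ∨ i = j)) := by
  unfold moveTo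
  split_ifs with hj
  · rfl
  · simp only [Finset.mem_symmDiff, Finset.mem_insert, Finset.mem_singleton,
      (halfAt_injective F).eq_iff]
    tauto

/-- A corner joined to a side keeps the join when the defect moves through an empty face. -/
theorem joins_through {N : ℕ} {F : Face} {i j : Fin 3}
    (hreg : ∀ i, Regular N (sideEdge F i)) {ω ω' : Finset Half}
    (hv : Valid N (defects N (sideEdge F i)) ω) (hv' : Valid N (defects N (sideEdge F j)) ω')
    (hempty : ∀ l, halfAt F l ∉ ω) (heq : ω' = ω ∪ {halfAt F i, halfAt F j}) {k : Fin 3}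
    (hj : Joins ω (cornerEdge N k) (sideEdge F i)) :
    Joins ω' (cornerEdge N k) (sideEdge F j) := by
  obtain ⟨t, ht, hte⟩ := hj
  have hnot : ∀ x ∈ ω, faceOf x ≠ F := fun x hx hxF => by
    rw [← halfAt_faceOf x, hxF] at hx
    exact hempty _ hx
  have hsub : ω ⊆ ω' := heq ▸ subset_union_left
  have hout : ∀ x ∈ ω', x ∉ ω → faceOf x = F := fun x hx hx' => by
    rw [heq, Finset.mem_union] at hx
    simp only [Finset.mem_insert, Finset.mem_singleton] at hx
    rcases hx.resolve_left hx' with rfl | rfl <;> exact faceOf_halfAt _ _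
  have hk : cornerEdge N k ∈ defects N (sideEdge F i) := mem_defects.2 (Or.inr ⟨k, rfl⟩)
  obtain ⟨htm, x, hlead, hmx⟩ := leads_extend hv hv' hsub hnot hout hk ht
  have hd : defectHalf ω' (cornerEdge N k) = defectHalf ω (cornerEdge N k) := by
    refine Prod.ext rfl ?_
    have hne : (cornerEdge N k, true) ∉ ({halfAt F i, halfAt F j} : Finset Half) := fun h => by
      simp only [Finset.mem_insert, Finset.mem_singleton] at h
      rcases h with h | h
      · exact (hreg i).2 k (congrArg Prod.fst h :).symm
      · exact (hreg j).2 k (congrArg Prod.fst h :).symm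
    have he : (cornerEdge N k, true) ∈ ω' ↔ (cornerEdge N k, true) ∈ ω := by
      rw [heq, Finset.mem_union, or_iff_left hne]
    simp only [defectHalf, he]
  have ht' : t = (sideEdge F i, !F.2) :=
    (half_eq F i hte).resolve_left fun h => hempty i (h ▸ htm)
  have hi' : halfAt F i ∈ ω' := by simp [heq]
  have hr : across ω' t = halfAt F i := by
    subst ht'
    rw [across, if_pos ⟨hsub htm, by simpa [halfAt, sideEdge] using hi'⟩]
    simp [halfAt, sideEdge]
  have hmi : mate ω' (halfAt F i) = halfAt F j := by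
    have hmem : ∀ l, halfAt F l ∈ ω' ↔ l = i ∨ l = j := fun l => by
      simp [heq, hempty l, (halfAt_injective F).eq_iff]
    have hne' : i + 1 ≠ i ∧ i + 2 ≠ i :=
      (by decide : ∀ i : Fin 3, i + 1 ≠ i ∧ i + 2 ≠ i) i
    rcases hv'.mate_cases hi' with ⟨h1, -, e⟩ | ⟨-, h1, e⟩ <;>
      rw [faceOf_halfAt] at h1 e <;> rw [e] <;>
      change halfAt F _ ∈ ω' at h1 <;> rw [hmem] at h1
    · rw [h1.resolve_left hne'.1]
    · rw [h1.resolve_left hne'.2]
  have hfix : across ω' (halfAt F j) = halfAt F j :=
    (hv'.across_eq_self (by simp [heq])).2 (mem_defects.2 (Or.inl rfl))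
  have hne : across ω' (mate ω' x) ≠ mate ω' x := by
    rw [hmx, hr, ht']
    exact fun h => outer_face_ne F i (by rw [← h, faceOf_halfAt])
  have h2 := hlead.step hne
  rw [hmx, hr] at h2
  refine ⟨halfAt F j, ?_, rfl⟩
  rw [hd, ← hmi]
  exact h2.endsAt (by rw [hmi, hfix])

/-- The corner for which the defect is joined. -/
def joinedTo (N : ℕ) (z : Edge) (ω : Finset Half) : Fin 3 :=
  if Joins ω (cornerEdge N 0) z then 0 else if Joins ω (cornerEdge N 1) z then 1 else 2

theorem joins_iff {N : ℕ} {z : Edge} {ω : Finset Half} (hv : Valid N (defects N z) ω)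
    {k : Fin 3} : Joins ω (cornerEdge N k) z ↔ joinedTo N z ω = k := by
  obtain ⟨j, hj, hu⟩ := existsUnique_joins hv
  have key : joinedTo N z ω = j := by
    unfold joinedTo
    split_ifs with h0 h1
    · exact hu 0 h0
    · exact hu 1 h1
    · fin_cases j
      · exact absurd hj h0
      · exact absurd hj h1
      · rfl
  rw [key]
  exact ⟨fun h => (hu k h).symm, fun h => h ▸ hj⟩

/-- When each side is joined outside the face to a corner, the corners come in order. -/
theorem branch_order {N : ℕ} (hN : 3 ≤ N) {F : Face} (hreg : ∀ i, Regular N (sideEdge F i))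
    {l i : Fin 3} (hli : l ≠ i) {D : Finset Edge} {η ω : Finset Half} (hη : Valid N D η)
    (hω : Valid N (defects N (sideEdge F l)) ω) (hnot : ∀ x ∈ η, faceOf x ≠ F)
    (heq : ω = η ∪ {halfAt F (l + 1), halfAt F (l + 2)}) (hD : ∀ k, cornerEdge N k ∈ D)
    (ha : Joins ω (cornerEdge N 0) (sideEdge F l))
    (hb : Joins η (cornerEdge N 1) (sideEdge F i)) : i = l + 1 := by
  have hsub : η ⊆ ω := heq ▸ subset_union_left
  have hout : ∀ x ∈ ω, x ∉ η → faceOf x = F := fun x hx hx' => by
    rw [heq, Finset.mem_union] at hx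
    simp only [Finset.mem_insert, Finset.mem_singleton] at hx
    rcases hx.resolve_left hx' with rfl | rfl <;> exact faceOf_halfAt _ _
  have hz := hreg l
  have hDD : defects N (sideEdge F l) ∆ {cornerEdge N 0, sideEdge F l} =
      bdry N (plainCol N) := by
    rw [← defects_symmDiff hN hz]
    congr 1
    ext e
    simp only [Finset.mem_insert, Finset.mem_singleton, Finset.mem_symmDiff]
    have := hz.2 0
    constructor
    · rintro (rfl | rfl)
      exacts [Or.inr ⟨rfl, Ne.symm this⟩, Or.inl ⟨rfl, this⟩]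
    · tauto
  obtain ⟨n, -, hlast, hstrip, s, -, hcfg, hopen⟩ := hω.strip_colour
    (mem_defects.2 (Or.inr ⟨0, rfl⟩)) ha hDD
    (by simp [cornerEdge, plainCol, rgt, vert, faceOf, corner])
    (by simp [cornerEdge, mem_halves, FaceIn, faceOf, corner])
  set S := strandSet ω (defectHalf ω (cornerEdge N 0)) n with hS
  set σ := colOf N (plainCol N) ↑s with hσ
  obtain ⟨t, ht, hte⟩ := hb
  obtain ⟨htm, x, hlead, hmx⟩ := leads_extend hη hω hsub hnot hout (hD 1) ht
  set b := defectHalf η (cornerEdge N 1) with hbdef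
  have hbη : b ∈ η := hη.defectHalf_mem (hD 1)
  have hbT : b = (cornerEdge N 1, true) := by
    have := hη.1 hbη
    refine Prod.ext rfl ?_
    by_contra h
    simp only [Bool.not_eq_true] at h
    rw [show b = (cornerEdge N 1, false) from Prod.ext rfl h, mem_halves] at this
    simp [cornerEdge, FaceIn, faceOf, corner] at this
  have hbS : b ∉ S := by
    intro hbS
    have h1 := hstrip.valid.2.2 (cornerEdge N 1)
    have hne0 := cornerEdge_ne (N := N) (show (1 : Fin 3) ≠ 0 by decide)
    have hfalse : (cornerEdge N 1, false) ∉ S := fun h => by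
      have := hω.1 (hstrip.subset h)
      rw [mem_halves] at this
      simp [cornerEdge, FaceIn, faceOf, corner] at this
    rw [hbT] at hbS
    simp [bit, hbS, hfalse, hne0, Ne.symm (hz.2 1)] at h1
  have hfwd0 : σ (rgt b) = 0 ∧ σ (lft b) = 1 := by
    rw [hbT, hσ]
    simp [colOf, cornerEdge, plainCol, rgt, lft, vert, faceOf, corner, mem_inner]
  have walk := strand_hand hω hstrip.mate_mem hstrip.across_mem hcfg (hsub hbη) hbS
    (u := 0) ⟨hfwd0.1, by rw [zero_add]; exact hfwd0.2⟩
  have htout : t = (sideEdge F i, !F.2) :=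
    (half_eq F i hte).resolve_left fun h => hnot t htm (by rw [h, faceOf_halfAt])
  have hiw : halfAt F i ∈ ω := by
    have hth : ∀ l i : Fin 3, l ≠ i → i = l + 1 ∨ i = l + 2 := by decide
    rcases hth l i hli with rfl | rfl <;> simp [heq]
  have hrt : across ω t = halfAt F i := by
    subst htout
    rw [across, if_pos ⟨hsub htm, by simpa [halfAt, sideEdge] using hiw⟩]
    simp [halfAt, sideEdge]
  have hne : across ω (mate ω x) ≠ mate ω x := by
    rw [hmx, hrt, htout]
    exact fun h => outer_face_ne F i (by rw [← h, faceOf_halfAt])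
  have h2 := hlead.step hne
  rw [hmx, hrt] at h2
  obtain ⟨k, hk, hkx⟩ := h2
  obtain ⟨-, ⟨hclosed, -⟩, -⟩ := walk k hk
  rw [hkx, rgt, faceOf_halfAt] at hclosed
  obtain ⟨u, hu, hu'⟩ : ∃ u, u ∈ S ∧ u.1 = sideEdge F l :=
    ⟨_, mem_strandSet.2 ⟨n, le_rfl, Or.inr rfl⟩, hlast⟩
  have hends : σ (vert F (l + 1)) = 1 ∧ σ (vert F (l + 2)) = 1 := by
    have hl : halfAt F l = (sideEdge F l, F.2) := rfl
    have hends' : σ (lft u) = 1 ∧ σ (rgt u) = 1 := ⟨hopen u hu _, hopen u hu _⟩
    rcases half_eq F l hu' with h | h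
    · rw [h, lft, rgt, faceOf_halfAt] at hends'
      exact hends'
    · cases hF : F.2 <;> simp only [h, hF, Bool.not_false, Bool.not_true] at hends'
      · rw [← rgt_false, ← lft_false, ← hF, ← hl, lft, rgt, faceOf_halfAt] at hends'
        exact ⟨hends'.2, hends'.1⟩
      · rw [lft_false, rgt_false, ← hF, ← hl, lft, rgt, faceOf_halfAt] at hends'
        exact ⟨hends'.2, hends'.1⟩
  have hgeo : ∀ l i : Fin 3, i + 2 ≠ l + 1 → i + 2 ≠ l + 2 → i = l + 1 := by decide
  refine hgeo l i (fun h => ?_) fun h => ?_ <;> change σ (vert F (i + 2)) = 0 at hclosed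
  · rw [h, hends.1] at hclosed
    exact one_ne_zero hclosed
  · rw [h, hends.2] at hclosed
    exact one_ne_zero hclosed

/-- Round the three sides the joined corner is constant or goes round in order. -/
theorem joinedTo_cases {N : ℕ} (hN : 3 ≤ N) {F : Face} (hF : FaceIn N F)
    (hreg : ∀ i, Regular N (sideEdge F i)) {ω : Finset Half}
    (hv : Valid N (defects N (sideEdge F 0)) ω) :
    (∀ j, joinedTo N (sideEdge F j) (moveTo F j ω) = joinedTo N (sideEdge F 0) (moveTo F 0 ω)) ∨
      ∀ j, joinedTo N (sideEdge F (j + 1)) (moveTo F (j + 1) ω) =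
        joinedTo N (sideEdge F j) (moveTo F j ω) + 1 := by
  set π := fun j => joinedTo N (sideEdge F j) (moveTo F j ω) with hπ
  have hval := moveTo_valid hF hreg hv
  have hface := hv.2.1 F
  by_cases hB : halfAt F 0 ∉ ω ∧ halfAt F 1 ∈ ω ∧ halfAt F 2 ∈ ω
  · set η := ω \ {halfAt F 1, halfAt F 2} with hη
    have hin : ∀ l i : Fin 3, halfAt F i ∈ moveTo F l ω ↔ i ≠ l := fun l i => by
      rw [mem_moveTo_inside]
      fin_cases l <;> fin_cases i <;> simp [hB.1, hB.2.1, hB.2.2]
    have hnot : ∀ x ∈ η, faceOf x ≠ F := fun x hx hxF => by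
      obtain ⟨hx1, hx2⟩ := Finset.mem_sdiff.1 hx
      rw [← halfAt_faceOf x, hxF] at hx1 hx2
      generalize x.1.2 = i at hx1 hx2
      fin_cases i
      · exact hB.1 hx1
      · simp at hx2
      · simp at hx2
    have heq : ∀ l, moveTo F l ω = η ∪ {halfAt F (l + 1), halfAt F (l + 2)} := fun l => by
      ext x
      by_cases hxF : faceOf x = F
      · obtain ⟨i, rfl⟩ : ∃ i, x = halfAt F i := ⟨x.1.2, by rw [← hxF, halfAt_faceOf]⟩
        have h1 : halfAt F i ∉ η := fun h => hnot _ h (faceOf_halfAt _ _)
        have h2 : ∀ l i : Fin 3, i ≠ l ↔ i = l + 1 ∨ i = l + 2 := by decide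
        simp [hin, h1, (halfAt_injective F).eq_iff, h2]
      · have hne : ∀ i, x ≠ halfAt F i := fun i h => hxF (h ▸ faceOf_halfAt _ _)
        simp [mem_moveTo_outside hxF, hη, hne]
    have hDη : Valid N (defects N (sideEdge F 0) ∆ {sideEdge F 1, sideEdge F 2}) η := by
      have := hv.symmDiff (valid_pair hF (show (1 : Fin 3) ≠ 2 by decide))
      suffices h : η = ω ∆ {halfAt F 1, halfAt F 2} by rw [h]; exact this
      ext x
      simp only [hη, Finset.mem_sdiff, Finset.mem_symmDiff, Finset.mem_insert,
        Finset.mem_singleton]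
      constructor
      · exact Or.inl
      · rintro (h | ⟨rfl | rfl, h⟩)
        exacts [h, absurd hB.2.1 h, absurd hB.2.2 h]
    set D6 := defects N (sideEdge F 0) ∆ {sideEdge F 1, sideEdge F 2} with hD6
    have hcor : ∀ k, cornerEdge N k ∈ D6 := fun k => by
      refine Finset.mem_symmDiff.2 (Or.inl ⟨mem_defects.2 (Or.inr ⟨k, rfl⟩), fun h => ?_⟩)
      simp only [Finset.mem_insert, Finset.mem_singleton] at h
      rcases h with h | h
      exacts [(hreg 1).2 k h.symm, (hreg 2).2 k h.symm]
    have hlift : ∀ (l k : Fin 3) (y : Edge), Joins η (cornerEdge N k) y →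
        (∀ i, y = sideEdge F i → i = l) → Joins (moveTo F l ω) (cornerEdge N k) y := by
      intro l k y hj hy
      obtain ⟨t, ht, rfl⟩ := hj
      have hsub : η ⊆ moveTo F l ω := heq l ▸ subset_union_left
      have hout : ∀ x ∈ moveTo F l ω, x ∉ η → faceOf x = F := fun x hx hx' => by
        rw [heq l, Finset.mem_union] at hx
        simp only [Finset.mem_insert, Finset.mem_singleton] at hx
        rcases hx.resolve_left hx' with rfl | rfl <;> exact faceOf_halfAt _ _
      obtain ⟨htm, x, hlead, hmx⟩ := leads_extend hDη (hval l) hsub hnot hout (hcor k) ht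
      have hd : defectHalf (moveTo F l ω) (cornerEdge N k) = defectHalf η (cornerEdge N k) := by
        have hne : ∀ i, (cornerEdge N k, true) ≠ halfAt F i := fun i h =>
          (hreg i).2 k (congrArg Prod.fst h :).symm
        simp [defectHalf, heq l, hne]
      have hfix : across (moveTo F l ω) t = t := by
        have hη1 := ht.fixed
        unfold across at hη1 ⊢
        split_ifs with hc
        swap
        · rfl
        have hn2 : (t.1, !t.2) ∉ η := fun h => by
          rw [if_pos ⟨htm, h⟩] at hη1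
          exact absurd (congrArg Prod.snd hη1) (by simp)
        have hFt := hout _ hc.2 hn2
        obtain ⟨i, hi⟩ : ∃ i, (t.1, !t.2) = halfAt F i :=
          ⟨t.1.2, (hFt ▸ halfAt_faceOf (t.1, !t.2)).symm⟩
        obtain rfl : i = l := hy i (congrArg Prod.fst hi :)
        exact absurd rfl ((hin i i).1 (hi ▸ hc.2))
      refine ⟨t, ?_, rfl⟩
      rw [hd, ← hmx]
      exact hlead.endsAt (by rw [hmx, hfix])
    by_cases hall : ∀ k, ∃ i, Joins η (cornerEdge N k) (sideEdge F i)
    · right
      choose g hg using hall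
      have hπg : ∀ k, π (g k) = k := fun k => (joins_iff (hval (g k))).1
        (hlift (g k) k _ (hg k) fun i hi => sideEdge_injective F hi.symm)
      have hne01 : g 0 ≠ g 1 := fun h => by
        have := hπg 1
        rw [← h, hπg 0] at this
        exact absurd this (by decide)
      have h1 : g 1 = g 0 + 1 := branch_order hN hreg hne01 hDη (hval (g 0)) hnot (heq _) hcor
        (hlift (g 0) 0 _ (hg 0) fun i hi => sideEdge_injective F hi.symm) (hg 1)
      have hginj : Function.Injective g := fun u v h => by rw [← hπg u, ← hπg v, h]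
      have hg2 : g 2 = g 0 + 2 := by
        have h3 : ∀ a b : Fin 3, b ≠ a → b ≠ a + 1 → b = a + 2 := by decide
        exact h3 _ _ (hginj.ne (by decide)) (h1 ▸ hginj.ne (by decide))
      intro j
      have hgk : ∀ k, g k = g 0 + k := fun k => by
        fin_cases k
        exacts [(add_zero _).symm, h1, hg2]
      have hπj : ∀ i, π i = i - g 0 := fun i => by
        have := hπg (i - g 0)
        rwa [hgk (i - g 0), add_sub_cancel] at this
      show π (j + 1) = π j + 1
      rw [hπj, hπj]
      exact (by decide : ∀ a b : Fin 3, a + 1 - b = a - b + 1) j (g 0)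
    · left
      rw [not_forall] at hall
      obtain ⟨c, hc⟩ := hall
      rw [not_exists] at hc
      obtain ⟨y, hyD, hyne, hy⟩ := hDη.exists_joins (hcor c)
      obtain ⟨c', rfl⟩ : ∃ c', y = cornerEdge N c' := by
        rcases Finset.mem_symmDiff.1 hyD with ⟨h, -⟩ | ⟨h, -⟩
        · exact ((mem_defects.1 h).resolve_left fun e => hc 0 (e ▸ hy))
        · simp only [Finset.mem_insert, Finset.mem_singleton] at h
          rcases h with h | h
          exacts [absurd (h ▸ hy) (hc 1), absurd (h ▸ hy) (hc 2)]
      have hcc : c ≠ c' := fun h => hyne (h ▸ rfl)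
      have key : ∀ l, π l ≠ c ∧ π l ≠ c' := fun l => by
        have hj := hlift l c _ hy fun i hi => absurd hi.symm ((hreg i).2 c')
        refine ⟨fun h => ?_, fun h => ?_⟩
        · exact (hreg l).2 c' (((joins_iff (hval l)).2 h).unique hj)
        · have hj' := ((hval l).joins_symm (mem_defects.2 (Or.inr ⟨c, rfl⟩)) hj).2
          exact (hreg l).2 c (((joins_iff (hval l)).2 h).unique hj')
      intro j
      have h3 : ∀ c c' a b : Fin 3, c ≠ c' → a ≠ c → a ≠ c' → b ≠ c → b ≠ c' → a = b := by decide
      exact h3 c c' _ _ hcc (key j).1 (key j).2 (key 0).1 (key 0).2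
  · left
    obtain ⟨i, hi⟩ : ∃ i, ∀ l, halfAt F l ∉ moveTo F i ω := by
      by_cases h0 : halfAt F 0 ∈ ω <;> by_cases h1 : halfAt F 1 ∈ ω <;>
        by_cases h2 : halfAt F 2 ∈ ω <;>
        simp [bit, h0, h1, h2] at hface hB
      all_goals first
        | exact absurd hface (by decide)
        | (refine ⟨0, fun l => ?_⟩; fin_cases l <;> simp [mem_moveTo_inside, h0, h1, h2] <;> done)
        | (refine ⟨1, fun l => ?_⟩; fin_cases l <;> simp [mem_moveTo_inside, h0, h1, h2] <;> done)
        | (refine ⟨2, fun l => ?_⟩; fin_cases l <;> simp [mem_moveTo_inside, h0, h1, h2])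
    have hsame : ∀ j, π j = π i := by
      intro j
      by_cases hij : i = j
      · rw [hij]
      refine (joins_iff (hval j)).1 (joins_through hreg (hval i) (hval j) hi ?_
        ((joins_iff (hval i)).2 rfl))
      ext x
      by_cases hxF : faceOf x = F
      · obtain ⟨l, rfl⟩ : ∃ l, x = halfAt F l := ⟨x.1.2, by rw [← hxF, halfAt_faceOf]⟩
        have hl := hi l
        simp only [Finset.mem_union, hl, false_or, Finset.mem_insert, Finset.mem_singleton,
          (halfAt_injective F).eq_iff]
        rw [mem_moveTo_inside] at hl ⊢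
        revert hl hij
        generalize (halfAt F l ∈ ω) = p
        fin_cases i <;> fin_cases j <;> fin_cases l <;> by_cases hp : p <;> simp [hp]
      · have hne : ∀ i, x ≠ halfAt F i := fun i h => hxF (h ▸ faceOf_halfAt _ _)
        simp [mem_moveTo_outside hxF, hne]
    intro j
    exact (hsame j).trans (hsame 0).symm

/-- **The identity at a face**: three differences of observables agree. -/
theorem obs_face {N : ℕ} (hN : 3 ≤ N) {F : Face} (hF : FaceIn N F)
    (hreg : ∀ i, Regular N (sideEdge F i)) (k j : Fin 3) :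
    obs N (k + 1) (sideEdge F (j + 1)) - obs N k (sideEdge F j) =
      obs N (k + 1) (sideEdge F 1) - obs N k (sideEdge F 0) := by
  have count : ∀ j k, obs N k (sideEdge F j) =
      (∑ ω ∈ confSet N (defects N (sideEdge F 0)),
        if joinedTo N (sideEdge F j) (moveTo F j ω) = k then (1 : ℝ) else 0) /
        2 ^ (inner N).card := by
    intro j k
    rw [obs, sum_boole]
    congr 2
    have hinv : ∀ ω, moveTo F j (moveTo F j ω) = ω := fun ω => by
      unfold moveTo
      split_ifs
      · rfl
      · exact symmDiff_symmDiff_cancel_right _ _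
    refine card_nbij' (moveTo F j) (moveTo F j) (fun ω hω => ?_) (fun ω hω => ?_)
      (fun ω _ => hinv ω) (fun ω _ => hinv ω)
    · obtain ⟨h1, h2⟩ := Finset.mem_filter.1 hω
      have hv' : Valid N (defects N (sideEdge F 0)) (moveTo F j ω) := by
        unfold moveTo
        split_ifs with hj
        · subst hj
          exact mem_confSet.1 h1
        · have := (mem_confSet.1 h1).symmDiff (valid_pair hF (fun h => hj h.symm : (0 : Fin 3) ≠ j))
          rwa [show ({(halfAt F 0).1, (halfAt F j).1} : Finset Edge) =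
              {sideEdge F j, sideEdge F 0} from Finset.pair_comm _ _,
            symmDiff_defects (hreg j) (hreg 0) fun h => hj (sideEdge_injective F h)] at this
      refine Finset.mem_filter.2 ⟨mem_confSet.2 hv', ?_⟩
      rw [hinv]
      exact (joins_iff (mem_confSet.1 h1)).1 h2
    · obtain ⟨h1, h2⟩ := Finset.mem_filter.1 hω
      have hv' := moveTo_valid hF hreg (mem_confSet.1 h1) j
      exact Finset.mem_filter.2 ⟨mem_confSet.2 hv', (joins_iff hv').2 h2⟩
  simp only [count, ← sub_div, ← sum_sub_distrib]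
  congr 1
  refine sum_congr rfl fun ω hω => ?_
  rcases joinedTo_cases hN hF hreg (mem_confSet.1 hω) with h | h
  · simp [h]
  · have h1 : joinedTo N (sideEdge F 1) (moveTo F 1 ω) =
        joinedTo N (sideEdge F 0) (moveTo F 0 ω) + 1 := h 0
    simp [h j, h1]

end FA.Cardy
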